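import Fermat.Agent.KroneckerLimit.TwoSquares
import Mathlib.Analysis.Real.Pi.Leibniz

/-!
# The character modulo `4` on progressions and the representations as two squares

The sums of `χ₄` over an interval of a progression with difference not divisible by `4` are
bounded by `2`, whatever the class; `∑_{a > M} χ₄ (a) / a` is at most `1 / (M + 1)` in absolute
value, the full sum being `π / 4`; `r n = 4 ∑_{d ∣ n} χ₄ d`.
-/

set_option autoImplicit false

noncomputable section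

namespace FA.PrimeTwoSquares

open Finset Filter
open scoped Topology

/-- The character modulo `4`, with real values. -/
def chi (n : ℕ) : ℝ := ((ZMod.χ₄ (n : ZMod 4) : ℤ) : ℝ)

/-- The number of pairs of integers `(x, y)` with `x² + y² = n`. -/
def twoSquares (n : ℕ) : ℕ := (KroneckerLimit.squarePairs n).ncard

theorem chi_mul (m n : ℕ) : chi (m * n) = chi m * chi n := by
  rw [chi, chi, chi, Nat.cast_mul, map_mul, Int.cast_mul]

theorem chi_one : chi 1 = 1 := by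
  rw [chi, Nat.cast_one, map_one, Int.cast_one]

theorem abs_chi_le (n : ℕ) : |chi n| ≤ 1 := by
  have h : ∀ z : ZMod 4, |ZMod.χ₄ z| ≤ 1 := by decide
  rw [chi, ← Int.cast_abs]
  exact_mod_cast h n

theorem chi_of_even {n : ℕ} (h : 2 ∣ n) : chi n = 0 := by
  rw [chi, ZMod.χ₄_nat_eq_if_mod_four, if_pos (Nat.mod_eq_zero_of_dvd h), Int.cast_zero]

theorem chi_congr {m n : ℕ} (h : m % 4 = n % 4) : chi m = chi n := by
  rw [chi, chi, ZMod.χ₄_nat_mod_four m, ZMod.χ₄_nat_mod_four n, h]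

theorem chi_eq_ite (n : ℕ) : chi n = if n % 4 = 1 then 1 else if n % 4 = 3 then -1 else 0 := by
  have h4 := Nat.mod_lt n (show 4 > 0 by norm_num)
  rw [chi, ZMod.χ₄_nat_eq_if_mod_four]
  split_ifs <;> first | (exfalso; omega) | simp

theorem chi_sq (n : ℕ) : chi n * chi n = if n % 2 = 1 then 1 else 0 := by
  rw [chi_eq_ite]
  split_ifs <;> first | (exfalso; omega) | simp

theorem abs_chi_prog_le (c k : ℕ) (hk : ¬ 4 ∣ k) (T : ℕ) :
    |∑ t ∈ range T, chi (c + k * t)| ≤ 1 := by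
  have hper : ∀ t, chi (c + k * (t + 4)) = chi (c + k * t) := fun t => chi_congr (by
    rw [mul_add, ← add_assoc, mul_comm k 4, Nat.add_mul_mod_self_left])
  have h4 : ∀ a : ℕ, a < 4 → ∀ b : ℕ, b < 4 → 0 < b → ∀ r, r < 5 →
      |∑ t ∈ range r, (ZMod.χ₄ ((a : ZMod 4) + (b : ZMod 4) * (t : ZMod 4)) : ℤ)| ≤ 1 ∧
        ∑ t ∈ range 4, (ZMod.χ₄ ((a : ZMod 4) + (b : ZMod 4) * (t : ZMod 4)) : ℤ) = 0 := by
    decide
  have hb := h4 (c % 4) (Nat.mod_lt _ (by norm_num)) (k % 4) (Nat.mod_lt _ (by norm_num))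
    (Nat.pos_of_ne_zero fun h => hk (Nat.dvd_of_mod_eq_zero h))
  have hcast : ∀ r, ∑ t ∈ range r, chi (c + k * t) =
      ((∑ t ∈ range r, (ZMod.χ₄ (((c % 4 : ℕ) : ZMod 4) +
        ((k % 4 : ℕ) : ZMod 4) * (t : ZMod 4)) : ℤ) : ℤ) : ℝ) := fun r => by
    push_cast
    refine sum_congr rfl fun t _ => ?_
    rw [chi]
    push_cast
    rw [ZMod.natCast_mod, ZMod.natCast_mod]
  have hfour : ∀ q r, ∑ t ∈ range (4 * q + r), chi (c + k * t) =
      ∑ t ∈ range r, chi (c + k * t) := fun q => by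
    induction q with
    | zero => simp
    | succ q ih =>
      intro r
      rw [show 4 * (q + 1) + r = 4 * q + (r + 4) by ring, ih, add_comm r 4, sum_range_add,
        hcast 4, (hb 4 (by norm_num)).2, Int.cast_zero, zero_add]
      exact sum_congr rfl fun t _ => by rw [add_comm 4 t, hper]
  rw [← Nat.div_add_mod T 4, hfour, hcast, ← Int.cast_abs]
  exact_mod_cast (hb (T % 4) (by omega)).1

/-- The interval of a progression. -/
theorem abs_sum_chi_class_le {k : ℕ} (hk : ¬ 4 ∣ k) (c M : ℕ) :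
    |∑ a ∈ (range M).filter (fun a => a % k = c), chi a| ≤ 1 := by
  have hk0 : 0 < k := Nat.pos_of_ne_zero fun h => hk (h ▸ dvd_zero 4)
  rcases le_or_gt k c with hc | hc
  · rw [filter_false_of_mem fun a _ => ((Nat.mod_lt a hk0).trans_le hc).ne, sum_empty, abs_zero]
    exact zero_le_one
  refine le_of_eq_of_le ?_ (abs_chi_prog_le c k hk ((M + (k - 1) - c) / k))
  have hlt : ∀ t : ℕ, t < (M + (k - 1) - c) / k ↔ c + k * t < M := fun t => by
    rw [Nat.lt_iff_add_one_le, Nat.le_div_iff_mul_le hk0, add_mul, one_mul, mul_comm t k]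
    omega
  congr 1
  refine sum_nbij' (fun a => a / k) (fun t => c + k * t) ?_ ?_ ?_ ?_ ?_
  · intro a ha
    rw [mem_filter, mem_range] at ha
    have h1 := Nat.mod_add_div a k
    rw [mem_range, hlt]
    omega
  · intro t ht
    rw [mem_range, hlt] at ht
    rw [mem_filter, mem_range, Nat.add_mul_mod_self_left, Nat.mod_eq_of_lt hc]
    exact ⟨ht, rfl⟩
  · intro a ha
    rw [mem_filter] at ha
    rw [← ha.2]
    exact Nat.mod_add_div a k
  · intro t _
    rw [Nat.add_mul_div_left _ _ hk0, Nat.div_eq_of_lt hc, zero_add]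
  · intro a ha
    rw [mem_filter] at ha
    rw [← ha.2, Nat.mod_add_div]

theorem range_succ_filter_eq {u v : ℕ} (huv : u ≤ v) (P : ℕ → Prop) [DecidablePred P] (f : ℕ → ℝ) :
    ∑ a ∈ (Ioc u v).filter P, f a =
      ∑ a ∈ (range (v + 1)).filter P, f a - ∑ a ∈ (range (u + 1)).filter P, f a := by
  rw [sum_filter, sum_filter, sum_filter, eq_sub_iff_add_eq, add_comm,
    sum_range_add_sum_Ico _ (by omega : u + 1 ≤ v + 1) |>.symm]
  refine congrArg _ (sum_congr ?_ fun _ _ => rfl)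
  ext a
  simp only [mem_Ico, mem_Ioc]
  omega

/-- **The sums over a congruence `k ∣ r - s a`, `k` not divisible by a square.** -/
theorem abs_sum_chi_dvd_le {k : ℕ} (hk : Squarefree k) (u v : ℕ) (r s : ℤ) :
    |∑ a ∈ (Ioc u v).filter (fun a : ℕ => (k : ℤ) ∣ r - s * a), chi a| ≤ 2 := by
  rcases le_or_gt v u with h | huv
  · rw [Ioc_eq_empty (by omega), filter_empty, sum_empty, abs_zero]
    exact zero_le_two
  rcases ((Ioc u v).filter (fun a : ℕ => (k : ℤ) ∣ r - s * a)).eq_empty_or_nonempty with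
    he | ⟨a₀, ha₀⟩
  · rw [he, sum_empty, abs_zero]
    exact zero_le_two
  rw [mem_filter] at ha₀
  obtain ⟨g, hg⟩ : ∃ g, g = Int.gcd s k := ⟨_, rfl⟩
  have hg0 : 0 < g := hg ▸ Int.gcd_pos_of_ne_zero_right _ (by exact_mod_cast hk.ne_zero)
  obtain ⟨k', hk'⟩ : g ∣ k := hg ▸ by exact_mod_cast Int.gcd_dvd_right s (k : ℤ)
  have hk4 : ¬ 4 ∣ k' := fun h =>
    (Nat.prime_two.not_isUnit) (hk 2 (h.trans (hk' ▸ dvd_mul_left k' g)))
  obtain ⟨s', hs'⟩ : (g : ℤ) ∣ s := hg ▸ Int.gcd_dvd_left s (k : ℤ)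
  have hco : Int.gcd (k' : ℤ) s' = 1 := by
    have h : g = g * Int.gcd s' k' := by
      conv_lhs => rw [hg, hs', hk', Nat.cast_mul, Int.gcd_mul_left, Int.natAbs_natCast]
    rw [Int.gcd_comm]
    exact (mul_eq_left₀ hg0.ne').1 h.symm
  have hiff : ∀ a : ℕ, (k : ℤ) ∣ r - s * a ↔ a % k' = a₀ % k' := fun a => by
    rw [← dvd_sub_left ha₀.2, show r - s * a - (r - s * a₀) = s * ((a₀ : ℤ) - a) by ring, hk',
      hs', Nat.cast_mul, mul_assoc, mul_dvd_mul_iff_left (Nat.cast_ne_zero.2 hg0.ne')]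
    exact ⟨fun h => (Nat.modEq_iff_dvd.2 (Int.dvd_of_dvd_mul_right_of_gcd_one h hco) :
        a ≡ a₀ [MOD k']), fun h => (Nat.modEq_iff_dvd.1 h).mul_left s'⟩
  rw [filter_congr fun a _ => hiff a, range_succ_filter_eq huv.le]
  refine (abs_sub _ _).trans ?_
  linarith [abs_sum_chi_class_le hk4 (a₀ % k') (v + 1), abs_sum_chi_class_le hk4 (a₀ % k') (u + 1)]

theorem abs_sum_chi_Ioc_le (u v : ℕ) : |∑ a ∈ Ioc u v, chi a| ≤ 1 := by
  rcases le_or_gt v u with h | huv
  · rw [Ioc_eq_empty (by omega), sum_empty, abs_zero]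
    exact zero_le_one
  refine le_of_eq_of_le ?_ (abs_chi_prog_le (u + 1) 1 (by norm_num) (v - u))
  congr 1
  refine sum_nbij' (fun a => a - (u + 1)) (fun t => u + 1 + t) ?_ ?_ ?_ ?_ ?_ <;>
    intro a ha <;> simp only [mem_Ioc, mem_range] at ha ⊢ <;>
    first | omega | exact congrArg chi (by omega)

/-- The partial sums of `χ₄ (a) / a` over `(M, K]`. -/
theorem abs_sum_chi_div_le (M K : ℕ) :
    |∑ a ∈ Ioc M K, chi a / a| ≤ 1 / (M + 1 : ℝ) := by
  rcases le_or_gt K M with h | hMK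
  · rw [Ioc_eq_empty (by omega), sum_empty, abs_zero]
    positivity
  have h0 : ∀ j, M ≤ j → |∑ a ∈ Ioc M (j + 1), chi a / a -
      (∑ a ∈ Ioc M (j + 1), chi a) / (j + 1 : ℝ)| ≤ 1 / (M + 1 : ℝ) - 1 / (j + 1 : ℝ) := by
    intro j hj
    induction j, hj using Nat.le_induction with
    | base => simp
    | succ j hj ih =>
      rw [← insert_Ioc_right_eq_Ioc_add_one (show M ≤ j + 1 by omega),
        sum_insert (by simp), sum_insert (by simp)]
      have hj0 : (0 : ℝ) < (j : ℝ) + 1 := by positivity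
      have hs := abs_sum_chi_Ioc_le M (j + 1)
      rw [abs_le] at hs ih ⊢
      have hd : 0 ≤ 1 / ((j : ℝ) + 1) - 1 / ((j : ℝ) + 1 + 1) :=
        sub_nonneg.2 (one_div_le_one_div_of_le hj0 (by linarith))
      have h1 := mul_le_mul_of_nonneg_right hs.1 hd
      have h2 := mul_le_mul_of_nonneg_right hs.2 hd
      push_cast
      rw [show chi (j + 1 + 1) / ((j : ℝ) + 1 + 1) + ∑ a ∈ Ioc M (j + 1), chi a / a -
        (chi (j + 1 + 1) + ∑ a ∈ Ioc M (j + 1), chi a) / ((j : ℝ) + 1 + 1) =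
        (∑ a ∈ Ioc M (j + 1), chi a / a - (∑ a ∈ Ioc M (j + 1), chi a) / ((j : ℝ) + 1)) +
          (∑ a ∈ Ioc M (j + 1), chi a) * (1 / ((j : ℝ) + 1) - 1 / ((j : ℝ) + 1 + 1)) by ring]
      constructor <;> linarith [ih.1, ih.2]
  obtain ⟨j, rfl⟩ : ∃ j, K = j + 1 := ⟨K - 1, by omega⟩
  have h1 := h0 j (by omega)
  have h2 : |(∑ a ∈ Ioc M (j + 1), chi a) / (j + 1 : ℝ)| ≤ 1 / (j + 1 : ℝ) := by
    rw [abs_div, abs_of_pos (show (0 : ℝ) < j + 1 by positivity)]
    exact div_le_div_of_nonneg_right (abs_sum_chi_Ioc_le _ _) (by positivity)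
  rw [abs_le] at h1 h2 ⊢
  constructor <;> linarith [h1.1, h1.2, h2.1, h2.2]

theorem sum_chi_div_two_mul (k : ℕ) :
    ∑ a ∈ Ioc 0 (2 * k), chi a / a = ∑ i ∈ range k, (-1 : ℝ) ^ i / (2 * i + 1) := by
  induction k with
  | zero => simp
  | succ k ih =>
    rw [show 2 * (k + 1) = 2 * k + 1 + 1 by ring, sum_Ioc_succ_top (by omega),
      sum_Ioc_succ_top (by omega), ih, sum_range_succ, add_assoc,
      chi_of_even (show 2 ∣ 2 * k + 1 + 1 by omega), zero_div, add_zero]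
    congr 1
    rw [show chi (2 * k + 1) = (-1 : ℝ) ^ k by
      rw [chi, ZMod.χ₄_eq_neg_one_pow (by omega), show (2 * k + 1) / 2 = k by omega]
      simp]
    push_cast
    ring

/-- **`L (1, χ₄) = π / 4`**, with the tail. -/
theorem abs_sum_chi_div_sub_pi_le (M : ℕ) :
    |∑ a ∈ Ioc 0 M, chi a / a - Real.pi / 4| ≤ 1 / (M + 1 : ℝ) := by
  refine le_of_tendsto ((tendsto_const_nhds.sub Real.tendsto_sum_pi_div_four).abs) ?_
  filter_upwards [eventually_ge_atTop M] with k hk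
  rw [← sum_chi_div_two_mul, ← sum_Ioc_consecutive _ (Nat.zero_le M) (show M ≤ 2 * k by omega),
    sub_add_cancel_left, abs_neg]
  exact abs_sum_chi_div_le _ _

/-- **Jacobi's theorem**, real valued. -/
theorem twoSquares_eq {n : ℕ} (hn : 0 < n) : (twoSquares n : ℝ) = 4 * ∑ d ∈ n.divisors, chi d := by
  have h := congrArg (fun z : ℤ => (z : ℝ)) (KroneckerLimit.ncard_squarePairs hn)
  simp only [KroneckerLimit.charDivisorSum, Int.cast_mul, Int.cast_sum, Int.cast_natCast,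
    Int.cast_ofNat] at h
  exact h

end FA.PrimeTwoSquares
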