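import Fermat.Agent.PrimeTwoSquares.Weighted

/-!
# The unweighted asymptotic formula

Removing the logarithm: for `b ≠ 0`, `|b| ≤ N` the number of `(m, x, y)` with `m ≤ N`, `|b - m|`
prime and `m = x² + y²` is `(S |b| + O ((log N) ^ (-1/2500))) N / log N`.
-/

set_option autoImplicit false

noncomputable section

namespace FA.PrimeTwoSquares

open Finset Filter
open scoped Topology

/-- The number of representations. -/
def repCount (b : ℤ) (N : ℕ) : ℝ := ∑ m ∈ primeShifts b N, (twoSquares m : ℝ)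

theorem series_le {n : ℕ} (hn : 0 < n) :
    twoSquareSeries n ≤ Real.pi * eulerBound * ((n : ℝ) / (n.totient : ℕ)) := by
  refine le_of_tendsto (tendsto_seriesProd hn) ?_
  filter_upwards [eventually_gt_atTop n] with K hK
  rw [mul_assoc]
  refine mul_le_mul_of_nonneg_left ?_ Real.pi_pos.le
  have hp' : ∀ p ∈ K.primesBelow, p.Prime := fun p hp => (Nat.mem_primesBelow.1 hp).2
  have hsub : n.primeFactors = K.primesBelow.filter (· ∣ n) := by
    ext p
    simp only [mem_filter, Nat.mem_primesBelow, Nat.mem_primeFactors]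
    exact ⟨fun h => ⟨⟨(Nat.le_of_dvd hn h.2.1).trans_lt hK, h.1⟩, h.2.1⟩,
      fun h => ⟨h.1.2, h.2, hn.ne'⟩⟩
  have hn0 : (0 : ℝ) < n := Nat.cast_pos.2 hn
  have hratio : (n : ℝ) / (n.totient : ℕ) = ∏ p ∈ n.primeFactors, (1 - (p : ℝ)⁻¹)⁻¹ := by
    rw [prod_inv_distrib, MertensThird.totient_eq_prod, div_eq_mul_inv, mul_inv, ← mul_assoc,
      mul_inv_cancel₀ hn0.ne', one_mul]
  rw [hratio, hsub, seriesProd, ← prod_filter_mul_prod_filter_not K.primesBelow (· ∣ n), mul_comm]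
  have hpos : ∀ p ∈ K.primesBelow, 0 ≤ 1 + chi p * seriesWeight n p / p := fun p hp => by
    rw [seriesWeight]
    split_ifs
    · have h2 : (2 : ℝ) ≤ p := Nat.ofNat_le_cast.2 (hp' p hp).two_le
      rw [mul_neg, mul_one, neg_div, ← sub_eq_add_neg, sub_nonneg, div_le_one (by linarith)]
      linarith [(abs_le.1 (abs_chi_le p)).2]
    · linarith [base_pos (hp' p hp)]
  refine mul_le_mul ?_ (prod_le_prod (fun p hp => hpos p (mem_filter.1 hp).1) fun p hp => ?_)
    (prod_nonneg fun p hp => hpos p (mem_filter.1 hp).1) eulerBound_pos.le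
  · refine le_trans (prod_le_prod (fun p hp => hpos p (mem_filter.1 hp).1) fun p hp => ?_)
      (prod_invPred_div_le fun p hp => hp' p (mem_filter.1 hp).1)
    rw [seriesWeight, if_neg (mem_filter.1 hp).2]
    exact add_le_add le_rfl (div_le_div_of_nonneg_right (mul_le_of_le_one_left
      (invPred_nonneg hp' p (mem_filter.1 hp).1) (abs_le.1 (abs_chi_le p)).2) (Nat.cast_nonneg p))
  · have h2 : (2 : ℝ) ≤ p := Nat.ofNat_le_cast.2 (hp' p (mem_filter.1 hp).1).two_le
    rw [seriesWeight, if_pos (mem_filter.1 hp).2, mul_neg, mul_one, neg_div, ← sub_eq_add_neg,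
      show (1 - (p : ℝ)⁻¹)⁻¹ = (p : ℝ) / ((p : ℝ) - 1) by field_simp]
    rw [le_div_iff₀ (by linarith), sub_mul, one_mul, div_mul_eq_mul_div, sub_le_iff_le_add,
      ← sub_le_iff_le_add', le_div_iff₀ (by linarith)]
    nlinarith [(abs_le.1 (abs_chi_le p)).1]

theorem chiDivisorSum_nonneg {m : ℕ} (hm : 0 < m) : 0 ≤ chiDivisorSum m := by
  have h := twoSquares_eq hm
  rw [← chiDivisorSum] at h
  linarith [Nat.cast_nonneg (α := ℝ) (twoSquares m)]

theorem chiDivisorSum_le_card (m : ℕ) : chiDivisorSum m ≤ m.divisors.card :=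
  ((sum_le_card_nsmul _ _ (1 : ℝ) fun d _ => (le_abs_self _).trans (abs_chi_le d))).trans
    (le_of_eq (by rw [nsmul_one]))

theorem repCount_eq (b : ℤ) (N : ℕ) :
    repCount b N = 4 * ∑ m ∈ primeShifts b N, chiDivisorSum m := by
  rw [repCount, mul_sum]
  exact sum_congr rfl fun m hm => twoSquares_eq (mem_Icc.1 (mem_filter.1 hm).1).1

/-- The small primes carry little. -/
theorem small_primes_sum_le {b : ℤ} {N : ℕ} {Y : ℝ} (hY : 0 ≤ Y) :
    ∑ m ∈ (primeShifts b N).filter (fun m : ℕ => (((b - m).natAbs : ℕ) : ℝ) ≤ Y),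
      chiDivisorSum m ≤ Real.sqrt ((2 * Y + 1) * (N * ThreePrimes.logOne N ^ 3)) := by
  obtain ⟨A, hA⟩ : ∃ A, A = (primeShifts b N).filter
      fun m : ℕ => (((b - m).natAbs : ℕ) : ℝ) ≤ Y := ⟨_, rfl⟩
  rw [← hA]
  have hAI : A ⊆ Ioc 0 N := fun m hm => by
    rw [hA, mem_filter, primeShifts, mem_filter, mem_Icc] at hm
    exact mem_Ioc.2 ⟨hm.1.1.1, hm.1.1.2⟩
  have hcard : (#A : ℝ) ≤ 2 * Y + 1 := by
    refine (Nat.cast_le.2 (card_le_card_of_injOn (fun m : ℕ => b - (m : ℤ))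
      (t := Icc (-((⌊Y⌋₊ : ℕ) : ℤ)) (⌊Y⌋₊ : ℕ)) (fun m hm => ?_) ?_)).trans ?_
    · rw [mem_coe, hA, mem_filter] at hm
      have h1 : (b - (m : ℤ)).natAbs ≤ ⌊Y⌋₊ := Nat.le_floor hm.2
      simp only [coe_Icc, Set.mem_Icc]
      omega
    · intro x _ y _ h
      simpa using h
    · rw [Int.card_Icc, show ((⌊Y⌋₊ : ℕ) : ℤ) + 1 - -((⌊Y⌋₊ : ℕ) : ℤ) =
        ((2 * ⌊Y⌋₊ + 1 : ℕ) : ℤ) by push_cast; ring, Int.toNat_natCast]
      push_cast
      linarith [Nat.floor_le hY]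
  have h := Real.sum_mul_le_sqrt_mul_sqrt A (fun _ => (1 : ℝ)) fun m => (m.divisors.card : ℝ)
  simp only [one_mul, one_pow, sum_const, nsmul_one] at h
  refine ((sum_le_sum fun m _ => chiDivisorSum_le_card m).trans h).trans ?_
  rw [← Real.sqrt_mul (Nat.cast_nonneg _)]
  refine Real.sqrt_le_sqrt (mul_le_mul hcard ?_ (sum_nonneg fun m _ => sq_nonneg _) (by linarith))
  exact (sum_le_sum_of_subset_of_nonneg hAI fun m _ _ => sq_nonneg _).trans
    (ThreePrimes.sum_card_divisors_sq_le N)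

theorem small_primes_negligible {L l M : ℝ} (hL : 200 ≤ L) (hl : L = Real.exp l)
    (hM : 0 ≤ M) :
    Real.sqrt ((2 * (M / L ^ 14) + 1) * (M * (1 + L) ^ 3)) ≤
      4 * M / L ^ 5 + 4 * Real.sqrt M * L ^ 2 := by
  have hL0 : 0 < L := hl ▸ Real.exp_pos l
  rw [Real.sqrt_le_left (by positivity)]
  have h1 : (1 + L) ^ 3 ≤ 8 * L ^ 3 := by
    calc (1 + L) ^ 3 ≤ (2 * L) ^ 3 := pow_le_pow_left₀ (by linarith) (by linarith) 3
      _ = _ := by ring
  refine (mul_le_mul_of_nonneg_left (mul_le_mul_of_nonneg_left h1 hM) (by positivity)).trans ?_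
  have hs := Real.sq_sqrt hM
  have h4 : L ^ 10 ≤ L ^ 11 := pow_le_pow_right₀ (by linarith) (by norm_num)
  have h5 : 16 * M ^ 2 / L ^ 11 ≤ 16 * M ^ 2 / L ^ 10 :=
    div_le_div_of_nonneg_left (by positivity) (by positivity) h4
  have h6 : 8 * M * L ^ 3 ≤ 16 * M * L ^ 4 := by
    have h7 : L ^ 3 ≤ 2 * L ^ 4 := by
      have : L ^ 3 ≤ L ^ 4 := pow_le_pow_right₀ (by linarith) (by norm_num)
      linarith [pow_nonneg hL0.le 4]
    linarith [mul_le_mul_of_nonneg_left h7 (show 0 ≤ 8 * M by linarith)]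
  have hcross : 0 ≤ 2 * (4 * M / L ^ 5) * (4 * Real.sqrt M * L ^ 2) := by positivity
  have e1 : (2 * (M / L ^ 14) + 1) * (M * (8 * L ^ 3)) =
      16 * M ^ 2 / L ^ 11 + 8 * M * L ^ 3 := by
    field_simp
    ring
  have e2 : (4 * M / L ^ 5 + 4 * Real.sqrt M * L ^ 2) ^ 2 = 16 * M ^ 2 / L ^ 10 + 16 * M * L ^ 4 +
      2 * (4 * M / L ^ 5) * (4 * Real.sqrt M * L ^ 2) := by
    have e3 : (4 * M / L ^ 5 + 4 * Real.sqrt M * L ^ 2) ^ 2 = 16 * M ^ 2 / L ^ 10 +
        16 * Real.sqrt M ^ 2 * L ^ 4 +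
        2 * (4 * M / L ^ 5) * (4 * Real.sqrt M * L ^ 2) := by ring
    rw [e3, hs]
  rw [e1, e2]
  linarith

/-- **The asymptotic formula, without weights.** -/
theorem eventually_repCount : ∀ᶠ N : ℕ in atTop, ∀ b : ℤ, b ≠ 0 → b.natAbs ≤ N →
    |repCount b N * Real.log N / N - twoSquareSeries b.natAbs| ≤
      Real.exp (-(1 / 2500) * Real.log (Real.log N)) := by
  obtain ⟨Cp, hCp, hratio⟩ := exists_ratio_le
  obtain ⟨Cs, hCs⟩ : ∃ Cs : ℝ, Cs = Real.pi * eulerBound * Cp := ⟨_, rfl⟩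
  have hCs0 : 0 < Cs := by
    have := eulerBound_pos
    rw [hCs]
    positivity
  filter_upwards [eventually_weighted, hratio, eventually_ge_atTop 2, eventually_ge_log 200,
    eventually_ge_loglog 8, eventually_loglog_le 200,
    eventually_loglog_pow_le (1000 * (Cs + 40)) (show (0 : ℝ) < 1 / 2 by norm_num) 2,
    tendsto_loglog.eventually (eventually_ge_atTop 20000)]
    with N hwN hrN hN2 hL200 hl hlL hexp hl20 b hb0 hb
  have hw := hwN b hb0 hb
  have hr := hrN b.natAbs hb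
  clear hwN hrN
  obtain ⟨L, hLd⟩ : ∃ L, L = Real.log N := ⟨_, rfl⟩
  obtain ⟨l, hld⟩ : ∃ l, l = Real.log L := ⟨_, rfl⟩
  rw [← hLd] at hL200 hlL hexp hl20 hl hw hr ⊢
  rw [← hld] at hlL hexp hl20 hl hw hr ⊢
  have hN0 : (0 : ℝ) < N := Nat.cast_pos.2 (by omega)
  have hL0 : 0 < L := by linarith
  have hLl : L = Real.exp l := by rw [hld, Real.exp_log hL0]
  have hS : twoSquareSeries b.natAbs ≤ Cs * l := by
    refine (series_le (Int.natAbs_pos.2 hb0)).trans ?_
    rw [hCs, mul_assoc (Real.pi * eulerBound)]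
    exact mul_le_mul_of_nonneg_left hr (mul_nonneg Real.pi_pos.le eulerBound_pos.le)
  obtain ⟨S, hSd⟩ : ∃ S, S = twoSquareSeries b.natAbs := ⟨_, rfl⟩
  rw [← hSd] at hS hw ⊢
  obtain ⟨g, hg⟩ : ∃ g, g = ∑ m ∈ primeShifts b N, chiDivisorSum m := ⟨_, rfl⟩
  rw [repCount_eq, ← hg]
  obtain ⟨Y, hY⟩ : ∃ Y : ℝ, Y = N / L ^ 14 := ⟨_, rfl⟩
  have hY0 : 0 < Y := hY ▸ by positivity
  obtain ⟨σ, hσ⟩ : ∃ σ, σ = ∑ m ∈ (primeShifts b N).filter
      (fun m : ℕ => (((b - m).natAbs : ℕ) : ℝ) ≤ Y), chiDivisorSum m := ⟨_, rfl⟩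
  have hσle : σ ≤ 4 * N / L ^ 5 + 4 * Real.sqrt N * L ^ 2 := by
    rw [hσ]
    refine (small_primes_sum_le hY0.le).trans (le_of_eq_of_le ?_
      (small_primes_negligible hL200 hLl hN0.le))
    rw [hY, ThreePrimes.logOne, ← hLd]
  have hσ0 : 0 ≤ σ := hσ ▸ sum_nonneg fun m hm =>
    chiDivisorSum_nonneg (mem_Icc.1 (mem_filter.1 (mem_filter.1 hm).1).1).1
  have hkey : |g * L - weightedSum b N| ≤ 15 * l * g + 2 * L * σ := by
    rw [hg, hσ, weightedSum, sum_mul, ← sum_sub_distrib, mul_sum, mul_sum, sum_filter,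
      ← sum_add_distrib]
    refine (abs_sum_le_sum_abs _ _).trans (sum_le_sum fun m hm => ?_)
    rw [primeShifts, mem_filter, mem_Icc] at hm
    have hg0 := chiDivisorSum_nonneg hm.1.1
    obtain ⟨p, hp⟩ : ∃ p : ℕ, p = (b - (m : ℤ)).natAbs := ⟨_, rfl⟩
    have hp2 : (p : ℝ) ≤ 2 * (N : ℝ) := by exact_mod_cast (show p ≤ 2 * N by omega)
    rw [← hp] at hm ⊢
    have hp0 : (0 : ℝ) < p := Nat.cast_pos.2 hm.2.pos
    have hlp : Real.log p ≤ L + 1 := by
      refine (Real.log_le_log hp0 hp2).trans ?_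
      rw [Real.log_mul two_ne_zero hN0.ne', ← hLd]
      linarith [Real.log_two_lt_d9]
    have hlp0 := Real.log_natCast_nonneg p
    rw [show chiDivisorSum m * L - Real.log p * chiDivisorSum m =
      (L - Real.log p) * chiDivisorSum m by ring, abs_mul, abs_of_nonneg hg0]
    split_ifs with hle
    · refine (mul_le_mul_of_nonneg_right (show |L - Real.log p| ≤ 15 * l + 2 * L by
        rw [abs_le]; constructor <;> linarith) hg0).trans (le_of_eq ?_)
      ring
    · rw [add_zero]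
      refine mul_le_mul_of_nonneg_right ?_ hg0
      have h1 : L - 14 * l ≤ Real.log p := by
        have h2 := Real.log_le_log hY0 (not_le.1 hle).le
        rw [hY, Real.log_div hN0.ne' (by positivity), Real.log_pow, ← hLd, ← hld] at h2
        push_cast at h2
        linarith
      rw [abs_le]
      constructor <;> linarith
  obtain ⟨η, hη⟩ : ∃ η, η = Real.exp (-(1 / 2000) * l) := ⟨_, rfl⟩
  rw [← hη] at hw
  have hη0 : 0 < η := hη ▸ Real.exp_pos _
  have hη1 : η ≤ 1 := hη ▸ Real.exp_le_one_iff.2 (by linarith)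
  obtain ⟨T, hT⟩ : ∃ T, T = (N : ℝ) / L := ⟨_, rfl⟩
  have hT0 : 0 < T := hT ▸ by positivity
  have hσL : L * σ ≤ 8 * T := by
    refine (mul_le_mul_of_nonneg_left hσle hL0.le).trans ?_
    have h1 : L * (4 * N / L ^ 5) ≤ 4 * T := by
      rw [hT, ← mul_div_assoc, ← mul_div_assoc, div_le_div_iff₀ (by positivity) hL0,
        show L * (4 * N) * L = 4 * N * L ^ 2 by ring]
      exact mul_le_mul_of_nonneg_left (pow_le_pow_right₀ (by linarith) (by norm_num))
        (by positivity)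
    have h2 : L * (4 * Real.sqrt N * L ^ 2) ≤ 4 * T := by
      have hs : Real.sqrt N = Real.exp (L / 2) := by
        rw [Real.sqrt_eq_rpow, Real.rpow_def_of_pos hN0, ← hLd]
        ring_nf
      rw [hT, ← mul_div_assoc, le_div_iff₀ hL0,
        show L * (4 * Real.sqrt N * L ^ 2) * L = 4 * (Real.sqrt N * L ^ 4) by ring, hs]
      refine mul_le_mul_of_nonneg_left ?_ (by norm_num)
      have hL4 : L ^ 4 ≤ Real.exp (L / 2) := by
        rw [hLl, ← Real.exp_nat_mul, Real.exp_le_exp, ← hLl]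
        push_cast
        linarith
      calc Real.exp (L / 2) * L ^ 4 ≤ Real.exp (L / 2) * Real.exp (L / 2) :=
            mul_le_mul_of_nonneg_left hL4 (Real.exp_pos _).le
        _ = (N : ℝ) := by rw [← Real.exp_add, add_halves, hLd, Real.exp_log hN0]
    linarith
  have hg0 : 0 ≤ g := hg ▸ sum_nonneg fun m hm =>
    chiDivisorSum_nonneg (mem_Icc.1 (mem_filter.1 hm).1).1
  rw [abs_le] at hkey hw
  have hgle : g ≤ (2 * Cs + 40) * l * T := by
    have h1 : g * L / 2 ≤ N * (S / 4) + N * η + 16 * T := by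
      have h30 : 30 * l * g ≤ L * g := mul_le_mul_of_nonneg_right (by linarith) hg0
      linarith
    have h2 : T * L = N := by rw [hT]; field_simp
    have h3 : N * η ≤ N := mul_le_of_le_one_right hN0.le hη1
    have h4 : N * (S / 4) ≤ N * (Cs * l / 4) :=
      mul_le_mul_of_nonneg_left (by linarith) hN0.le
    have h5 : T ≤ (N : ℝ) := by
      rw [← h2]
      exact le_mul_of_one_le_right hT0.le (by linarith)
    have h6 : g * L ≤ (2 * Cs + 40) * l * T * L := by
      rw [mul_assoc _ T, h2]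
      have h7 : (N : ℝ) ≤ N * l := le_mul_of_one_le_right hN0.le (by linarith)
      have h8 : 0 ≤ N * (Cs * l) := by positivity
      linarith
    exact le_of_mul_le_mul_right h6 hL0
  have hfin : |4 * g * L - N * S| ≤ N * (4 * η) + (120 * Cs + 2500) * l ^ 2 * T := by
    have h1 : 15 * l * g ≤ 15 * l * ((2 * Cs + 40) * l * T) :=
      mul_le_mul_of_nonneg_left hgle (by linarith)
    have h2 : T ≤ T * l ^ 2 := le_mul_of_one_le_right hT0.le (one_le_pow₀ (by linarith))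
    rw [abs_le]
    constructor <;> linarith
  have hl2 : (120 * Cs + 2500) * l ^ 2 / L ≤ η := by
    have h1 : (120 * Cs + 2500) * l ^ 2 ≤ Real.exp (1 / 2 * l) :=
      le_trans (mul_le_mul_of_nonneg_right (by linarith) (sq_nonneg l)) hexp
    rw [hη, div_le_iff₀ hL0, hLl, ← Real.exp_add]
    refine h1.trans (Real.exp_le_exp.2 ?_)
    linarith
  have h5η : 5 * η ≤ Real.exp (-(1 / 2500) * l) := by
    rw [hη, show -(1 / 2500 : ℝ) * l = l / 10000 + -(1 / 2000) * l by ring, Real.exp_add]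
    refine mul_le_mul_of_nonneg_right ?_ (Real.exp_pos _).le
    have h2 := Real.quadratic_le_exp_of_nonneg (show 0 ≤ l / 10000 by linarith)
    nlinarith
  rw [show 4 * g * L / N - S = (4 * g * L - N * S) / N by field_simp, abs_div, Nat.abs_cast,
    div_le_iff₀ hN0]
  refine hfin.trans ?_
  have h6 : (120 * Cs + 2500) * l ^ 2 * T ≤ N * η := by
    rw [hT, ← mul_div_assoc, mul_comm _ (N : ℝ), mul_div_assoc]
    exact mul_le_mul_of_nonneg_left hl2 hN0.le
  linarith [mul_le_mul_of_nonneg_left h5η hN0.le]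

/-- The series beats the error. -/
theorem eventually_series_gt : ∀ᶠ N : ℕ in atTop, ∀ n : ℕ, 0 < n → n ≤ N →
    2 * Real.exp (-(1 / 2500) * Real.log (Real.log N)) ≤ twoSquareSeries n := by
  obtain ⟨Cp, hCp, hratio⟩ := exists_ratio_le
  filter_upwards [hratio, eventually_ge_loglog 1,
    eventually_loglog_pow_le (8 * Cp / Real.pi) (show (0 : ℝ) < 1 / 2500 by norm_num) 1]
    with N hN hl hexp n hn hnN
  obtain ⟨l, hld⟩ : ∃ l, l = Real.log (Real.log N) := ⟨_, rfl⟩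
  rw [← hld] at hl hexp ⊢
  have hr := hN n hnN
  rw [← hld] at hr
  rw [pow_one, div_mul_eq_mul_div, div_le_iff₀ Real.pi_pos] at hexp
  have hφ : (0 : ℝ) < (n.totient : ℕ) := Nat.cast_pos.2 (Nat.totient_pos.2 hn)
  have hn0 : (0 : ℝ) < n := Nat.cast_pos.2 hn
  refine le_trans ?_ (series_ge hn)
  rw [neg_mul, Real.exp_neg, ← div_eq_mul_inv, ← inv_div (n : ℝ), ← div_eq_mul_inv, div_div,
    div_le_div_iff₀ (Real.exp_pos _) (by positivity)]
  nlinarith [mul_le_mul_of_nonneg_left hr (show (0 : ℝ) ≤ 8 by norm_num)]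

/-- The divisor bound for the two squares. -/
theorem exists_twoSquares_le {ε : ℝ} (hε : 0 < ε) : ∃ C : ℝ, 0 < C ∧ ∀ N : ℕ, 2 ≤ N →
    ∀ m ∈ Icc 1 N, (twoSquares m : ℝ) ≤ C * Real.exp (ε * Real.log N) := by
  obtain ⟨C, hC, h⟩ := exists_card_divisors_le hε
  refine ⟨4 * C, by positivity, fun N hN m hm => ?_⟩
  rw [twoSquares_eq (mem_Icc.1 hm).1, ← chiDivisorSum, mul_assoc]
  exact mul_le_mul_of_nonneg_left ((chiDivisorSum_le_card m).trans (h N hN m hm)) (by norm_num)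

end FA.PrimeTwoSquares
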