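import Fermat.Agent.PrimeTwoSquares.Chi
import Mathlib.Analysis.SpecialFunctions.Pow.Real

/-!
# Truncated multiplicative weights and their sums against `χ₄`

For a finite set `T` of primes, `twist T c a = ∏_{p ∈ T, p ∣ a} (1 + c p)`. Expanding it over the
subsets of `T` bounds its logarithmic sums over intervals and shows that its sums against `χ₄` are
`O (1 / √u)` on `(u, v]`.
-/

set_option autoImplicit false

noncomputable section

namespace FA.PrimeTwoSquares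

open Finset

/-- `∏ (1 + c p)` over the `p ∈ T` dividing `a`. -/
def twist (T : Finset ℕ) (c : ℕ → ℝ) (a : ℕ) : ℝ := ∏ p ∈ T.filter (· ∣ a), (1 + c p)

theorem twist_eq_sum {T : Finset ℕ} (hT : ∀ p ∈ T, p.Prime) (c : ℕ → ℝ) (a : ℕ) :
    twist T c a = ∑ U ∈ T.powerset, if (∏ p ∈ U, p) ∣ a then ∏ p ∈ U, c p else 0 := by
  rw [twist, prod_one_add, ← sum_filter]
  refine sum_congr ?_ fun _ _ => rfl
  ext U
  simp only [mem_powerset, mem_filter, subset_iff]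
  exact ⟨fun h => ⟨fun p hp => (h hp).1,
      prod_primes_dvd a (fun p hp => (hT p (h hp).1).prime) fun p hp => (h hp).2⟩,
    fun h p hp => ⟨h.1 hp, (dvd_prod_of_mem _ hp).trans h.2⟩⟩

theorem twist_mul {T : Finset ℕ} (hT : ∀ p ∈ T, p.Prime) (c : ℕ → ℝ) (a b : ℕ) :
    twist T c (a * b) = twist T c a * twist (T.filter fun p => ¬ p ∣ a) c b := by
  rw [twist, twist, twist, ← prod_filter_mul_prod_filter_not (T.filter (· ∣ a * b)) (· ∣ a),
    filter_filter, filter_filter, filter_filter]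
  congr 1 <;> refine prod_congr (filter_congr fun p hp => ?_) fun _ _ => rfl
  · exact ⟨fun h => h.2, fun h => ⟨h.mul_right b, h⟩⟩
  · exact ⟨fun h => ⟨h.2, ((hT p hp).dvd_mul.1 h.1).resolve_left h.2⟩,
      fun h => ⟨h.2.mul_left a, h.1⟩⟩

theorem twist_filter_coprime {T : Finset ℕ} (hT : ∀ p ∈ T, p.Prime) (c : ℕ → ℝ) {a b : ℕ}
    (hab : a.Coprime b) : twist (T.filter fun p => ¬ p ∣ a) c b = twist T c b := by
  rw [twist, twist, filter_filter]
  refine prod_congr (filter_congr fun p hp => ⟨fun h => h.2, fun h => ⟨fun ha => ?_, h⟩⟩)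
    fun _ _ => rfl
  exact Nat.not_coprime_of_dvd_of_dvd (hT p hp).one_lt ha h hab

theorem twist_nonneg {T : Finset ℕ} {c : ℕ → ℝ} (hc : ∀ p ∈ T, 0 ≤ c p) (a : ℕ) :
    0 ≤ twist T c a :=
  prod_nonneg fun p hp => by linarith [hc p (mem_filter.1 hp).1]

theorem twist_mono {T T' : Finset ℕ} (h : T' ⊆ T) {c : ℕ → ℝ} (hc : ∀ p ∈ T, 0 ≤ c p) (a : ℕ) :
    twist T' c a ≤ twist T c a :=
  prod_le_prod_of_subset_of_one_le (filter_subset_filter _ h)
    (fun p hp => by linarith [hc p (h (mem_filter.1 hp).1)])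
    fun p hp _ => by linarith [hc p (mem_filter.1 hp).1]

theorem prod_one_add_le_exp {T : Finset ℕ} {c : ℕ → ℝ} (hc : ∀ p ∈ T, 0 ≤ c p) :
    ∏ p ∈ T, (1 + c p) ≤ Real.exp (∑ p ∈ T, c p) := by
  rw [Real.exp_sum]
  exact prod_le_prod (fun p hp => by linarith [hc p hp]) fun p _ => by
    linarith [Real.add_one_le_exp (c p)]

/-- `exp (4 ∑ n ^ (-3/2))`. -/
def eulerBound : ℝ := Real.exp (4 * ∑' n : ℕ, ((n : ℝ) * Real.sqrt n)⁻¹)

theorem summable_inv_mul_sqrt : Summable fun n : ℕ => ((n : ℝ) * Real.sqrt n)⁻¹ := by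
  refine (Real.summable_nat_rpow.2 (show (-(3 / 2) : ℝ) < -1 by norm_num)).congr fun n => ?_
  rcases Nat.eq_zero_or_pos n with rfl | hn
  · norm_num [Real.zero_rpow]
  rw [Real.rpow_neg (Nat.cast_nonneg n), show (3 / 2 : ℝ) = 1 + 1 / 2 by norm_num,
    Real.rpow_add (Nat.cast_pos.2 hn), Real.rpow_one, ← Real.sqrt_eq_rpow]

theorem one_le_eulerBound : 1 ≤ eulerBound :=
  Real.one_le_exp (mul_nonneg (by norm_num) (tsum_nonneg fun n => by positivity))

theorem eulerBound_pos : 0 < eulerBound := Real.exp_pos _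

theorem prod_one_add_le_eulerBound {T : Finset ℕ} {c : ℕ → ℝ} (hc : ∀ p ∈ T, 0 ≤ c p)
    (hle : ∀ p ∈ T, c p ≤ 4 * ((p : ℝ) * Real.sqrt p)⁻¹) :
    ∏ p ∈ T, (1 + c p) ≤ eulerBound := by
  refine (prod_one_add_le_exp hc).trans (Real.exp_le_exp.2 ((sum_le_sum hle).trans ?_))
  rw [← mul_sum]
  exact mul_le_mul_of_nonneg_left (summable_inv_mul_sqrt.sum_le_tsum _ fun n _ => by positivity)
    (by norm_num)

theorem sum_multiples {m : ℕ} (hm : 0 < m) (u v : ℕ) (f : ℕ → ℝ) :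
    ∑ a ∈ (Ioc u v).filter (m ∣ ·), f a = ∑ a ∈ Ioc (u / m) (v / m), f (m * a) := by
  refine sum_nbij' (fun a => a / m) (fun a => m * a) ?_ ?_ ?_ ?_ ?_
  · intro a ha
    rw [mem_filter, mem_Ioc] at ha
    obtain ⟨b, rfl⟩ := ha.2
    rw [Nat.mul_div_cancel_left _ hm, mem_Ioc, Nat.div_lt_iff_lt_mul hm, Nat.le_div_iff_mul_le hm,
      mul_comm b]
    exact ha.1
  · intro a ha
    rw [mem_Ioc, Nat.div_lt_iff_lt_mul hm, Nat.le_div_iff_mul_le hm, mul_comm a] at ha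
    exact mem_filter.2 ⟨mem_Ioc.2 ha, dvd_mul_right m a⟩
  · intro a ha
    exact Nat.mul_div_cancel' (mem_filter.1 ha).2
  · intro a _
    exact Nat.mul_div_cancel_left _ hm
  · intro a ha
    rw [Nat.mul_div_cancel' (mem_filter.1 ha).2]

theorem sum_inv_Ioc_le {u v : ℕ} (hu : 0 < u) (huv : u ≤ v) :
    ∑ a ∈ Ioc u v, (a : ℝ)⁻¹ ≤ Real.log ((v : ℝ) / u) := by
  induction v, huv using Nat.le_induction with
  | base => simp [hu.ne']
  | succ v hv ih =>
    have hu0 : (0 : ℝ) < u := Nat.cast_pos.2 hu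
    have hv0 : (0 : ℝ) < v := Nat.cast_pos.2 (by omega)
    rw [sum_Ioc_succ_top hv, Nat.cast_succ, Real.log_div (by positivity) hu0.ne']
    rw [Real.log_div hv0.ne' hu0.ne'] at ih
    have h := Real.one_sub_inv_le_log_of_pos (show 0 < ((v : ℝ) + 1) / v by positivity)
    rw [Real.log_div (by positivity) hv0.ne', inv_div, one_sub_div (by positivity),
      add_sub_cancel_left, one_div] at h
    linarith

/-- The logarithmic length of `(u, v]`. -/
def logWidth (u v : ℕ) : ℝ := 2 + Real.log (((v : ℝ) + 1) / (u + 1))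

theorem two_le_logWidth {u v : ℕ} (huv : u ≤ v) : 2 ≤ logWidth u v := by
  refine le_add_of_nonneg_right (Real.log_nonneg ?_)
  rw [one_le_div (by positivity)]
  exact add_le_add (Nat.cast_le.2 huv) le_rfl

theorem sum_inv_window_le {u v m : ℕ} (huv : u ≤ v) (hm : 0 < m) :
    ∑ a ∈ Ioc (u / m) (v / m), (a : ℝ)⁻¹ ≤ logWidth u v := by
  rcases le_or_gt (v / m) (u / m) with h | h
  · rw [Ioc_eq_empty (by omega), sum_empty]
    linarith [two_le_logWidth huv]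
  have hm0 : (0 : ℝ) < m := Nat.cast_pos.2 hm
  have hq : ((v / m : ℕ) : ℝ) ≤ (v : ℝ) / m := Nat.cast_div_le
  have hr : ((u : ℝ) + 1) / m ≤ ((u / m : ℕ) : ℝ) + 1 := by
    rw [div_le_iff₀ hm0]
    exact_mod_cast Nat.lt_mul_of_div_lt (Nat.lt_succ_self (u / m)) hm
  have hv : (0 : ℝ) < ((v / m : ℕ) : ℝ) := Nat.cast_pos.2 (Nat.zero_lt_of_lt h)
  rw [logWidth]
  rcases Nat.eq_zero_or_pos (u / m) with h0 | h0
  · rw [h0]
    have h1 : ∑ a ∈ Ioc 0 (v / m), (a : ℝ)⁻¹ ≤ 1 + Real.log ((v / m : ℕ) : ℝ) := by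
      have h2 := sum_inv_Ioc_le one_pos (show 1 ≤ v / m by omega)
      rw [Nat.cast_one, div_one] at h2
      rw [← sum_Ioc_consecutive _ zero_le_one (show 1 ≤ v / m by omega)]
      rw [show Ioc 0 1 = ({1} : Finset ℕ) from rfl, sum_singleton, Nat.cast_one, inv_one]
      linarith
    rw [h0, Nat.cast_zero, zero_add] at hr
    have h3 : ((v / m : ℕ) : ℝ) ≤ ((v : ℝ) + 1) / ((u : ℝ) + 1) := by
      rw [le_div_iff₀ (by positivity)]
      rw [le_div_iff₀ hm0] at hq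
      rw [div_le_one hm0] at hr
      nlinarith [mul_le_mul_of_nonneg_left hr hv.le]
    linarith [Real.log_le_log hv h3]
  · refine (sum_inv_Ioc_le h0 h.le).trans ?_
    have h0' : (1 : ℝ) ≤ ((u / m : ℕ) : ℝ) := Nat.one_le_cast.2 h0
    have h3 : ((v / m : ℕ) : ℝ) / ((u / m : ℕ) : ℝ) ≤ 2 * (((v : ℝ) + 1) / ((u : ℝ) + 1)) := by
      rw [← mul_div_assoc, div_le_div_iff₀ (by linarith) (by positivity)]
      rw [le_div_iff₀ hm0] at hq
      rw [div_le_iff₀ hm0] at hr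
      nlinarith [mul_le_mul_of_nonneg_left hr hv.le, mul_le_mul_of_nonneg_left hq (show (0:ℝ) ≤
        ((u / m : ℕ) : ℝ) by positivity), mul_le_mul_of_nonneg_left h0' hv.le]
    refine (Real.log_le_log (div_pos hv (by linarith)) h3).trans ?_
    rw [Real.log_mul two_ne_zero (by positivity)]
    linarith [Real.log_two_lt_d9]

/-- The logarithmic sum of a weight over `(u, v]`. -/
theorem sum_twist_div_le {T : Finset ℕ} (hT : ∀ p ∈ T, p.Prime) {c : ℕ → ℝ}
    (hc : ∀ p ∈ T, 0 ≤ c p) {u v : ℕ} (huv : u ≤ v) :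
    ∑ a ∈ Ioc u v, twist T c a / a ≤ logWidth u v * ∏ p ∈ T, (1 + c p / p) := by
  simp_rw [twist_eq_sum hT c, sum_div, ite_div, zero_div]
  rw [sum_comm, prod_one_add, mul_sum]
  refine sum_le_sum fun U hU => ?_
  have hUT := mem_powerset.1 hU
  obtain ⟨m, hm⟩ : ∃ m, m = ∏ p ∈ U, p := ⟨_, rfl⟩
  have hm0 : 0 < m := hm ▸ prod_pos fun p hp => (hT p (hUT hp)).pos
  have hc0 : 0 ≤ ∏ p ∈ U, c p := prod_nonneg fun p hp => hc p (hUT hp)
  rw [← sum_filter, ← hm, sum_multiples hm0, prod_div_distrib, ← Nat.cast_prod, ← hm]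
  refine le_of_eq_of_le (sum_congr rfl fun a _ => ?_)
    ((mul_sum (Ioc (u / m) (v / m)) (fun a : ℕ => (a : ℝ)⁻¹) ((∏ p ∈ U, c p) / m)).symm.trans_le
      ((mul_le_mul_of_nonneg_left (sum_inv_window_le huv hm0) (by positivity)).trans
        (le_of_eq (mul_comm _ _))))
  rw [Nat.cast_mul, div_mul_eq_div_mul_one_div, one_div]

/-- **The sums against `χ₄`.** -/
theorem abs_sum_chi_twist_le {T : Finset ℕ} (hT : ∀ p ∈ T, p.Prime) {c : ℕ → ℝ}
    (hc : ∀ p ∈ T, 0 ≤ c p) (u v : ℕ) :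
    |∑ a ∈ Ioc u v, chi a * twist T c a / a| ≤
      (∏ p ∈ T, (1 + c p / Real.sqrt p)) / Real.sqrt ((u : ℝ) + 1) := by
  simp_rw [twist_eq_sum hT c, mul_sum, sum_div]
  rw [sum_comm, prod_one_add, sum_div]
  refine (abs_sum_le_sum_abs _ _).trans (sum_le_sum fun U hU => ?_)
  have hUT := mem_powerset.1 hU
  obtain ⟨m, hm⟩ : ∃ m, m = ∏ p ∈ U, p := ⟨_, rfl⟩
  have hm0 : 0 < m := hm ▸ prod_pos fun p hp => (hT p (hUT hp)).pos
  have hm0' : (0 : ℝ) < m := Nat.cast_pos.2 hm0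
  have hc0 : 0 ≤ ∏ p ∈ U, c p := prod_nonneg fun p hp => hc p (hUT hp)
  have hsq : ∏ p ∈ U, (c p / Real.sqrt p) = (∏ p ∈ U, c p) / Real.sqrt m := by
    rw [prod_div_distrib, ← Real.sqrt_prod _ fun p _ => Nat.cast_nonneg p, ← Nat.cast_prod, ← hm]
  rw [hsq, ← hm]
  simp_rw [mul_ite, mul_zero, ite_div, zero_div]
  rw [← sum_filter, sum_multiples hm0]
  have he : ∑ a ∈ Ioc (u / m) (v / m), chi (m * a) * (∏ p ∈ U, c p) / ((m * a : ℕ) : ℝ) =
      (∏ p ∈ U, c p) * (chi m / m) * ∑ a ∈ Ioc (u / m) (v / m), chi a / a := by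
    rw [mul_sum]
    refine sum_congr rfl fun a _ => ?_
    rw [chi_mul, Nat.cast_mul]
    ring
  rw [he, abs_mul, abs_mul, abs_of_nonneg hc0, abs_div, Nat.abs_cast]
  refine (mul_le_mul (mul_le_mul_of_nonneg_left (div_le_div_of_nonneg_right (abs_chi_le m) hm0'.le)
    hc0) (abs_sum_chi_div_le _ _) (abs_nonneg _) (by positivity)).trans ?_
  rw [mul_assoc, div_div, ← Real.sqrt_mul hm0'.le,
    div_eq_mul_one_div (∏ p ∈ U, c p) (Real.sqrt _)]
  refine mul_le_mul_of_nonneg_left ?_ hc0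
  rw [one_div_mul_one_div]
  refine one_div_le_one_div_of_le (Real.sqrt_pos.2 (by positivity)) ?_
  rw [Real.sqrt_le_left (by positivity)]
  have h1 : (u : ℝ) + 1 ≤ (m : ℝ) * (((u / m : ℕ) : ℝ) + 1) := by
    rw [mul_comm (m : ℝ)]
    exact_mod_cast Nat.lt_mul_of_div_lt (Nat.lt_succ_self (u / m)) hm0
  have h2 : (m : ℝ) ≤ (m : ℝ) * (((u / m : ℕ) : ℝ) + 1) :=
    le_mul_of_one_le_right hm0'.le (le_add_of_nonneg_left (Nat.cast_nonneg _))
  rw [sq]
  exact mul_le_mul h1 h2 hm0'.le (by positivity) |>.trans_eq' (mul_comm _ _)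

/-- The Möbius function detects coprimality. -/
theorem coprime_eq_sum_moebius {a b M : ℕ} (ha : 0 < a) (haM : a ≤ M) :
    (if a.Coprime b then (1 : ℝ) else 0) =
      ∑ e ∈ (Icc 1 M).filter (fun e => e ∣ a ∧ e ∣ b),
        ((ArithmeticFunction.moebius e : ℤ) : ℝ) := by
  have h := congrArg (fun f : ArithmeticFunction ℝ => f (a.gcd b))
    (ArithmeticFunction.coe_moebius_mul_coe_zeta (R := ℝ))
  simp only [ArithmeticFunction.coe_mul_zeta_apply, ArithmeticFunction.intCoe_apply,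
    ArithmeticFunction.one_apply] at h
  have e : (Icc 1 M).filter (fun e => e ∣ a ∧ e ∣ b) = (a.gcd b).divisors := by
    ext e
    simp only [mem_filter, mem_Icc, Nat.mem_divisors, Nat.dvd_gcd_iff]
    exact ⟨fun h => ⟨h.2, (Nat.gcd_pos_of_pos_left b ha).ne'⟩,
      fun h => ⟨⟨Nat.pos_of_dvd_of_pos h.1.1 ha, (Nat.le_of_dvd ha h.1.1).trans haM⟩, h.1⟩⟩
  rw [e, h]

end FA.PrimeTwoSquares
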