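import Fermat.Agent.ErdosKac.Model
import Fermat.Agent.CombinatorialSieve.Defect
import Fermat.Agent.PrimesMinusOne.BrunTitchmarsh
import Fermat.Agent.PrimeTwoSquares.Expansions

/-!
# Shifted primes with a divisor near the square root (Erdős)

If `m = d e` with both `d` and `e` near `√N`, then `m` has many small prime factors, or one of
`d, e` has few, or they share many. For `|b - m|` prime the first event is rare by a binomial
moment and the inequality of Brun and Titchmarsh, the second by the same inequality and the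
comparison of `2 ^ (-ω)` with its model, the third because `m` then has a large square divisor.
-/

set_option autoImplicit false

noncomputable section

namespace FA.PrimeTwoSquares

open Finset
open ErdosKac (primesUpTo)

/-- The number of the `p ∈ P` dividing `m`. -/
def omegaIn (P : Finset ℕ) (m : ℕ) : ℕ := #(P.filter (· ∣ m))

/-- The `m ≤ N` with `|b - m|` prime. -/
def primeShifts (b : ℤ) (N : ℕ) : Finset ℕ :=
  (Icc 1 N).filter fun m : ℕ => (b - m).natAbs.Prime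

theorem dvd_modEq_toNat {d p : ℕ} (hd : 0 < d) {r : ℤ} (h : (d : ℤ) ∣ r - p) :
    p ≡ (r % (d : ℤ)).toNat [MOD d] := by
  rw [Nat.modEq_iff_dvd, Int.toNat_of_nonneg (Int.emod_nonneg _ (by omega))]
  have h2 : (d : ℤ) ∣ r - r % (d : ℤ) := Int.dvd_self_sub_emod
  rw [show r % (d : ℤ) - (p : ℤ) = (r - p) - (r - r % (d : ℤ)) by ring]
  exact h.sub h2

/-- The inequality of Brun and Titchmarsh, for the multiples of `d`. -/
theorem card_primeShifts_dvd_le {b : ℤ} {N d : ℕ} (hb : b.natAbs ≤ N) (hd : 0 < d) (hdN : d < N) :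
    (#((primeShifts b N).filter (d ∣ ·)) : ℝ) ≤
      96 * N / ((d.totient : ℕ) * Real.log ((N : ℝ) / d)) := by
  obtain ⟨A, hA⟩ : ∃ A : ℤ → Finset ℕ, A = fun r : ℤ =>
    (Icc 1 (2 * N)).filter fun p : ℕ => p.Prime ∧ p ≡ (r % (d : ℤ)).toNat [MOD d] := ⟨_, rfl⟩
  have hcard : #((primeShifts b N).filter (d ∣ ·)) ≤ #(A b) + #(A (-b)) := by
    rw [← card_filter_add_card_filter_not (s := (primeShifts b N).filter (d ∣ ·))
      (p := fun m : ℕ => (m : ℤ) ≤ b)]
    refine Nat.add_le_add (card_le_card_of_injOn (fun m : ℕ => (b - m).natAbs) ?_ ?_)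
      (card_le_card_of_injOn (fun m : ℕ => (b - m).natAbs) ?_ ?_)
    · intro m hm
      simp only [primeShifts, coe_filter, Set.mem_ofPred_eq, mem_filter, mem_Icc] at hm
      obtain ⟨⟨⟨⟨h1, h2⟩, hp⟩, hdm⟩, hle⟩ := hm
      simp only [hA, coe_filter, Set.mem_ofPred_eq, mem_Icc]
      refine ⟨⟨hp.one_le, by omega⟩, hp, dvd_modEq_toNat hd ?_⟩
      rw [Int.natAbs_of_nonneg (by omega), sub_sub_cancel]
      exact Int.natCast_dvd_natCast.2 hdm
    · intro x hx y hy h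
      simp only [coe_filter, Set.mem_ofPred_eq] at hx hy h
      omega
    · intro m hm
      simp only [primeShifts, coe_filter, Set.mem_ofPred_eq, mem_filter, mem_Icc] at hm
      obtain ⟨⟨⟨⟨h1, h2⟩, hp⟩, hdm⟩, hle⟩ := hm
      simp only [hA, coe_filter, Set.mem_ofPred_eq, mem_Icc]
      refine ⟨⟨hp.one_le, by omega⟩, hp, dvd_modEq_toNat hd ?_⟩
      rw [Int.ofNat_natAbs_of_nonpos (by omega), show -b - -(b - (m : ℤ)) = -(m : ℤ) by ring,
        dvd_neg]
      exact Int.natCast_dvd_natCast.2 hdm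
    · intro x hx y hy h
      simp only [coe_filter, Set.mem_ofPred_eq] at hx hy h
      omega
  have hN0 : (0 : ℝ) < N := Nat.cast_pos.2 (by omega)
  have hd0 : (0 : ℝ) < d := Nat.cast_pos.2 hd
  have hlog : 0 < Real.log ((N : ℝ) / d) :=
    Real.log_pos ((one_lt_div hd0).2 (Nat.cast_lt.2 hdN))
  have hφ : (0 : ℝ) < (d.totient : ℕ) := Nat.cast_pos.2 (Nat.totient_pos.2 hd)
  have hbt : ∀ r : ℤ, (#(A r) : ℝ) ≤ 48 * N / ((d.totient : ℕ) * Real.log ((N : ℝ) / d)) := by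
    intro r
    rw [hA]
    refine (PrimesMinusOne.brunTitchmarsh hd (show d < 2 * N by omega)).trans ?_
    push_cast
    rw [← mul_assoc, show (24 : ℝ) * 2 = 48 by norm_num]
    refine div_le_div_of_nonneg_left (by positivity) (mul_pos hφ hlog)
      (mul_le_mul_of_nonneg_left (Real.log_le_log (div_pos hN0 hd0) ?_) hφ.le)
    exact div_le_div_of_nonneg_right (by linarith) hd0.le
  refine (Nat.cast_le.2 hcard).trans ?_
  rw [Nat.cast_add, show (96 : ℝ) * N = 48 * N + 48 * N by ring, add_div]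
  exact add_le_add (hbt b) (hbt (-b))

/-- **Many small prime factors are rare.** -/
theorem card_many_le {b : ℤ} {N : ℕ} (hb : b.natAbs ≤ N) (hN : 2 ≤ N) {P : Finset ℕ}
    (hP : ∀ p ∈ P, p.Prime) (r k : ℕ)
    (hsize : ∀ U ∈ P.powersetCard k, ((∏ p ∈ U, p : ℕ) : ℝ) ≤ Real.sqrt N) :
    (#((primeShifts b N).filter fun m => r + k ≤ omegaIn P m) : ℝ) * ((r : ℝ) + 1) ^ k ≤
      192 * N / Real.log N * (∑ p ∈ P, ((p : ℝ) - 1)⁻¹) ^ k := by
  have hN0 : (0 : ℝ) < N := Nat.cast_pos.2 (by omega)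
  have hL : 0 < Real.log N := Real.log_pos (Nat.one_lt_cast.2 (by omega))
  have h1 : (#((primeShifts b N).filter fun m => r + k ≤ omegaIn P m) : ℝ) * ((r : ℝ) + 1) ^ k ≤
      (k.factorial : ℝ) * ∑ m ∈ primeShifts b N, ((omegaIn P m).choose k : ℝ) := by
    rw [← nsmul_eq_mul, ← sum_const, mul_sum]
    refine (sum_le_sum fun m hm => ?_).trans
      (sum_le_sum_of_subset_of_nonneg (filter_subset _ _) fun m _ _ => by positivity)
    rw [mem_filter] at hm
    have h : (r + 1) ^ k ≤ k.factorial * (omegaIn P m).choose k := by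
      rw [← Nat.descFactorial_eq_factorial_mul_choose]
      exact (Nat.pow_le_pow_left (by omega) k).trans (Nat.pow_sub_le_descFactorial _ _)
    exact_mod_cast h
  have h2 : ∀ m, ((omegaIn P m).choose k : ℝ) =
      ∑ U ∈ P.powersetCard k, if (∏ p ∈ U, p) ∣ m then (1 : ℝ) else 0 := fun m => by
    rw [omegaIn, ← card_powersetCard, sum_boole]
    congr 2
    ext U
    simp only [mem_powersetCard, mem_filter, subset_iff]
    exact ⟨fun h => ⟨⟨fun p hp => (h.1 hp).1, h.2⟩, prod_primes_dvd m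
        (fun p hp => (hP p (h.1 hp).1).prime) fun p hp => (h.1 hp).2⟩,
      fun h => ⟨fun p hp => ⟨h.1.1 hp, (dvd_prod_of_mem _ hp).trans h.2⟩, h.1.2⟩⟩
  refine h1.trans ?_
  rw [sum_congr rfl fun m _ => h2 m, sum_comm]
  simp only [sum_boole]
  refine (mul_le_mul_of_nonneg_left (sum_le_sum (g := fun U : Finset ℕ =>
    192 * N / Real.log N * ∏ p ∈ U, ((p : ℝ) - 1)⁻¹) fun U hU => ?_) (Nat.cast_nonneg _)).trans ?_
  · have hUP := (mem_powersetCard.1 hU).1
    obtain ⟨q, hq⟩ : ∃ q, q = ∏ p ∈ U, p := ⟨_, rfl⟩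
    rw [← hq]
    have hq0 : 0 < q := hq ▸ prod_pos fun p hp => (hP p (hUP hp)).pos
    have hqr := hsize U hU
    rw [← hq] at hqr
    have hs1 : 1 < Real.sqrt N := (Real.lt_sqrt zero_le_one).2 (by
      rw [one_pow]
      exact Nat.one_lt_cast.2 (by omega))
    have hqN : (q : ℝ) < N := hqr.trans_lt (by
      nlinarith [Real.mul_self_sqrt hN0.le, hs1])
    refine (card_primeShifts_dvd_le hb hq0 (Nat.cast_lt.1 hqN)).trans ?_
    have hφ : (0 : ℝ) < (q.totient : ℕ) := Nat.cast_pos.2 (Nat.totient_pos.2 hq0)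
    have hlq : Real.log N / 2 ≤ Real.log ((N : ℝ) / q) := by
      rw [← Real.log_sqrt hN0.le]
      refine Real.log_le_log (by linarith) ?_
      rw [le_div_iff₀ (Nat.cast_pos.2 hq0)]
      nlinarith [Real.mul_self_sqrt hN0.le, hs1, hqr]
    have hφe : (q.totient : ℝ) = ∏ p ∈ U, ((p : ℝ) - 1) := by
      have hqU : q.primeFactors = U := hq ▸ Nat.primeFactors_prod fun p hp => hP p (hUP hp)
      have h := Nat.totient_mul_prod_primeFactors q
      rw [hqU, ← hq, mul_comm] at h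
      rw [Nat.eq_of_mul_eq_mul_left hq0 h, Nat.cast_prod]
      exact prod_congr rfl fun p hp => by
        rw [Nat.cast_sub (hP p (hUP hp)).one_le, Nat.cast_one]
    rw [prod_inv_distrib, ← hφe, ← div_eq_mul_inv, div_div]
    rw [div_le_div_iff₀ (mul_pos hφ (by linarith)) (mul_pos hL hφ)]
    nlinarith [mul_le_mul_of_nonneg_left hlq (mul_nonneg (mul_nonneg hN0.le hφ.le)
      (show (0 : ℝ) ≤ 192 by norm_num))]
  · rw [← mul_sum, mul_left_comm]
    exact mul_le_mul_of_nonneg_left (CombinatorialSieve.factorial_mul_esymm_le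
      (fun p hp => inv_nonneg.2 (sub_nonneg.2 (Nat.one_le_cast.2 (hP p hp).one_le))) k)
      (by positivity)

/-- **Few small prime factors are rare.** -/
theorem card_few_le {P : Finset ℕ} (hP : ∀ p ∈ P, p.Prime) {x : ℝ} {K y : ℕ} (hy : 0 < y)
    (hK : 3 * ∑ q ∈ P, (q : ℝ)⁻¹ ≤ K) :
    (#((Icc 1 y).filter fun d => (omegaIn P d : ℝ) ≤ x) : ℝ) ≤
      (2 : ℝ) ^ x * y * (Real.exp (-(∑ q ∈ P, (q : ℝ)⁻¹) / 2) + (3 * (1 / 2) ^ K +
        (K + 1) * (2 * ((P.card : ℝ) + 1)) ^ K / y)) := by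
  have hy0 : (0 : ℝ) < y := Nat.cast_pos.2 hy
  have hw : ‖(1 : ℂ) + (-(1 / 2) : ℂ)‖ ≤ 1 := by norm_num
  have h := ErdosKac.norm_sum_pow_sub_le hP hw (K := K) (by
    rw [show ‖(-(1 / 2) : ℂ)‖ = 1 / 2 by norm_num]
    linarith) hy
  obtain ⟨S, hS⟩ : ∃ S : ℝ, S = ∑ n ∈ Icc 1 y, (1 / 2 : ℝ) ^ omegaIn P n := ⟨_, rfl⟩
  obtain ⟨V, hV⟩ : ∃ V : ℝ, V = ∏ q ∈ P, (1 - 1 / 2 / (q : ℝ)) := ⟨_, rfl⟩
  have hcast : (∑ n ∈ Icc 1 y, ((1 : ℂ) + (-(1 / 2) : ℂ)) ^ (P.filter (· ∣ n)).card) / (y : ℂ) -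
      ∏ q ∈ P, (1 + (-(1 / 2) : ℂ) / (q : ℂ)) = (((S / y - V : ℝ)) : ℂ) := by
    rw [hS, hV]
    push_cast
    congr 1
    · congr 1
      exact sum_congr rfl fun n _ => by norm_num [omegaIn]
    · exact prod_congr rfl fun q _ => by ring
  rw [hcast, Complex.norm_real, Real.norm_eq_abs, abs_le] at h
  have hVle : V ≤ Real.exp (-(∑ q ∈ P, (q : ℝ)⁻¹) / 2) := by
    rw [hV, neg_div, sum_div, ← sum_neg_distrib, Real.exp_sum]
    refine prod_le_prod (fun q hq => ?_) fun q hq => ?_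
    · have h1 : (2 : ℝ) ≤ q := Nat.ofNat_le_cast.2 (hP q hq).two_le
      rw [sub_nonneg, div_le_iff₀ (by linarith)]
      linarith
    · refine le_trans (le_of_eq ?_) (Real.add_one_le_exp _)
      ring
  have hSle : S ≤ y * (Real.exp (-(∑ q ∈ P, (q : ℝ)⁻¹) / 2) + (3 * (1 / 2) ^ K +
      (K + 1) * (2 * ((P.card : ℝ) + 1)) ^ K / y)) := by
    rw [mul_comm, ← div_le_iff₀ hy0]
    linarith [h.2]
  rw [mul_assoc]
  refine le_trans ?_ (mul_le_mul_of_nonneg_left hSle (Real.rpow_nonneg two_pos.le x))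
  rw [hS, mul_sum, ← nsmul_one, ← sum_const]
  refine (sum_le_sum fun n hn => ?_).trans
    (sum_le_sum_of_subset_of_nonneg (filter_subset _ _) fun n _ _ => ?_)
  · rw [mem_filter] at hn
    rw [one_div, inv_pow, ← div_eq_mul_inv, le_div_iff₀ (by positivity), one_mul,
      ← Real.rpow_natCast 2 (omegaIn P n)]
    exact Real.rpow_le_rpow_of_exponent_le one_le_two hn.2
  · exact mul_nonneg (Real.rpow_nonneg two_pos.le x) (by positivity)

/-- From the counts up to `y` to the logarithmic sum. -/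
theorem sum_inv_dyadic_le (Q : ℕ → Prop) [DecidablePred Q] {δ : ℝ} {u : ℕ} (hu : 0 < u) (J : ℕ)
    (h : ∀ i < J, (#((Icc 1 (2 ^ (i + 1) * u)).filter Q) : ℝ) ≤
      δ * ((2 ^ (i + 1) * u : ℕ) : ℝ)) :
    ∑ d ∈ (Ioc u (2 ^ J * u)).filter Q, (d : ℝ)⁻¹ ≤ 2 * δ * J := by
  induction J with
  | zero => simp
  | succ J ih =>
    have h1 : 2 ^ J * u ≤ 2 ^ (J + 1) * u :=
      Nat.mul_le_mul_right u (Nat.pow_le_pow_right two_pos (by omega))
    have h2 : u ≤ 2 ^ J * u := Nat.le_mul_of_pos_left u (by positivity)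
    rw [sum_filter, ← sum_Ioc_consecutive _ h2 h1, ← sum_filter, ← sum_filter, Nat.cast_succ,
      mul_add, mul_one]
    refine add_le_add (ih fun i hi => h i (by omega)) ?_
    obtain ⟨t, ht⟩ : ∃ t : ℝ, t = ((2 ^ J * u : ℕ) : ℝ) := ⟨_, rfl⟩
    have ht0 : 0 < t := ht ▸ Nat.cast_pos.2 (Nat.mul_pos (by positivity) hu)
    refine (sum_le_card_nsmul _ _ t⁻¹ fun d hd => ?_).trans ?_
    · rw [mem_filter, mem_Ioc] at hd
      exact inv_anti₀ ht0 (ht ▸ Nat.cast_le.2 hd.1.1.le)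
    · rw [nsmul_eq_mul, ← div_eq_mul_inv, div_le_iff₀ ht0]
      refine le_trans (Nat.cast_le.2 (card_le_card ?_)) ((h J (by omega)).trans (le_of_eq ?_))
      · refine filter_subset_filter _ fun d hd => ?_
        rw [mem_Ioc] at hd
        exact mem_Icc.2 ⟨by omega, hd.2⟩
      · rw [ht]
        push_cast
        ring

/-- The logarithmic sum of `(d / φ d) ^ 2`. -/
theorem sum_totient_sq_le {u v : ℕ} (huv : u ≤ v) :
    ∑ d ∈ Ioc u v, ((d : ℝ) / (d.totient : ℕ)) ^ 2 / d ≤ logWidth u v * eulerBound ^ 2 := by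
  obtain ⟨T, hT⟩ : ∃ T, T = (v + 1).primesBelow := ⟨_, rfl⟩
  have hTp : ∀ p ∈ T, p.Prime := fun p hp => (Nat.mem_primesBelow.1 (hT ▸ hp)).2
  obtain ⟨c, hc⟩ : ∃ c : ℕ → ℝ, c = fun p : ℕ => ((p : ℝ) / ((p : ℝ) - 1)) ^ 2 - 1 := ⟨_, rfl⟩
  have hc0 : ∀ p ∈ T, 0 ≤ c p := fun p hp => by
    have h2 : (2 : ℝ) ≤ p := Nat.ofNat_le_cast.2 (hTp p hp).two_le
    rw [hc]
    exact sub_nonneg.2 (one_le_pow₀ ((one_le_div (by linarith)).2 (by linarith)))
  have he : ∀ d ∈ Ioc u v, ((d : ℝ) / (d.totient : ℕ)) ^ 2 = twist T c d := by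
    intro d hd
    rw [mem_Ioc] at hd
    have hd0 : d ≠ 0 := by omega
    have hTd : T.filter (· ∣ d) = d.primeFactors := by
      ext p
      simp only [hT, mem_filter, Nat.mem_primesBelow, Nat.mem_primeFactors]
      exact ⟨fun h => ⟨h.1.2, h.2, hd0⟩, fun h =>
        ⟨⟨(Nat.le_of_dvd (by omega) h.2.1).trans hd.2 |>.trans_lt (Nat.lt_succ_self v), h.1⟩,
          h.2.1⟩⟩
    have h := Nat.totient_mul_prod_primeFactors d
    have h' := congrArg (fun n : ℕ => (n : ℝ)) h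
    simp only [Nat.cast_mul, Nat.cast_prod] at h'
    have hp1 : ∀ p ∈ d.primeFactors, ((p - 1 : ℕ) : ℝ) = (p : ℝ) - 1 := fun p hp => by
      rw [Nat.cast_sub (Nat.prime_of_mem_primeFactors hp).one_le, Nat.cast_one]
    rw [prod_congr rfl hp1] at h'
    rw [twist, hTd, hc]
    simp only [add_sub_cancel]
    rw [prod_pow, prod_div_distrib]
    congr 1
    rw [div_eq_div_iff]
    · linarith
    · exact (Nat.cast_pos.2 (Nat.totient_pos.2 (by omega))).ne'
    · refine prod_ne_zero_iff.2 fun p hp => ?_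
      have h2 : (2 : ℝ) ≤ p := Nat.ofNat_le_cast.2 (Nat.prime_of_mem_primeFactors hp).two_le
      linarith
  rw [sum_congr rfl fun d hd => by rw [he d hd]]
  refine (sum_twist_div_le hTp hc0 huv).trans (mul_le_mul_of_nonneg_left ?_
    (by linarith [two_le_logWidth huv]))
  refine (prod_le_prod (g := fun p : ℕ => (1 + 4 * ((p : ℝ) * Real.sqrt p)⁻¹) ^ 2)
    (fun p hp => add_nonneg zero_le_one (div_nonneg (hc0 p hp) (Nat.cast_nonneg p)))
    fun p hp => ?_).trans ?_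
  · have h2 : (2 : ℝ) ≤ p := Nat.ofNat_le_cast.2 (hTp p hp).two_le
    have hsp : Real.sqrt p ≤ p :=
      (Real.sqrt_le_left (by linarith)).2 (le_self_pow₀ (by linarith) two_ne_zero)
    have hs0 : 0 < Real.sqrt p := Real.sqrt_pos.2 (by linarith)
    have hc6 : c p ≤ 6 / (p : ℝ) := by
      rw [hc]
      simp only
      have hp1 : (0 : ℝ) < (p : ℝ) - 1 := by linarith
      rw [div_pow, sub_le_iff_le_add, div_add_one (by linarith),
        div_le_div_iff₀ (by positivity) (by linarith)]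
      nlinarith [mul_nonneg (sub_nonneg.2 h2) hp1.le, sq_nonneg ((p : ℝ) - 2)]
    have h4 : c p / p ≤ 8 * ((p : ℝ) * Real.sqrt p)⁻¹ := by
      refine (div_le_div_of_nonneg_right hc6 (Nat.cast_nonneg p)).trans ?_
      rw [div_div, ← div_eq_mul_inv, div_le_div_iff₀ (by positivity) (by positivity)]
      nlinarith [mul_le_mul_of_nonneg_left hsp (show (0 : ℝ) ≤ p by linarith)]
    nlinarith [sq_nonneg (4 * ((p : ℝ) * Real.sqrt p)⁻¹)]
  · rw [prod_pow]
    exact pow_le_pow_left₀ (prod_nonneg fun p _ => by positivity)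
      (prod_one_add_le_eulerBound (fun p _ => by positivity) fun p _ => le_rfl) 2

/-- The Cauchy inequality for `∑ 1 / φ d`. -/
theorem sum_inv_totient_le_sqrt (S : Finset ℕ) (hS : ∀ d ∈ S, 0 < d) :
    ∑ d ∈ S, ((d.totient : ℕ) : ℝ)⁻¹ ≤
      Real.sqrt (∑ d ∈ S, (d : ℝ)⁻¹) *
        Real.sqrt (∑ d ∈ S, ((d : ℝ) / (d.totient : ℕ)) ^ 2 / d) := by
  refine le_trans (le_of_eq (sum_congr rfl fun d hd => ?_))
    ((Real.sum_mul_le_sqrt_mul_sqrt S (fun d : ℕ => Real.sqrt (d : ℝ)⁻¹)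
      fun d : ℕ => ((d : ℝ) / (d.totient : ℕ)) * Real.sqrt (d : ℝ)⁻¹).trans (le_of_eq ?_))
  · have hd0 : (d : ℝ) ≠ 0 := Nat.cast_ne_zero.2 (hS d hd).ne'
    rw [mul_left_comm, Real.mul_self_sqrt (inv_nonneg.2 (Nat.cast_nonneg d))]
    field_simp
  · congr 1 <;> congr 1 <;> refine sum_congr rfl fun d _ => ?_
    · rw [Real.sq_sqrt (inv_nonneg.2 (Nat.cast_nonneg d))]
    · rw [mul_pow, Real.sq_sqrt (inv_nonneg.2 (Nat.cast_nonneg d)), div_eq_mul_inv _ (d : ℝ)]

open scoped Classical in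
/-- A large square divisor is rare. -/
theorem card_square_dvd_le (N : ℕ) {M₀ : ℕ} (hM : 0 < M₀) :
    (#((Icc 1 N).filter fun m => ∃ q, M₀ < q ∧ q * q ∣ m) : ℝ) ≤ N / (M₀ : ℝ) := by
  rcases le_or_gt N M₀ with hle | hlt
  · rw [filter_false_of_mem, card_empty, Nat.cast_zero]
    · positivity
    rintro m hm ⟨q, hq, hd⟩
    rw [mem_Icc] at hm
    have h1 := Nat.le_of_dvd (by omega) hd
    nlinarith
  refine le_trans (Nat.cast_le.2 (card_le_card (t := (Ioc M₀ N).biUnion fun q =>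
    (Icc 1 N).filter (q * q ∣ ·)) fun m hm => ?_)) ?_
  · rw [mem_filter, mem_Icc] at hm
    obtain ⟨⟨h1, h2⟩, q, hq, hd⟩ := hm
    have h3 := Nat.le_of_dvd (by omega) hd
    refine mem_biUnion.2 ⟨q, mem_Ioc.2 ⟨hq, ?_⟩, mem_filter.2 ⟨mem_Icc.2 ⟨h1, h2⟩, hd⟩⟩
    exact ((Nat.le_mul_self q).trans h3).trans h2
  · refine (Nat.cast_le.2 card_biUnion_le).trans ?_
    push_cast
    refine (sum_le_sum (g := fun q : ℕ => (N : ℝ) * ((q : ℝ) ^ 2)⁻¹) fun q _ => ?_).trans ?_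
    · rw [show Icc 1 N = Ioc 0 N from rfl, Nat.Ioc_filter_dvd_card_eq_div]
      refine Nat.cast_div_le.trans (le_of_eq ?_)
      rw [Nat.cast_mul, sq]
      rfl
    · rw [← mul_sum, div_eq_mul_inv]
      refine mul_le_mul_of_nonneg_left ((sum_Ioc_inv_sq_le_sub hM.ne' hlt.le).trans ?_)
        (Nat.cast_nonneg N)
      linarith [inv_nonneg.2 (Nat.cast_nonneg (α := ℝ) N)]

theorem factorial_le_prod (U : Finset ℕ) (hU : ∀ p ∈ U, 2 ≤ p) :
    (#U).factorial ≤ ∏ p ∈ U, p := by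
  induction U using Finset.induction_on_max with
  | empty => simp
  | insert a U ha ih =>
    have haU : a ∉ U := fun h => (ha a h).false
    rw [card_insert_of_notMem haU, prod_insert haU, Nat.factorial_succ]
    refine Nat.mul_le_mul ?_ (ih fun p hp => hU p (mem_insert_of_mem hp))
    have hsub : U ⊆ Ico 2 a := fun p hp => mem_Ico.2 ⟨hU p (mem_insert_of_mem hp), ha p hp⟩
    have h1 := card_le_card hsub
    rw [Nat.card_Ico] at h1
    have := hU a (mem_insert_self a U)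
    omega

/-- **The cases.** -/
theorem window_cases {P : Finset ℕ} (hP : ∀ p ∈ P, p.Prime) {d e : ℕ} {x y : ℝ} {k : ℕ}
    (hk : (k : ℝ) ≤ x + x - y) :
    y ≤ (omegaIn P (d * e) : ℝ) ∨ (omegaIn P d : ℝ) ≤ x ∨ (omegaIn P e : ℝ) ≤ x ∨
      ∃ q, k.factorial ≤ q ∧ q * q ∣ d * e := by
  by_cases h1 : y ≤ (omegaIn P (d * e) : ℝ)
  · exact Or.inl h1
  by_cases h2 : (omegaIn P d : ℝ) ≤ x
  · exact Or.inr (Or.inl h2)
  by_cases h3 : (omegaIn P e : ℝ) ≤ x
  · exact Or.inr (Or.inr (Or.inl h3))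
  refine Or.inr (Or.inr (Or.inr ?_))
  obtain ⟨U, hU⟩ : ∃ U, U = P.filter (· ∣ d) ∩ P.filter (· ∣ e) := ⟨_, rfl⟩
  have hun : P.filter (· ∣ d * e) = P.filter (· ∣ d) ∪ P.filter (· ∣ e) := by
    rw [← filter_or]
    exact filter_congr fun p hp => (hP p hp).dvd_mul
  have hcard : omegaIn P (d * e) + #U = omegaIn P d + omegaIn P e := by
    rw [omegaIn, omegaIn, omegaIn, hU, hun, card_union_add_card_inter]
  have hkU : k ≤ #U := by
    have h : (omegaIn P (d * e) : ℝ) + #U = omegaIn P d + omegaIn P e := by exact_mod_cast hcard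
    have : (k : ℝ) ≤ #U := by linarith
    exact_mod_cast this
  have hmem : ∀ p ∈ U, p.Prime ∧ p ∣ d ∧ p ∣ e := fun p hp => by
    rw [hU, mem_inter, mem_filter, mem_filter] at hp
    exact ⟨hP p hp.1.1, hp.1.2, hp.2.2⟩
  exact ⟨∏ p ∈ U, p, (Nat.factorial_le hkU).trans
    (factorial_le_prod U fun p hp => (hmem p hp).1.two_le), Nat.mul_dvd_mul
      (prod_primes_dvd d (fun p hp => (hmem p hp).1.prime) fun p hp => (hmem p hp).2.1)
      (prod_primes_dvd e (fun p hp => (hmem p hp).1.prime) fun p hp => (hmem p hp).2.2)⟩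

end FA.PrimeTwoSquares
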