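import Fermat.Agent.MertensThird.Extreme
import Fermat.Agent.PrimeTwoSquares.DivisorWindow

/-!
# Growth: `N / φ N` and the small primes

`n / φ n = O (log log N)` for `n ≤ N`; the primes up to `N ^ (1 / (1000 log log N))` have reciprocal
sum between `0.9 log log N` and `log log N - 2`.
-/

set_option autoImplicit false

noncomputable section

namespace FA.PrimeTwoSquares

open Finset Filter
open ErdosKac (primesUpTo mem_primesUpTo recipSum)
open scoped Topology

/-- `⌊√N / (log N) ^ B⌋`. -/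
def cutLow (B N : ℕ) : ℕ := ⌊Real.sqrt N / Real.log N ^ B⌋₊

/-- `⌊√N (log N) ^ B⌋`. -/
def cutHigh (B N : ℕ) : ℕ := ⌊Real.sqrt N * Real.log N ^ B⌋₊

/-- The small primes. -/
def smallPrimes (N : ℕ) : Finset ℕ :=
  primesUpTo ⌊Real.exp (Real.log N / (1000 * Real.log (Real.log N)))⌋₊

theorem tendsto_log : Tendsto (fun N : ℕ => Real.log N) atTop atTop :=
  Real.tendsto_log_atTop.comp tendsto_natCast_atTop_atTop

theorem tendsto_loglog : Tendsto (fun N : ℕ => Real.log (Real.log N)) atTop atTop :=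
  Real.tendsto_log_atTop.comp tendsto_log

theorem tendsto_logloglog :
    Tendsto (fun N : ℕ => Real.log (Real.log (Real.log N))) atTop atTop :=
  Real.tendsto_log_atTop.comp tendsto_loglog

theorem eventually_ge_log (c : ℝ) : ∀ᶠ N : ℕ in atTop, c ≤ Real.log N :=
  tendsto_log.eventually (eventually_ge_atTop c)

theorem eventually_ge_loglog (c : ℝ) : ∀ᶠ N : ℕ in atTop, c ≤ Real.log (Real.log N) :=
  tendsto_loglog.eventually (eventually_ge_atTop c)

/-- `log log N` is negligible against `log N`. -/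
theorem eventually_loglog_le (c : ℝ) :
    ∀ᶠ N : ℕ in atTop, c * Real.log (Real.log N) ≤ Real.log N := by
  have h := tendsto_log.eventually
    ((Asymptotics.isLittleO_iff.1 Real.isLittleO_log_id_atTop)
      (show (0 : ℝ) < 1 / (|c| + 1) by positivity))
  filter_upwards [h, eventually_ge_log 1] with N hN hL
  rw [id, Real.norm_eq_abs, Real.norm_eq_abs, abs_of_nonneg (by linarith : (0 : ℝ) ≤ Real.log N),
    abs_of_nonneg (Real.log_nonneg hL), div_mul_eq_mul_div, one_mul,
    le_div_iff₀ (by positivity)] at hN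
  nlinarith [le_abs_self c, Real.log_nonneg hL]

/-- `(log log N) ^ k` is negligible against a power of `log N`. -/
theorem eventually_loglog_pow_le (c : ℝ) {ε : ℝ} (hε : 0 < ε) (k : ℕ) :
    ∀ᶠ N : ℕ in atTop,
      c * Real.log (Real.log N) ^ k ≤ Real.exp (ε * Real.log (Real.log N)) := by
  have h := tendsto_loglog.eventually ((Asymptotics.isLittleO_iff.1
    (isLittleO_pow_exp_pos_mul_atTop k hε)) (show (0 : ℝ) < 1 / (|c| + 1) by positivity))
  filter_upwards [h, eventually_ge_loglog 0] with N hN hl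
  rw [Real.norm_eq_abs, Real.norm_eq_abs, abs_of_nonneg (pow_nonneg hl k),
    abs_of_pos (Real.exp_pos _), div_mul_eq_mul_div, one_mul, le_div_iff₀ (by positivity)] at hN
  nlinarith [le_abs_self c, pow_nonneg hl k]

/-- **`n / φ n` for `n ≤ N`.** -/
theorem exists_ratio_le : ∃ C : ℝ, 1 ≤ C ∧ ∀ᶠ N : ℕ in atTop, ∀ n : ℕ, n ≤ N →
    (n : ℝ) / (n.totient : ℕ) ≤ C * Real.log (Real.log N) := by
  obtain ⟨a, ha⟩ : ∃ a, a = Real.exp (-Real.eulerMascheroniConstant) / 2 := ⟨_, rfl⟩
  have ha0 : 0 < a := ha ▸ half_pos (Real.exp_pos _)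
  obtain ⟨n₀, hn₀⟩ := eventually_atTop.1
    (MertensThird.eventually_le_phiRatio (a := a) (ha ▸ half_lt_self (Real.exp_pos _)))
  refine ⟨(n₀ : ℝ) + 16 + a⁻¹, by linarith [inv_pos.2 ha0, Nat.cast_nonneg (α := ℝ) n₀], ?_⟩
  filter_upwards [eventually_ge_loglog 1] with N hl n hn
  have hC : (n₀ : ℝ) + 16 + a⁻¹ ≤ ((n₀ : ℝ) + 16 + a⁻¹) * Real.log (Real.log N) :=
    le_mul_of_one_le_right (by positivity) hl
  rcases lt_or_ge n (max n₀ 16) with hlt | hge
  · refine le_trans ?_ hC
    rcases Nat.eq_zero_or_pos n with rfl | hn0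
    · rw [Nat.cast_zero, zero_div]
      positivity
    refine (div_le_self (Nat.cast_nonneg n)
      (Nat.one_le_cast.2 (Nat.totient_pos.2 hn0))).trans ?_
    have h : n ≤ n₀ + 16 := by omega
    have h' : (n : ℝ) ≤ (n₀ : ℝ) + 16 := by exact_mod_cast h
    linarith [inv_pos.2 ha0]
  · have h := hn₀ n (le_trans (le_max_left _ _) hge)
    rw [MertensThird.phiRatio] at h
    have hn16 : (16 : ℝ) ≤ n := Nat.ofNat_le_cast.2 (le_trans (le_max_right _ _) hge)
    have hn0 : (0 : ℝ) < n := by linarith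
    have hln : 1 < Real.log n := by
      rw [Real.lt_log_iff_exp_lt hn0]
      linarith [Real.exp_one_lt_three]
    have hφ : (0 : ℝ) < (n.totient : ℕ) :=
      Nat.cast_pos.2 (Nat.totient_pos.2 (Nat.cast_pos.1 hn0))
    rw [le_div_iff₀ hn0] at h
    have h2 : Real.log (Real.log n) ≤ Real.log (Real.log N) :=
      Real.log_le_log (by linarith) (Real.log_le_log hn0 (Nat.cast_le.2 hn))
    rw [div_le_iff₀ hφ]
    have h3 : (n : ℝ) ≤ a⁻¹ * ((n.totient : ℕ) * Real.log (Real.log N)) := by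
      rw [le_inv_mul_iff₀ ha0]
      exact h.trans (mul_le_mul_of_nonneg_left h2 hφ.le)
    nlinarith [mul_nonneg (add_nonneg (Nat.cast_nonneg (α := ℝ) n₀) (show (0 : ℝ) ≤ 16 by norm_num))
      (mul_nonneg hφ.le (show (0 : ℝ) ≤ Real.log (Real.log N) by linarith))]

/-- **The reciprocal sum of the small primes.** -/
theorem eventually_smallPrimes : ∀ᶠ N : ℕ in atTop,
    0.9 * Real.log (Real.log N) ≤ ∑ p ∈ smallPrimes N, (p : ℝ)⁻¹ ∧
      ∑ p ∈ smallPrimes N, ((p : ℝ) - 1)⁻¹ ≤ Real.log (Real.log N) := by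
  obtain ⟨C, hC⟩ := ErdosKac.exists_abs_recipSum_sub_le
  filter_upwards [eventually_loglog_le 2000, eventually_ge_loglog 1,
    tendsto_logloglog.eventually (eventually_ge_atTop (|C| + 3)),
    eventually_loglog_pow_le (2000 * Real.exp (|C|)) (show (0 : ℝ) < 0.1 by norm_num) 1]
    with N hlo hl1 hlll hexp
  obtain ⟨L, hL⟩ : ∃ L, L = Real.log N := ⟨_, rfl⟩
  obtain ⟨l, hl⟩ : ∃ l, l = Real.log L := ⟨_, rfl⟩
  rw [← hL, ← hl] at hlo hl1 hlll hexp ⊢
  rw [pow_one] at hexp
  obtain ⟨t, ht⟩ : ∃ t, t = L / (1000 * l) := ⟨_, rfl⟩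
  have ht2 : 2 ≤ t := by
    rw [ht, le_div_iff₀ (by linarith)]
    linarith
  obtain ⟨w, hw⟩ : ∃ w : ℕ, w = ⌊Real.exp t⌋₊ := ⟨_, rfl⟩
  have hP : smallPrimes N = primesUpTo w := by rw [smallPrimes, hw, ht, ← hL, ← hl]
  have he2 : 3 ≤ Real.exp t := by linarith [Real.add_one_le_exp t]
  have hw2 : 2 ≤ w := hw ▸ Nat.le_floor (by norm_num; linarith)
  have hwR : (2 : ℝ) ≤ w := Nat.ofNat_le_cast.2 hw2
  have hwlo : t - 1 ≤ Real.log w := by
    have h1 : Real.exp t / 2 ≤ (w : ℝ) := by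
      have h := Nat.lt_floor_add_one (Real.exp t)
      rw [← hw] at h
      linarith
    have h2 := Real.log_le_log (by positivity) h1
    rw [Real.log_div (Real.exp_pos t).ne' two_ne_zero, Real.log_exp] at h2
    linarith [Real.log_two_lt_d9]
  have hwhi : Real.log w ≤ t := by
    have h : (w : ℝ) ≤ Real.exp t := hw ▸ Nat.floor_le (Real.exp_pos t).le
    have h2 := Real.log_le_log (by linarith) h
    rwa [Real.log_exp] at h2
  have hL0 : 0 < L := by linarith
  have hllw_hi : Real.log (Real.log w) ≤ l - (Real.log 1000 + Real.log l) := by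
    have h := Real.log_le_log (by linarith) hwhi
    rw [ht, Real.log_div hL0.ne' (by positivity), Real.log_mul (by norm_num) (by linarith),
      ← hl] at h
    exact h
  have hllw_lo : l - (Real.log 2000 + Real.log l) ≤ Real.log (Real.log w) := by
    have h1 : L / (2000 * l) ≤ Real.log w := by
      refine le_trans ?_ hwlo
      rw [show L / (2000 * l) = t / 2 by rw [ht]; ring]
      linarith
    have h := Real.log_le_log (by positivity) h1
    rw [Real.log_div hL0.ne' (by positivity), Real.log_mul (by norm_num) (by linarith),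
      ← hl] at h
    exact h
  have hC' := abs_le.1 (hC w hw2)
  have hr : recipSum w = ∑ p ∈ smallPrimes N, (p : ℝ)⁻¹ := by rw [recipSum, hP]
  have hprime : ∀ p ∈ smallPrimes N, p.Prime := fun p hp => (mem_primesUpTo.1 (hP ▸ hp)).1
  constructor
  · rw [← hr]
    have h := Real.log_le_log (by positivity) hexp
    rw [Real.log_exp, Real.log_mul (by positivity) (by linarith),
      Real.log_mul (by norm_num) (Real.exp_pos _).ne', Real.log_exp] at h
    linarith [le_abs_self C, hC'.1]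
  · refine (sum_le_sum (g := fun p : ℕ => (p : ℝ)⁻¹ + 2 * ((p : ℝ) ^ 2)⁻¹)
      fun p hp => ?_).trans ?_
    · have h2 : (2 : ℝ) ≤ p := Nat.ofNat_le_cast.2 (hprime p hp).two_le
      rw [show (p : ℝ)⁻¹ + 2 * ((p : ℝ) ^ 2)⁻¹ = ((p : ℝ) + 2) / (p : ℝ) ^ 2 by field_simp,
        inv_eq_one_div, div_le_div_iff₀ (by linarith) (by positivity)]
      nlinarith
    · rw [sum_add_distrib, ← mul_sum, ← hr]
      have h1 := CombinatorialSieve.sum_inv_sq_primes_le fun p hp => (hprime p hp).two_le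
      linarith [le_abs_self C, hC'.2, Real.log_nonneg (show (1 : ℝ) ≤ 1000 by norm_num)]

end FA.PrimeTwoSquares
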