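import Fermat.Agent.PrimeTwoSquares.Expansions

/-!
# The main sum of the mean square

The pairs of divisors `d₁, d₂ ∈ (D₁, D₂]` are `(g a, g b)` with `a, b` coprime. The sum over them
of `χ₄ (d₁) χ₄ (d₂) ψ [d₁, d₂] / [d₁, d₂]`, `ψ` the product of `p / (p - 1)` over a set of primes,
is `O (log ((D₂ + 1) / (D₁ + 1)))`.
-/

set_option autoImplicit false

noncomputable section

namespace FA.PrimeTwoSquares

open Finset

/-- `1 / (p - 1)`. -/
def invPred (p : ℕ) : ℝ := ((p : ℝ) - 1)⁻¹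

/-- The sum over the pairs `(g a, g b)` with `g > G`. -/
def mainSum (T : Finset ℕ) (D₁ D₂ G : ℕ) : ℝ :=
  ∑ g ∈ Ioc G D₂, ∑ a ∈ Ioc (D₁ / g) (D₂ / g), ∑ b ∈ Ioc (D₁ / g) (D₂ / g),
    if a.Coprime b then chi g * chi g * (chi a * chi b) *
      twist T invPred (g * a * b) / ((g * a * b : ℕ) : ℝ) else 0

theorem invPred_nonneg {T : Finset ℕ} (hT : ∀ p ∈ T, p.Prime) : ∀ p ∈ T, 0 ≤ invPred p :=
  fun p hp => inv_nonneg.2 (sub_nonneg.2 (Nat.one_le_cast.2 (hT p hp).one_le))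

theorem invPred_le {p : ℕ} (hp : p.Prime) : invPred p ≤ 2 / (p : ℝ) ∧ invPred p ≤ 1 := by
  have h2 : (2 : ℝ) ≤ p := Nat.ofNat_le_cast.2 hp.two_le
  rw [invPred]
  constructor
  · rw [inv_eq_one_div, div_le_div_iff₀ (by linarith) (by linarith)]
    linarith
  · exact inv_le_one_of_one_le₀ (by linarith)

theorem prod_invPred_sqrt_le {T : Finset ℕ} (hT : ∀ p ∈ T, p.Prime) :
    ∏ p ∈ T, (1 + invPred p / Real.sqrt p) ≤ eulerBound := by
  refine prod_one_add_le_eulerBound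
    (fun p hp => div_nonneg (invPred_nonneg hT p hp) (Real.sqrt_nonneg _)) fun p hp => ?_
  refine (div_le_div_of_nonneg_right (invPred_le (hT p hp)).1 (Real.sqrt_nonneg _)).trans ?_
  rw [div_div, div_eq_mul_inv]
  exact mul_le_mul_of_nonneg_right (by norm_num) (by positivity)

theorem prod_invPred_div_le {T : Finset ℕ} (hT : ∀ p ∈ T, p.Prime) :
    ∏ p ∈ T, (1 + invPred p / p) ≤ eulerBound := by
  refine le_trans ?_ (prod_invPred_sqrt_le hT)
  refine prod_le_prod
    (fun p hp => add_nonneg zero_le_one (div_nonneg (invPred_nonneg hT p hp) (Nat.cast_nonneg p)))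
    fun p hp => ?_
  have h1 : (1 : ℝ) ≤ p := Nat.one_le_cast.2 (hT p hp).one_le
  refine add_le_add le_rfl (div_le_div_of_nonneg_left (invPred_nonneg hT p hp)
    (Real.sqrt_pos.2 (by linarith)) ?_)
  rw [Real.sqrt_le_left (by linarith)]
  exact le_self_pow₀ h1 two_ne_zero

theorem twist_invPred_le {T : Finset ℕ} (hT : ∀ p ∈ T, p.Prime) {e : ℕ} (he : 0 < e) :
    twist T invPred e ≤ 2 ^ e.primeFactors.card := by
  refine (prod_le_prod (g := fun _ => (2 : ℝ)) (fun p hp => ?_) fun p hp => ?_).trans ?_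
  · linarith [invPred_nonneg hT p (mem_filter.1 hp).1]
  · linarith [(invPred_le (hT p (mem_filter.1 hp).1)).2]
  rw [prod_const]
  refine pow_le_pow_right₀ one_le_two (card_le_card fun p hp => ?_)
  exact Nat.mem_primeFactors.2 ⟨hT p (mem_filter.1 hp).1, (mem_filter.1 hp).2, he.ne'⟩

theorem sum_squarefree_le (M : ℕ) :
    ∑ e ∈ (Icc 1 M).filter Squarefree, (4 : ℝ) ^ e.primeFactors.card / ((e : ℝ) * Real.sqrt e) ≤
      eulerBound := by
  obtain ⟨T, hT⟩ : ∃ T, T = (M + 1).primesBelow := ⟨_, rfl⟩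
  refine le_trans ?_ (prod_one_add_le_eulerBound (T := T)
    (c := fun p => 4 * ((p : ℝ) * Real.sqrt p)⁻¹) (fun p _ => by positivity) fun p _ => le_rfl)
  rw [prod_one_add]
  refine le_of_eq_of_le (sum_congr rfl fun e he => ?_) ((sum_image (g := Nat.primeFactors)
    fun x hx y hy h => ?_).symm.trans_le (sum_le_sum_of_subset_of_nonneg ?_
      fun U _ _ => prod_nonneg fun p _ => by positivity))
  · rw [mem_filter] at he
    rw [prod_mul_distrib, prod_const, prod_inv_distrib, prod_mul_distrib,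
      ← Real.sqrt_prod _ fun p _ => Nat.cast_nonneg p, ← Nat.cast_prod,
      Nat.prod_primeFactors_of_squarefree he.2, div_eq_mul_inv]
  · rw [← Nat.prod_primeFactors_of_squarefree (mem_filter.1 hx).2, h,
      Nat.prod_primeFactors_of_squarefree (mem_filter.1 hy).2]
  · intro U hU
    obtain ⟨e, he, rfl⟩ := mem_image.1 hU
    rw [mem_filter, mem_Icc] at he
    refine mem_powerset.2 fun p hp => hT ▸ Nat.mem_primesBelow.2 ?_
    exact ⟨Nat.lt_succ_of_le ((Nat.le_of_mem_primeFactors hp).trans he.1.2),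
      Nat.prime_of_mem_primeFactors hp⟩

/-- The saving for a small cofactor. -/
theorem inv_floor_succ_le {g e : ℕ} (hg : 0 < g) (he : 0 < e) (D : ℕ) :
    1 / (((D / g / e : ℕ) : ℝ) + 1) ≤
      min 1 (Real.sqrt ((g : ℝ) / ((D : ℝ) + 1))) * Real.sqrt e := by
  obtain ⟨q, hq⟩ : ∃ q : ℝ, q = ((D / g / e : ℕ) : ℝ) + 1 := ⟨_, rfl⟩
  have hq1 : 1 ≤ q := hq ▸ le_add_of_nonneg_left (Nat.cast_nonneg _)
  have hq2 : (D : ℝ) + 1 ≤ q * ((g : ℝ) * e) := by
    rw [hq, Nat.div_div_eq_div_mul]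
    exact_mod_cast Nat.lt_mul_of_div_lt (Nat.lt_succ_self (D / (g * e))) (Nat.mul_pos hg he)
  have he1 : (1 : ℝ) ≤ e := Nat.one_le_cast.2 he
  rw [← hq, min_mul_of_nonneg _ _ (Real.sqrt_nonneg _), one_mul,
    ← Real.sqrt_mul (by positivity), one_div]
  have hinv : q⁻¹ ≤ 1 := inv_le_one_of_one_le₀ hq1
  have hqi : 0 ≤ q⁻¹ := inv_nonneg.2 (zero_le_one.trans hq1)
  refine le_min (hinv.trans (Real.one_le_sqrt.2 he1)) ((Real.le_sqrt hqi (by positivity)).2 ?_)
  refine (sq q⁻¹ ▸ mul_le_of_le_one_left hqi hinv).trans ?_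
  rw [inv_eq_one_div, div_mul_eq_mul_div, div_le_div_iff₀ (by linarith) (by positivity), one_mul]
  linarith

theorem inner_eq {T : Finset ℕ} {g u v : ℕ} (hT : ∀ p ∈ T, p.Prime) :
    ∑ a ∈ Ioc u v, ∑ b ∈ Ioc u v, (if a.Coprime b then chi g * chi g * (chi a * chi b) *
        twist T invPred (g * a * b) / ((g * a * b : ℕ) : ℝ) else 0) =
      chi g * chi g * (twist T invPred g / g) * ∑ e ∈ Icc 1 v,
        ((ArithmeticFunction.moebius e : ℤ) : ℝ) *
          (∑ a ∈ (Ioc u v).filter (e ∣ ·),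
            chi a * twist (T.filter fun p => ¬ p ∣ g) invPred a / a) ^ 2 := by
  obtain ⟨T', hT'⟩ : ∃ T', T' = T.filter fun p => ¬ p ∣ g := ⟨_, rfl⟩
  have hT'p : ∀ p ∈ T', p.Prime := fun p hp => hT p (mem_filter.1 (hT' ▸ hp)).1
  obtain ⟨A, hA⟩ : ∃ A : ℕ → ℝ, A = fun a => chi a * twist T' invPred a / a := ⟨_, rfl⟩
  rw [← hT']
  calc ∑ a ∈ Ioc u v, ∑ b ∈ Ioc u v, (if a.Coprime b then chi g * chi g * (chi a * chi b) *
        twist T invPred (g * a * b) / ((g * a * b : ℕ) : ℝ) else 0)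
      = ∑ a ∈ Ioc u v, ∑ b ∈ Ioc u v, chi g * chi g * (twist T invPred g / g) *
          (∑ e ∈ Icc 1 v, if e ∣ a ∧ e ∣ b then
            ((ArithmeticFunction.moebius e : ℤ) : ℝ) * (A a * A b) else 0) := by
        refine sum_congr rfl fun a ha => sum_congr rfl fun b _ => ?_
        rw [mem_Ioc] at ha
        have h := coprime_eq_sum_moebius (b := b) (show 0 < a by omega) ha.2
        rw [sum_filter] at h
        simp_rw [← ite_zero_mul, ← sum_mul]
        rw [← h]
        split_ifs with hab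
        · rw [mul_assoc g a b, twist_mul hT, ← hT', twist_mul hT'p,
            twist_filter_coprime hT'p _ hab, hA]
          push_cast
          ring
        · ring
    _ = _ := by
        simp_rw [← mul_sum]
        congr 1
        calc ∑ a ∈ Ioc u v, ∑ b ∈ Ioc u v, ∑ e ∈ Icc 1 v,
              (if e ∣ a ∧ e ∣ b then
                ((ArithmeticFunction.moebius e : ℤ) : ℝ) * (A a * A b) else 0)
            = ∑ e ∈ Icc 1 v, ∑ a ∈ Ioc u v, ∑ b ∈ Ioc u v,
              (if e ∣ a ∧ e ∣ b then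
                ((ArithmeticFunction.moebius e : ℤ) : ℝ) * (A a * A b) else 0) := by
              rw [sum_congr rfl fun a _ => sum_comm, sum_comm]
          _ = _ := by
              refine sum_congr rfl fun e _ => ?_
              rw [sq, sum_mul_sum, mul_sum, sum_filter]
              refine sum_congr rfl fun a _ => ?_
              split_ifs with h
              · rw [mul_sum, sum_filter]
                refine sum_congr rfl fun b _ => ?_
                simp [h, hA]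
              · simp [h]

theorem abs_inner_le {T : Finset ℕ} (hT : ∀ p ∈ T, p.Prime) {g : ℕ} (hg : 0 < g) (D₁ D₂ : ℕ) :
    |∑ a ∈ Ioc (D₁ / g) (D₂ / g), ∑ b ∈ Ioc (D₁ / g) (D₂ / g),
      (if a.Coprime b then chi g * chi g * (chi a * chi b) *
        twist T invPred (g * a * b) / ((g * a * b : ℕ) : ℝ) else 0)| ≤
      eulerBound ^ 3 * (twist T invPred g / g * min 1 (Real.sqrt ((g : ℝ) / ((D₁ : ℝ) + 1)))) := by
  rw [inner_eq hT]
  obtain ⟨T', hT'⟩ : ∃ T', T' = T.filter fun p => ¬ p ∣ g := ⟨_, rfl⟩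
  have hT'p : ∀ p ∈ T', p.Prime := fun p hp => hT p (mem_filter.1 (hT' ▸ hp)).1
  obtain ⟨w, hw⟩ : ∃ w, w = min 1 (Real.sqrt ((g : ℝ) / ((D₁ : ℝ) + 1))) := ⟨_, rfl⟩
  have hw0 : 0 ≤ w := hw ▸ le_min zero_le_one (Real.sqrt_nonneg _)
  have hg0 : 0 ≤ twist T invPred g / g :=
    div_nonneg (twist_nonneg (invPred_nonneg hT) g) (Nat.cast_nonneg g)
  rw [← hT', ← hw, abs_mul, abs_mul, abs_of_nonneg hg0,
    show eulerBound ^ 3 * (twist T invPred g / g * w) =
      1 * (twist T invPred g / g) * (eulerBound ^ 3 * w) by ring]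
  refine mul_le_mul (mul_le_mul_of_nonneg_right ?_ hg0) ?_ (abs_nonneg _)
    (mul_nonneg zero_le_one hg0)
  · rw [abs_mul]
    exact mul_le_one₀ (abs_chi_le g) (abs_nonneg _) (abs_chi_le g)
  refine (abs_sum_le_sum_abs _ _).trans ?_
  calc ∑ e ∈ Icc 1 (D₂ / g), |((ArithmeticFunction.moebius e : ℤ) : ℝ) *
        (∑ a ∈ (Ioc (D₁ / g) (D₂ / g)).filter (e ∣ ·), chi a * twist T' invPred a / a) ^ 2|
      ≤ ∑ e ∈ Icc 1 (D₂ / g), if Squarefree e then
          eulerBound ^ 2 * w * ((4 : ℝ) ^ e.primeFactors.card / ((e : ℝ) * Real.sqrt e))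
          else 0 := by
        refine sum_le_sum fun e he => ?_
        have he0 : 0 < e := (mem_Icc.1 he).1
        split_ifs with hsq
        swap
        · simp [ArithmeticFunction.moebius_eq_zero_of_not_squarefree hsq]
        rw [abs_mul, abs_pow]
        refine (mul_le_of_le_one_left (pow_nonneg (abs_nonneg _) 2)
          (by exact_mod_cast ArithmeticFunction.abs_moebius_le_one)).trans ?_
        rw [sum_multiples he0]
        obtain ⟨T'', hT''⟩ : ∃ T'', T'' = T'.filter fun p => ¬ p ∣ e := ⟨_, rfl⟩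
        have hT''p : ∀ p ∈ T'', p.Prime := fun p hp => hT'p p (mem_filter.1 (hT'' ▸ hp)).1
        obtain ⟨U, hU⟩ : ∃ U, U = ∑ a ∈ Ioc (D₁ / g / e) (D₂ / g / e),
            chi a * twist T'' invPred a / a := ⟨_, rfl⟩
        have hterm : ∑ a ∈ Ioc (D₁ / g / e) (D₂ / g / e),
            chi (e * a) * twist T' invPred (e * a) / ((e * a : ℕ) : ℝ) =
            chi e * twist T' invPred e / e * U := by
          rw [hU, mul_sum]
          refine sum_congr rfl fun a _ => ?_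
          rw [chi_mul, twist_mul hT'p, ← hT'', Nat.cast_mul]
          ring
        rw [hterm, abs_mul, mul_pow, sq_abs, sq_abs]
        obtain ⟨q, hq⟩ : ∃ q : ℝ, q = ((D₁ / g / e : ℕ) : ℝ) + 1 := ⟨_, rfl⟩
        have hq0 : 0 < q := hq ▸ by positivity
        have hU2 : U ^ 2 ≤ eulerBound ^ 2 * (w * Real.sqrt e) := by
          have h1 := abs_sum_chi_twist_le hT''p (invPred_nonneg hT''p) (D₁ / g / e) (D₂ / g / e)
          rw [← hU, ← hq] at h1
          have h2 : |U| ≤ eulerBound / Real.sqrt q := h1.trans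
            (div_le_div_of_nonneg_right (prod_invPred_sqrt_le hT''p) (Real.sqrt_nonneg _))
          rw [← sq_abs]
          refine (pow_le_pow_left₀ (abs_nonneg _) h2 2).trans ?_
          rw [div_pow, Real.sq_sqrt hq0.le, div_eq_mul_one_div]
          exact mul_le_mul_of_nonneg_left (hw ▸ hq ▸ inv_floor_succ_le hg he0 D₁) (sq_nonneg _)
        have he1 : (0 : ℝ) < e := Nat.cast_pos.2 he0
        have hf : (chi e * twist T' invPred e / e) ^ 2 ≤
            (4 : ℝ) ^ e.primeFactors.card / (e : ℝ) ^ 2 := by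
          rw [div_pow, mul_pow, show (4 : ℝ) = 2 ^ 2 by norm_num, ← pow_mul, mul_comm 2, pow_mul]
          refine div_le_div_of_nonneg_right ((mul_le_of_le_one_left (sq_nonneg _) ?_).trans
            (pow_le_pow_left₀ (twist_nonneg (invPred_nonneg hT'p) e) (twist_invPred_le hT'p he0) 2))
            (sq_nonneg _)
          rw [← sq_abs]
          exact pow_le_one₀ (abs_nonneg _) (abs_chi_le e)
        refine (mul_le_mul hf hU2 (sq_nonneg _) (by positivity)).trans (le_of_eq ?_)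
        obtain ⟨s, hs⟩ : ∃ s, s = Real.sqrt e := ⟨_, rfl⟩
        have hs2 : s * s = e := hs ▸ Real.mul_self_sqrt he1.le
        have hs0 : s ≠ 0 := hs ▸ (Real.sqrt_pos.2 he1).ne'
        rw [← hs, ← hs2]
        field_simp
    _ ≤ eulerBound ^ 2 * w * eulerBound := by
        rw [← sum_filter, ← mul_sum]
        exact mul_le_mul_of_nonneg_left (sum_squarefree_le _) (mul_nonneg (sq_nonneg _) hw0)
    _ = eulerBound ^ 3 * w := by ring

theorem sum_inv_sqrt_le (M : ℕ) : ∑ n ∈ Ioc 0 M, (Real.sqrt n)⁻¹ ≤ 2 * Real.sqrt M := by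
  induction M with
  | zero => simp
  | succ M ih =>
    rw [sum_Ioc_succ_top (Nat.zero_le M), Nat.cast_succ]
    have h1 : 0 < Real.sqrt ((M : ℝ) + 1) := Real.sqrt_pos.2 (by positivity)
    have h2 := Real.sq_sqrt (show 0 ≤ (M : ℝ) + 1 by positivity)
    have h3 := Real.sq_sqrt (Nat.cast_nonneg (α := ℝ) M)
    have h4 : (Real.sqrt ((M : ℝ) + 1))⁻¹ ≤
        2 * Real.sqrt ((M : ℝ) + 1) - 2 * Real.sqrt M := by
      rw [inv_le_iff_one_le_mul₀ h1]
      nlinarith [sq_nonneg (Real.sqrt ((M : ℝ) + 1) - Real.sqrt M)]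
    linarith

theorem sum_twist_div_sqrt_le {T : Finset ℕ} (hT : ∀ p ∈ T, p.Prime) {c : ℕ → ℝ}
    (hc : ∀ p ∈ T, 0 ≤ c p) (D : ℕ) :
    ∑ a ∈ Ioc 0 D, twist T c a / Real.sqrt a ≤
      2 * Real.sqrt D * ∏ p ∈ T, (1 + c p / p) := by
  simp_rw [twist_eq_sum hT c, sum_div, ite_div, zero_div]
  rw [sum_comm, prod_one_add, mul_sum]
  refine sum_le_sum fun U hU => ?_
  have hUT := mem_powerset.1 hU
  obtain ⟨m, hm⟩ : ∃ m, m = ∏ p ∈ U, p := ⟨_, rfl⟩
  have hm0 : 0 < m := hm ▸ prod_pos fun p hp => (hT p (hUT hp)).pos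
  have hc0 : 0 ≤ ∏ p ∈ U, c p := prod_nonneg fun p hp => hc p (hUT hp)
  have hm0' : 0 < Real.sqrt m := Real.sqrt_pos.2 (Nat.cast_pos.2 hm0)
  rw [← sum_filter, ← hm, sum_multiples hm0, Nat.zero_div, prod_div_distrib, ← Nat.cast_prod, ← hm]
  calc ∑ a ∈ Ioc 0 (D / m), (∏ p ∈ U, c p) / Real.sqrt ((m * a : ℕ) : ℝ)
      = (∏ p ∈ U, c p) / Real.sqrt m * ∑ a ∈ Ioc 0 (D / m), (Real.sqrt a)⁻¹ := by
        rw [mul_sum]
        refine sum_congr rfl fun a _ => ?_
        rw [Nat.cast_mul, Real.sqrt_mul (Nat.cast_nonneg m)]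
        ring
    _ ≤ (∏ p ∈ U, c p) / Real.sqrt m * (2 * (Real.sqrt D / Real.sqrt m)) := by
        refine mul_le_mul_of_nonneg_left ((sum_inv_sqrt_le _).trans
          (mul_le_mul_of_nonneg_left ?_ zero_le_two)) (by positivity)
        rw [← Real.sqrt_div' _ (Nat.cast_nonneg m)]
        exact Real.sqrt_le_sqrt Nat.cast_div_le
    _ = _ := by
        have hms := Real.mul_self_sqrt (Nat.cast_nonneg (α := ℝ) m)
        obtain ⟨r, hr⟩ : ∃ r, r = Real.sqrt m := ⟨_, rfl⟩
        rw [← hr] at hms hm0' ⊢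
        rw [← hms]
        field_simp

/-- **The main sum is bounded by the logarithmic width.** -/
theorem abs_mainSum_le {T : Finset ℕ} (hT : ∀ p ∈ T, p.Prime) {D₁ D₂ : ℕ} (hD : D₁ ≤ D₂) (G : ℕ) :
    |mainSum T D₁ D₂ G| ≤ 2 * eulerBound ^ 4 * logWidth D₁ D₂ := by
  rw [mainSum]
  refine (abs_sum_le_sum_abs _ _).trans ((sum_le_sum (g := fun g : ℕ => eulerBound ^ 3 *
    (twist T invPred g / g * min 1 (Real.sqrt ((g : ℝ) / ((D₁ : ℝ) + 1)))))
    fun g hg => ?_).trans ?_)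
  · exact abs_inner_le hT (Nat.zero_lt_of_lt (mem_Ioc.1 hg).1) _ _
  have hnn : ∀ g : ℕ, 0 ≤ twist T invPred g / g := fun g =>
    div_nonneg (twist_nonneg (invPred_nonneg hT) g) (Nat.cast_nonneg g)
  rw [← mul_sum, show 2 * eulerBound ^ 4 * logWidth D₁ D₂ =
    eulerBound ^ 3 * (2 * eulerBound * logWidth D₁ D₂) by ring]
  refine mul_le_mul_of_nonneg_left ?_ (pow_nonneg eulerBound_pos.le 3)
  refine (sum_le_sum_of_subset_of_nonneg (t := Ioc 0 D₂) (Ioc_subset_Ioc_left (Nat.zero_le G))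
    fun g _ _ => mul_nonneg (hnn g) (le_min zero_le_one (Real.sqrt_nonneg _))).trans ?_
  rw [← sum_Ioc_consecutive _ (Nat.zero_le D₁) hD]
  have h1 : ∑ g ∈ Ioc 0 D₁,
      twist T invPred g / g * min 1 (Real.sqrt ((g : ℝ) / ((D₁ : ℝ) + 1))) ≤ 2 * eulerBound := by
    have hD0 : 0 < Real.sqrt ((D₁ : ℝ) + 1) := Real.sqrt_pos.2 (by positivity)
    refine (sum_le_sum (g := fun g : ℕ => twist T invPred g / Real.sqrt g /
      Real.sqrt ((D₁ : ℝ) + 1)) fun g hg => ?_).trans ?_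
    · have hg0 : (0 : ℝ) < g := Nat.cast_pos.2 (mem_Ioc.1 hg).1
      refine (mul_le_mul_of_nonneg_left (min_le_right _ _) (hnn g)).trans (le_of_eq ?_)
      rw [Real.sqrt_div' _ (by positivity)]
      have hs := Real.sqrt_pos.2 hg0
      field_simp
      linear_combination twist T invPred g * Real.mul_self_sqrt hg0.le
    · rw [← sum_div, div_le_iff₀ hD0]
      refine (sum_twist_div_sqrt_le hT (invPred_nonneg hT) D₁).trans ?_
      rw [mul_comm _ (∏ p ∈ T, _), mul_comm (2 * eulerBound), mul_left_comm _ 2 eulerBound,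
        mul_left_comm (∏ p ∈ T, _) 2]
      refine mul_le_mul_of_nonneg_left ?_ zero_le_two
      rw [mul_comm]
      exact mul_le_mul (Real.sqrt_le_sqrt (by linarith)) (prod_invPred_div_le hT)
        (prod_nonneg fun p hp => add_nonneg zero_le_one
          (div_nonneg (invPred_nonneg hT p hp) (Nat.cast_nonneg p))) hD0.le
  have h2 : ∑ g ∈ Ioc D₁ D₂,
      twist T invPred g / g * min 1 (Real.sqrt ((g : ℝ) / ((D₁ : ℝ) + 1))) ≤
        logWidth D₁ D₂ * eulerBound :=
    ((sum_le_sum fun g _ => mul_le_of_le_one_right (hnn g) (min_le_left _ _)).trans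
      (sum_twist_div_le hT (invPred_nonneg hT) hD)).trans
      (mul_le_mul_of_nonneg_left (prod_invPred_div_le hT) (by linarith [two_le_logWidth hD]))
  nlinarith [two_le_logWidth hD, eulerBound_pos, h1, h2]

end FA.PrimeTwoSquares
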