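import Fermat.Agent.CombinatorialSieve.Integers
import Fermat.Agent.PrimesMinusOne.BrunTitchmarsh
import Fermat.Agent.PrimeTwoSquares.Oscillation

/-!
# The mean square of the middle sum over shifted primes (Hooley)

For `F m = ∑ χ₄ d` over the divisors of `m` in `(D₁, D₂]`, the sum of `F m ^ 2` over the `m ≤ M`
with `|b - m|` prime is bounded by the sieve product times `M` times the logarithmic width of the
window: the pairs with a long cofactor cancel over that cofactor, the others are counted by the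
fundamental lemma.
-/

set_option autoImplicit false

noncomputable section

namespace FA.PrimeTwoSquares

open Finset
open CombinatorialSieve (betaWeight sievingPrimes sievingProd truncSum defect)

/-- The middle divisor sum. -/
def windowSum (D₁ D₂ m : ℕ) : ℝ := ∑ d ∈ (Ioc D₁ D₂).filter (· ∣ m), chi d

/-- The upper sieve at `|b - m|`. -/
def upperWeight (Z s : ℝ) (b : ℤ) (m : ℕ) : ℝ :=
  ∑ k ∈ (sievingProd Z b.natAbs).divisors,
    betaWeight (Z ^ s) 10 1 k * if (k : ℤ) ∣ b - m then 1 else 0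

/-- The multiples `m = l c ≤ M` with `k ∣ b - m`. -/
def multCount (b : ℤ) (M k l : ℕ) : ℕ :=
  #((Icc 1 (M / l)).filter fun c : ℕ => (k : ℤ) ∣ b - ((l * c : ℕ) : ℤ))

/-- `∑ λ_k #{m ≤ M : l ∣ m, k ∣ b - m}`. -/
def sieveCount (Z s : ℝ) (b : ℤ) (M l : ℕ) : ℝ :=
  ∑ k ∈ (sievingProd Z b.natAbs).divisors, betaWeight (Z ^ s) 10 1 k * (multCount b M k l : ℝ)

/-- The sieve product. -/
def sifterProduct (Z : ℝ) (b : ℤ) : ℝ := ∏ p ∈ sievingPrimes Z b.natAbs, (1 - (p : ℝ)⁻¹)

theorem sum_window_gcd (D₁ D₂ : ℕ) (H : ℕ → ℕ → ℝ) :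
    ∑ d ∈ Ioc D₁ D₂, ∑ e ∈ Ioc D₁ D₂, H d e =
      ∑ g ∈ Ioc 0 D₂, ∑ a ∈ Ioc (D₁ / g) (D₂ / g), ∑ b ∈ Ioc (D₁ / g) (D₂ / g),
        if a.Coprime b then H (g * a) (g * b) else 0 := by
  have e1 : ∀ g : ℕ, (∑ a ∈ Ioc (D₁ / g) (D₂ / g), ∑ b ∈ Ioc (D₁ / g) (D₂ / g),
      if a.Coprime b then H (g * a) (g * b) else 0) =
      ∑ c ∈ ((Ioc (D₁ / g) (D₂ / g)) ×ˢ (Ioc (D₁ / g) (D₂ / g))).filter
        (fun c => c.1.Coprime c.2), H (g * c.1) (g * c.2) := fun g => by
    rw [sum_filter, sum_product]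
  rw [sum_congr rfl fun g _ => e1 g, ← sum_product', sum_sigma']
  have hg : ∀ d e : ℕ, D₁ < d → d ≤ D₂ → D₁ < e → e ≤ D₂ →
      ∃ g a b : ℕ, g = d.gcd e ∧ d = g * a ∧ e = g * b ∧ 0 < g ∧ g ≤ D₂ ∧ a.Coprime b ∧
        D₁ / g < a ∧ a ≤ D₂ / g ∧ D₁ / g < b ∧ b ≤ D₂ / g := by
    intro d e h1 h2 h3 h4
    obtain ⟨g, hgdef⟩ : ∃ g, g = d.gcd e := ⟨_, rfl⟩
    have hg0 : 0 < g := hgdef ▸ Nat.gcd_pos_of_pos_left e (by omega)
    obtain ⟨a, ha⟩ : g ∣ d := hgdef ▸ Nat.gcd_dvd_left d e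
    obtain ⟨b, hb⟩ : g ∣ e := hgdef ▸ Nat.gcd_dvd_right d e
    have hab : a.Coprime b := by
      have h := hgdef
      rw [ha, hb, Nat.gcd_mul_left] at h
      exact (mul_eq_left₀ hg0.ne').1 h.symm
    refine ⟨g, a, b, hgdef, ha, hb, hg0,
      (Nat.le_of_dvd (by omega) ⟨a, ha⟩).trans h2, hab, ?_, ?_, ?_, ?_⟩
    all_goals
      first
      | rw [Nat.div_lt_iff_lt_mul hg0, mul_comm]
      | rw [Nat.le_div_iff_mul_le hg0, mul_comm]
    · rwa [← ha]
    · rwa [← ha]
    · rwa [← hb]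
    · rwa [← hb]
  refine sum_nbij'
    (fun c => (⟨c.1.gcd c.2, (c.1 / c.1.gcd c.2, c.2 / c.1.gcd c.2)⟩ : (_ : ℕ) × (ℕ × ℕ)))
    (fun c => (c.1 * c.2.1, c.1 * c.2.2)) ?_ ?_ ?_ ?_ ?_
  · rintro ⟨d, e⟩ hc
    rw [mem_product, mem_Ioc, mem_Ioc] at hc
    obtain ⟨g, a, b, hgd, hd, he, hg0, hgD, hab, h1, h2, h3, h4⟩ :=
      hg d e hc.1.1 hc.1.2 hc.2.1 hc.2.2
    simp only [mem_sigma, mem_filter, mem_product, mem_Ioc, ← hgd]
    rw [hd, he, Nat.mul_div_cancel_left _ hg0, Nat.mul_div_cancel_left _ hg0]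
    exact ⟨⟨hg0, hgD⟩, ⟨⟨h1, h2⟩, h3, h4⟩, hab⟩
  · rintro ⟨g, a, b⟩ hc
    simp only [mem_sigma, mem_filter, mem_product, mem_Ioc] at hc ⊢
    obtain ⟨⟨hg0, -⟩, ⟨⟨h1, h2⟩, h3, h4⟩, -⟩ := hc
    rw [Nat.div_lt_iff_lt_mul hg0, mul_comm] at h1 h3
    rw [Nat.le_div_iff_mul_le hg0, mul_comm] at h2 h4
    exact ⟨⟨h1, h2⟩, h3, h4⟩
  · rintro ⟨d, e⟩ hc
    exact Prod.ext (Nat.mul_div_cancel' (Nat.gcd_dvd_left d e))
      (Nat.mul_div_cancel' (Nat.gcd_dvd_right d e))
  · rintro ⟨g, a, b⟩ hc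
    simp only [mem_sigma, mem_filter, mem_product, mem_Ioc] at hc
    simp only [Nat.gcd_mul_left, hc.2.2.gcd_eq_one, mul_one, Nat.mul_div_cancel_left _ hc.1.1]
  · rintro ⟨d, e⟩ _
    simp only [Nat.mul_div_cancel' (Nat.gcd_dvd_left d e),
      Nat.mul_div_cancel' (Nat.gcd_dvd_right d e)]

theorem card_multiples_eq (b : ℤ) (M k : ℕ) {l : ℕ} (hl : 0 < l) :
    #((Icc 1 M).filter fun m : ℕ => l ∣ m ∧ (k : ℤ) ∣ b - m) = multCount b M k l := by
  refine card_nbij' (fun m => m / l) (fun c => l * c) ?_ ?_ ?_ ?_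
  · intro m hm
    simp only [mem_filter, mem_Icc, mem_coe] at hm ⊢
    obtain ⟨⟨h1, h2⟩, ⟨c, rfl⟩, hk⟩ := hm
    rw [Nat.mul_div_cancel_left _ hl]
    exact ⟨⟨Nat.pos_of_mul_pos_left h1, (Nat.le_div_iff_mul_le hl).2 (mul_comm c l ▸ h2)⟩, hk⟩
  · intro c hc
    simp only [mem_filter, mem_Icc, mem_coe] at hc ⊢
    refine ⟨⟨Nat.mul_pos hl hc.1.1, ?_⟩, dvd_mul_right l c, hc.2⟩
    exact mul_comm c l ▸ (Nat.le_div_iff_mul_le hl).1 hc.1.2
  · intro m hm
    exact Nat.mul_div_cancel' (mem_filter.1 hm).2.1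
  · intro c _
    exact Nat.mul_div_cancel_left _ hl

/-- The square of the middle sum, opened and sieved. -/
theorem sum_upperWeight_sq (Z s : ℝ) (b : ℤ) (M D₁ D₂ : ℕ) :
    ∑ m ∈ Icc 1 M, upperWeight Z s b m * windowSum D₁ D₂ m ^ 2 =
      ∑ g ∈ Ioc 0 D₂, ∑ a ∈ Ioc (D₁ / g) (D₂ / g), ∑ c ∈ Ioc (D₁ / g) (D₂ / g),
        if a.Coprime c then
          chi g * chi g * (chi a * chi c) * sieveCount Z s b M (g * a * c) else 0 := by
  have e1 : ∀ m : ℕ, windowSum D₁ D₂ m ^ 2 = ∑ d ∈ Ioc D₁ D₂, ∑ e ∈ Ioc D₁ D₂,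
      chi d * chi e * if d ∣ m ∧ e ∣ m then (1 : ℝ) else 0 := fun m => by
    rw [windowSum, sum_filter, sq, sum_mul_sum]
    refine sum_congr rfl fun d _ => sum_congr rfl fun e _ => ?_
    by_cases hd : d ∣ m <;> by_cases he : e ∣ m <;> simp [hd, he]
  simp_rw [e1]
  rw [sum_congr rfl fun m _ => congrArg (upperWeight Z s b m * ·) (sum_window_gcd D₁ D₂ _)]
  simp_rw [mul_sum, mul_ite, mul_zero]
  rw [sum_comm]
  refine sum_congr rfl fun g hg => ?_
  rw [sum_comm]
  refine sum_congr rfl fun a ha => ?_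
  rw [sum_comm]
  refine sum_congr rfl fun c hc => ?_
  split_ifs with hac
  swap
  · exact sum_eq_zero fun m _ => rfl
  rw [mem_Ioc] at hg ha hc
  have hl : 0 < g * a * c :=
    Nat.mul_pos (Nat.mul_pos hg.1 (Nat.zero_lt_of_lt ha.1)) (Nat.zero_lt_of_lt hc.1)
  have hdvd : ∀ m, g * a ∣ m ∧ g * c ∣ m ↔ g * a * c ∣ m := fun m => by
    rw [← Nat.lcm_dvd_iff, Nat.lcm_mul_left, Nat.Coprime.lcm_eq_mul hac, mul_assoc]
  simp only [hdvd, chi_mul, sieveCount, upperWeight, mul_sum, sum_mul]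
  rw [← sum_filter, sum_comm]
  refine sum_congr rfl fun k _ => ?_
  rw [← card_multiples_eq b M k hl, ← sum_mul, ← mul_sum, sum_boole, filter_filter]
  ring

theorem abs_small_inner_le {k : ℕ} (hk : Squarefree k) (b : ℤ) (M : ℕ) {g c : ℕ} (hg : 0 < g)
    (hc : 0 < c) (u v : ℕ) :
    |∑ a ∈ Ioc u v, (if a.Coprime c then chi a * (multCount b M k (g * a * c) : ℝ) else 0)| ≤
      ((M / (g * (u + 1) * c) : ℕ) : ℝ) * (2 * (c.divisors.card : ℝ)) := by
  obtain ⟨C, hC⟩ : ∃ C, C = M / (g * (u + 1) * c) := ⟨_, rfl⟩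
  rw [← hC]
  have hcnt : ∀ a ∈ Ioc u v, (multCount b M k (g * a * c) : ℝ) = ∑ t ∈ Icc 1 C,
      if g * a * c * t ≤ M ∧ (k : ℤ) ∣ b - ((g * a * c * t : ℕ) : ℤ) then (1 : ℝ) else 0 := by
    intro a ha
    rw [mem_Ioc] at ha
    have hl : 0 < g * a * c := Nat.mul_pos (Nat.mul_pos hg (by omega)) hc
    rw [multCount, sum_boole]
    congr 2
    ext t
    simp only [mem_filter, mem_Icc, Nat.le_div_iff_mul_le hl, mul_comm t (g * a * c)]
    refine ⟨fun h => ⟨⟨h.1.1, ?_⟩, h.1.2, h.2⟩, fun h => ⟨⟨h.1.1, h.2.1⟩, h.2.2⟩⟩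
    rw [hC, Nat.le_div_iff_mul_le (Nat.mul_pos (Nat.mul_pos hg (by omega)) hc), mul_comm]
    exact le_trans (Nat.mul_le_mul_right _ (Nat.mul_le_mul_right _
      (Nat.mul_le_mul_left _ ha.1))) h.1.2
  rw [sum_congr rfl fun a ha => show (if a.Coprime c then
      chi a * (multCount b M k (g * a * c) : ℝ) else 0) = ∑ t ∈ Icc 1 C,
      (if a.Coprime c then (1 : ℝ) else 0) * (if g * a * c * t ≤ M ∧
        (k : ℤ) ∣ b - ((g * a * c * t : ℕ) : ℤ) then chi a else 0) by
    rw [hcnt a ha]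
    split_ifs
    · rw [mul_sum]
      exact sum_congr rfl fun t _ => by split_ifs <;> simp
    · simp, sum_comm]
  refine (abs_sum_le_sum_abs _ _).trans ((sum_le_card_nsmul _ _ (2 * (c.divisors.card : ℝ))
    fun t ht => ?_).trans (le_of_eq ?_))
  swap
  · rw [Nat.card_Icc, Nat.add_sub_cancel, nsmul_eq_mul]
  rw [mem_Icc] at ht
  have hgct : 0 < g * c * t := Nat.mul_pos (Nat.mul_pos hg hc) (by omega)
  rw [sum_congr rfl fun a ha => show (if a.Coprime c then (1 : ℝ) else 0) *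
      (if g * a * c * t ≤ M ∧ (k : ℤ) ∣ b - ((g * a * c * t : ℕ) : ℤ) then chi a else 0) =
      ∑ e ∈ (Icc 1 v).filter (· ∣ c), if e ∣ a then ((ArithmeticFunction.moebius e : ℤ) : ℝ) *
        (if g * a * c * t ≤ M ∧ (k : ℤ) ∣ b - ((g * a * c * t : ℕ) : ℤ) then chi a else 0)
          else 0 by
    rw [mem_Ioc] at ha
    rw [coprime_eq_sum_moebius (show 0 < a by omega) ha.2, sum_mul, sum_filter, sum_filter]
    refine sum_congr rfl fun e _ => ?_
    by_cases h1 : e ∣ a <;> by_cases h2 : e ∣ c <;> simp [h1, h2], sum_comm]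
  refine (abs_sum_le_sum_abs _ _).trans ((sum_le_card_nsmul _ _ (2 : ℝ) fun e he => ?_).trans ?_)
  swap
  · rw [nsmul_eq_mul, mul_comm]
    refine mul_le_mul_of_nonneg_left (Nat.cast_le.2 (card_le_card fun e he => ?_)) zero_le_two
    exact Nat.mem_divisors.2 ⟨(mem_filter.1 he).2, hc.ne'⟩
  rw [mem_filter, mem_Icc] at he
  rw [← sum_filter, ← mul_sum, abs_mul]
  refine (mul_le_of_le_one_left (abs_nonneg _)
    (by exact_mod_cast ArithmeticFunction.abs_moebius_le_one)).trans ?_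
  rw [sum_multiples he.1.1]
  have hiff : ∀ a : ℕ, g * (e * a) * c * t ≤ M ∧
      (k : ℤ) ∣ b - ((g * (e * a) * c * t : ℕ) : ℤ) ↔
      a ≤ M / (g * c * t * e) ∧ (k : ℤ) ∣ b - ((g * c * t * e : ℕ) : ℤ) * a := fun a => by
    rw [Nat.le_div_iff_mul_le (Nat.mul_pos hgct he.1.1),
      show g * (e * a) * c * t = a * (g * c * t * e) by ring, Nat.cast_mul a,
      mul_comm (a : ℤ)]
  simp only [hiff]
  rw [sum_congr rfl fun a _ => show (if a ≤ M / (g * c * t * e) ∧
      (k : ℤ) ∣ b - ((g * c * t * e : ℕ) : ℤ) * a then chi (e * a) else 0) =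
      chi e * (if a ≤ M / (g * c * t * e) ∧
      (k : ℤ) ∣ b - ((g * c * t * e : ℕ) : ℤ) * a then chi a else 0) by
    rw [chi_mul, mul_ite, mul_zero], ← mul_sum, abs_mul]
  refine (mul_le_of_le_one_left (abs_nonneg _) (abs_chi_le e)).trans ?_
  refine le_of_eq_of_le (congrArg _ ?_)
    (abs_sum_chi_dvd_le hk (u / e) (min (v / e) (M / (g * c * t * e))) b
      ((g * c * t * e : ℕ) : ℤ))
  rw [← sum_filter]
  refine sum_congr ?_ fun _ _ => rfl
  ext a
  simp only [mem_filter, mem_Ioc, le_min_iff, and_assoc]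

theorem card_levelSet_le (Z s : ℝ) (P : ℕ) (hZ : 0 ≤ Z) :
    (#(P.divisors.filter fun k : ℕ => (k : ℝ) < Z ^ s) : ℝ) ≤ Z ^ s := by
  refine le_trans ?_ (Nat.floor_le (Real.rpow_nonneg hZ s))
  refine Nat.cast_le.2 ((card_le_card (t := Icc 1 ⌊Z ^ s⌋₊) fun d hd => ?_).trans
    (Nat.card_Icc 1 _).le)
  rw [mem_filter] at hd
  exact mem_Icc.2 ⟨Nat.pos_of_mem_divisors hd.1, Nat.le_floor hd.2.le⟩

theorem abs_betaWeight_le_ind {Z s : ℝ} (hZ : 1 < Z) (hs : 10 ≤ s) {M k : ℕ}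
    (hk : k ∈ (sievingProd Z M).divisors) :
    |betaWeight (Z ^ s) 10 1 k| ≤ if (k : ℝ) < Z ^ s then 1 else 0 := by
  split_ifs with h
  · exact CombinatorialSieve.abs_betaWeight_le _ _ _ _
  · rw [CombinatorialSieve.betaWeight_eq_zero (P := sievingProd Z M) (fun p hp => ?_)
      (CombinatorialSieve.squarefree_sievingProd Z M).ne_zero hZ (by norm_num) (by norm_num)
      (by exact_mod_cast hs) (Nat.dvd_of_mem_divisors hk) (not_lt.1 h), abs_zero]
    rw [CombinatorialSieve.primeFactors_sievingProd] at hp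
    exact (CombinatorialSieve.mem_sievingPrimes.1 hp).2.1

/-- The error of the fundamental lemma, without the product. -/
def sieveErr (s : ℝ) : ℝ := 20 * Real.exp (10 : ℕ) * Real.exp 13 ^ 10 * Real.exp (-s)

theorem sifterProduct_nonneg (Z : ℝ) (b : ℤ) : 0 ≤ sifterProduct Z b :=
  prod_nonneg fun _ hp => sub_nonneg.2 (inv_le_one_of_one_le₀
    (Nat.one_le_cast.2 (CombinatorialSieve.prime_of_mem_sievingPrimes hp).one_le))

/-- **The fundamental lemma on the multiples of `l`.** -/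
theorem abs_sieveCount_sub_le {Z s : ℝ} (hZ : 2 ≤ Z) (hs : 10 ≤ s) (b : ℤ) (M : ℕ) {l : ℕ}
    (hl : 0 < l) :
    |sieveCount Z s b M l -
        M * sifterProduct Z b * (twist (sievingPrimes Z b.natAbs) invPred l / l)| ≤
      sieveErr s * (M * sifterProduct Z b * (twist (sievingPrimes Z b.natAbs) invPred l / l)) +
        2 * Z ^ s := by
  obtain ⟨T, hT⟩ : ∃ T, T = sievingPrimes Z b.natAbs := ⟨_, rfl⟩
  obtain ⟨P, hP⟩ : ∃ P, P = sievingProd Z b.natAbs := ⟨_, rfl⟩
  have hsq : Squarefree P := hP ▸ CombinatorialSieve.squarefree_sievingProd _ _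
  have hPT : P.primeFactors = T := by
    rw [hP, hT, CombinatorialSieve.primeFactors_sievingProd]
  have hTp : ∀ p ∈ T, p.Prime := fun p hp =>
    CombinatorialSieve.prime_of_mem_sievingPrimes (hT ▸ hp)
  obtain ⟨x, hx⟩ : ∃ x : ℕ → ℝ, x = fun p => if p ∣ l then 0 else (p : ℝ)⁻¹ := ⟨_, rfl⟩
  have hx01 : ∀ p ∈ T, 0 ≤ x p ∧ x p < 1 := fun p hp => by
    simp only [hx]
    split_ifs
    · exact ⟨le_rfl, zero_lt_one⟩
    · exact ⟨by positivity, inv_lt_one_of_one_lt₀ (Nat.one_lt_cast.2 (hTp p hp).one_lt)⟩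
  have hdim : CombinatorialSieve.DimensionBound T x Z 1 (Real.exp 13) := by
    rw [show (13 : ℝ) = 11 * 1 + 2 by norm_num]
    refine CombinatorialSieve.dimensionBound_of_le zero_le_one zero_le_two
      (fun p hp => ⟨hTp p hp, (CombinatorialSieve.mem_sievingPrimes.1 (hT ▸ hp)).2.1⟩) hx01
      fun p hp => ?_
    have h2 : (2 : ℝ) ≤ p := Nat.ofNat_le_cast.2 (hTp p hp).two_le
    simp only [hx]
    split_ifs
    · rw [zero_div]
      positivity
    · rw [show (p : ℝ)⁻¹ / (1 - (p : ℝ)⁻¹) = 1 / ((p : ℝ) - 1) by field_simp,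
        show (1 : ℝ) / p + 2 / (p : ℝ) ^ 2 = ((p : ℝ) + 2) / (p : ℝ) ^ 2 by field_simp,
        div_le_div_iff₀ (by linarith) (by positivity)]
      nlinarith
  have hdef := CombinatorialSieve.defect_le (β := 10) (par := 1) (K := Real.exp 13)
    (fun p hp => ⟨(hTp p hp).two_le, (CombinatorialSieve.mem_sievingPrimes.1 (hT ▸ hp)).2.1⟩)
    hx01 hZ zero_le_one (by norm_num) (by norm_num) (by norm_num)
    (Real.one_le_exp (by norm_num)) (by exact_mod_cast hs) hdim
  have hdef0 := CombinatorialSieve.defect_nonneg (D := Z ^ s) (β := 10) (par := 1)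
    fun p hp => ⟨(hx01 p hp).1, (hx01 p hp).2.le⟩
  have htr := CombinatorialSieve.truncSum_eq (Z ^ s) 10 1 T x
  rw [pow_one, neg_one_mul, sub_neg_eq_add] at htr
  have hprod : ∏ p ∈ T, (1 - x p) = sifterProduct Z b * twist T invPred l := by
    rw [sifterProduct, ← hT, twist, prod_filter, ← prod_mul_distrib]
    refine prod_congr rfl fun p hp => ?_
    have h2 : (2 : ℝ) ≤ p := Nat.ofNat_le_cast.2 (hTp p hp).two_le
    simp only [hx, invPred]
    split_ifs
    · have h1 : (p : ℝ) - 1 ≠ 0 := by linarith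
      field_simp
      ring
    · rw [mul_one]
  obtain ⟨Wl, hWl⟩ : ∃ Wl, Wl = sifterProduct Z b * twist T invPred l := ⟨_, rfl⟩
  rw [hprod, ← hWl] at hdef htr
  have hW0 : 0 ≤ Wl := hWl ▸ mul_nonneg (sifterProduct_nonneg Z b)
    (twist_nonneg (invPred_nonneg hTp) l)
  have htrunc : truncSum (Z ^ s) 10 1 T x = ∑ k ∈ P.divisors, betaWeight (Z ^ s) 10 1 k *
      if k.Coprime l then (k : ℝ)⁻¹ else 0 := by
    rw [← hPT, ← CombinatorialSieve.sum_betaWeight_mul hsq]
    intro k hk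
    have hksq := hsq.squarefree_of_dvd (Nat.dvd_of_mem_divisors hk)
    simp only [hx]
    split_ifs with hkl
    · conv_lhs => rw [← Nat.prod_primeFactors_of_squarefree hksq]
      rw [Nat.cast_prod, ← prod_inv_distrib]
      refine prod_congr rfl fun p hp => ?_
      rw [if_neg fun hpl => Nat.not_coprime_of_dvd_of_dvd (Nat.prime_of_mem_primeFactors hp).one_lt
        (Nat.dvd_of_mem_primeFactors hp) hpl hkl]
    · obtain ⟨p, hp, hpk, hpl⟩ := Nat.Prime.not_coprime_iff_dvd.1 hkl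
      refine (prod_eq_zero (Nat.mem_primeFactors.2 ⟨hp, hpk, hksq.ne_zero⟩) ?_).symm
      exact if_pos hpl
  have hterm : ∀ k ∈ P.divisors, |(multCount b M k l : ℝ) -
      (M : ℝ) / l * (if k.Coprime l then (k : ℝ)⁻¹ else 0)| ≤ 2 := by
    intro k hk
    have hk0 : 0 < k := Nat.pos_of_mem_divisors hk
    have hkP : k ∣ sievingProd Z b.natAbs := hP ▸ Nat.dvd_of_mem_divisors hk
    split_ifs with hkl
    · have : NeZero k := ⟨hk0.ne'⟩
      obtain ⟨r, hr⟩ : ∃ r : ℕ, ((r : ℕ) : ZMod k) = (b : ZMod k) * (l : ZMod k)⁻¹ :=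
        ⟨_, ZMod.natCast_zmod_val _⟩
      have hset : (Icc 1 (M / l)).filter (fun c : ℕ => (k : ℤ) ∣ b - ((l * c : ℕ) : ℤ)) =
          (Ioc 0 (M / l)).filter fun c => c ≡ r [MOD k] := by
        rw [show Icc 1 (M / l) = Ioc 0 (M / l) from rfl]
        refine filter_congr fun c _ => ?_
        rw [← ZMod.intCast_eq_intCast_iff_dvd_sub, ← ZMod.natCast_eq_natCast_iff, hr,
          Int.cast_natCast, Nat.cast_mul]
        have hinv : (l : ZMod k) * (l : ZMod k)⁻¹ = 1 :=
          ZMod.coe_mul_inv_eq_one l hkl.symm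
        constructor
        · intro h
          rw [← h, mul_right_comm, hinv, one_mul]
        · intro h
          rw [h, mul_comm (l : ZMod k), mul_assoc, mul_comm _ (l : ZMod k), hinv, mul_one]
      rw [multCount, hset]
      have h1 := PrimesMinusOne.abs_card_class_sub_div_le hk0 (M / l) r
      have hl0 : (0 : ℝ) < l := Nat.cast_pos.2 hl
      have hk1 : (1 : ℝ) ≤ k := Nat.one_le_cast.2 hk0
      have hf1 : ((M / l : ℕ) : ℝ) ≤ (M : ℝ) / l := Nat.cast_div_le
      have hf2 : (M : ℝ) / l ≤ ((M / l : ℕ) : ℝ) + 1 := by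
        rw [div_le_iff₀ hl0]
        exact_mod_cast (Nat.lt_mul_of_div_lt (Nat.lt_succ_self (M / l)) hl).le
      rw [div_eq_mul_inv (((M / l : ℕ) : ℝ))] at h1
      have h2 := mul_le_mul_of_nonneg_right hf1 (inv_nonneg.2 (by linarith : (0 : ℝ) ≤ k))
      have h3 := mul_le_mul_of_nonneg_right hf2 (inv_nonneg.2 (by linarith : (0 : ℝ) ≤ k))
      have h4 : (k : ℝ)⁻¹ ≤ 1 := inv_le_one_of_one_le₀ hk1
      rw [abs_le] at h1 ⊢
      constructor <;> linarith [h1.1, h1.2]
    · have h0 : multCount b M k l = 0 := by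
        rw [multCount, card_eq_zero, filter_eq_empty_iff]
        intro c _ hc
        obtain ⟨p, hp, hpk, hpl⟩ := Nat.Prime.not_coprime_iff_dvd.1 hkl
        refine ((CombinatorialSieve.prime_dvd_sievingProd_iff hp).1 (hpk.trans hkP)).2 ?_
        have h1 : (p : ℤ) ∣ b - ((l * c : ℕ) : ℤ) := (Int.natCast_dvd_natCast.2 hpk).trans hc
        exact Int.natCast_dvd.1
          ((dvd_sub_left (Int.natCast_dvd_natCast.2 (hpl.mul_right c))).1 h1)
      rw [h0]
      norm_num
  have hsum : |sieveCount Z s b M l - (M : ℝ) / l * truncSum (Z ^ s) 10 1 T x| ≤ 2 * Z ^ s := by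
    rw [htrunc, sieveCount, ← hP, mul_sum, ← sum_sub_distrib]
    refine (abs_sum_le_sum_abs _ _).trans ((sum_le_sum (g := fun k : ℕ =>
      if (k : ℝ) < Z ^ s then (2 : ℝ) else 0) fun k hk => ?_).trans ?_)
    · rw [mul_left_comm ((M : ℝ) / l), ← mul_sub, abs_mul]
      have h1 := abs_betaWeight_le_ind (by linarith : 1 < Z) hs (hP ▸ hk)
      refine (mul_le_mul h1 (hterm k hk) (abs_nonneg _) (by split_ifs <;> norm_num)).trans ?_
      split_ifs <;> norm_num
    · rw [← sum_filter, sum_const, nsmul_eq_mul, mul_comm]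
      exact mul_le_mul_of_nonneg_left (card_levelSet_le Z s P (by linarith)) zero_le_two
  rw [htr] at hsum
  have hM : 0 ≤ (M : ℝ) / l := by positivity
  have hd1 : (M : ℝ) / l * defect (Z ^ s) 10 1 T x ≤ (M : ℝ) / l * (sieveErr s * Wl) :=
    mul_le_mul_of_nonneg_left hdef hM
  have hd0 := mul_nonneg hM hdef0
  rw [← hT, show (M : ℝ) * sifterProduct Z b * (twist T invPred l / l) = (M : ℝ) / l * Wl by
    rw [hWl]; ring]
  rw [abs_le] at hsum ⊢
  rw [mul_add] at hsum
  constructor <;> linarith [hsum.1, hsum.2]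

/-- The part `g ≤ G`. -/
theorem abs_small_part_le {Z s : ℝ} (hZ : 1 < Z) (hs : 10 ≤ s) (b : ℤ) (M : ℕ) {D₁ D₂ G : ℕ}
    {R : ℝ} (hR0 : 0 ≤ R) (hR : ∀ n ∈ Icc 1 D₂, (n.divisors.card : ℝ) ≤ R) :
    |∑ g ∈ Ioc 0 G, ∑ a ∈ Ioc (D₁ / g) (D₂ / g), ∑ c ∈ Ioc (D₁ / g) (D₂ / g),
        if a.Coprime c then
          chi g * chi g * (chi a * chi c) * sieveCount Z s b M (g * a * c) else 0| ≤
      Z ^ s * (G * (M / ((D₁ : ℝ) + 1) * (2 * R) * logWidth 0 D₂)) := by
  refine (abs_sum_le_sum_abs _ _).trans ((sum_le_card_nsmul _ _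
    (Z ^ s * (M / ((D₁ : ℝ) + 1) * (2 * R) * logWidth 0 D₂)) fun g hg => ?_).trans (le_of_eq ?_))
  swap
  · rw [Nat.card_Ioc, Nat.sub_zero, nsmul_eq_mul]
    ring
  rw [mem_Ioc] at hg
  obtain ⟨u, hu⟩ : ∃ u, u = D₁ / g := ⟨_, rfl⟩
  obtain ⟨v, hv⟩ : ∃ v, v = D₂ / g := ⟨_, rfl⟩
  rw [← hu, ← hv, sum_comm]
  refine (abs_sum_le_sum_abs _ _).trans ((sum_le_sum (g := fun c : ℕ => ((c : ℝ))⁻¹ *
    (Z ^ s * (M / ((D₁ : ℝ) + 1) * (2 * R)))) fun c hc => ?_).trans ?_)
  · rw [mem_Ioc] at hc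
    have hc0 : 0 < c := by omega
    obtain ⟨P, hP⟩ : ∃ P, P = sievingProd Z b.natAbs := ⟨_, rfl⟩
    have e : (∑ a ∈ Ioc u v, if a.Coprime c then
        chi g * chi g * (chi a * chi c) * sieveCount Z s b M (g * a * c) else 0) =
        chi g * chi g * chi c * ∑ k ∈ P.divisors, betaWeight (Z ^ s) 10 1 k *
          ∑ a ∈ Ioc u v,
            (if a.Coprime c then chi a * (multCount b M k (g * a * c) : ℝ) else 0) := by
      simp_rw [mul_sum]
      rw [sum_comm]
      refine sum_congr rfl fun a _ => ?_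
      split_ifs with h
      · rw [sieveCount, ← hP, mul_sum]
        exact sum_congr rfl fun k _ => by ring
      · simp
    rw [e, abs_mul, abs_mul, abs_mul]
    refine (mul_le_of_le_one_left (abs_nonneg _) (mul_le_one₀ (mul_le_one₀ (abs_chi_le g)
      (abs_nonneg _) (abs_chi_le g)) (abs_nonneg _) (abs_chi_le c))).trans ?_
    have hZs : 0 ≤ Z ^ s := Real.rpow_nonneg (by linarith) s
    refine (abs_sum_le_sum_abs _ _).trans ((sum_le_sum (g := fun k : ℕ =>
      if (k : ℝ) < Z ^ s then (c : ℝ)⁻¹ * (M / ((D₁ : ℝ) + 1) * (2 * R)) else 0)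
      fun k hk => ?_).trans ?_)
    · rw [abs_mul]
      refine (mul_le_mul (abs_betaWeight_le_ind hZ hs (hP ▸ hk))
        (abs_small_inner_le ((hP ▸ CombinatorialSieve.squarefree_sievingProd Z b.natAbs :
          Squarefree P).squarefree_of_dvd (Nat.dvd_of_mem_divisors hk)) b M hg.1 hc0 u v)
        (abs_nonneg _) (by split_ifs <;> norm_num)).trans ?_
      split_ifs
      · rw [one_mul, ← mul_assoc (c : ℝ)⁻¹]
        refine mul_le_mul ?_ (mul_le_mul_of_nonneg_left (hR c (mem_Icc.2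
          ⟨hc0, hc.2.trans (hv ▸ Nat.div_le_self D₂ g)⟩)) zero_le_two) (by positivity)
          (by positivity)
        refine Nat.cast_div_le.trans ?_
        rw [inv_mul_eq_div, div_div]
        refine div_le_div_of_nonneg_left (Nat.cast_nonneg _) (by positivity) ?_
        have h1 : D₁ + 1 ≤ g * (u + 1) := by
          rw [hu, mul_comm]
          exact Nat.lt_mul_of_div_lt (Nat.lt_succ_self (D₁ / g)) hg.1
        push_cast
        exact mul_le_mul_of_nonneg_right (by exact_mod_cast h1) (Nat.cast_nonneg c)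
      · rw [zero_mul]
    · rw [← sum_filter, sum_const, nsmul_eq_mul, mul_left_comm]
      exact mul_le_mul_of_nonneg_left (mul_le_mul_of_nonneg_right
        (card_levelSet_le Z s _ (by linarith)) (by positivity)) (by positivity)
  rw [← sum_mul]
  have hZs : 0 ≤ Z ^ s := Real.rpow_nonneg (by linarith) s
  have hD2 : v ≤ D₂ := hv ▸ Nat.div_le_self _ _
  have hsum : ∑ c ∈ Ioc u v, (c : ℝ)⁻¹ ≤ logWidth 0 D₂ := by
    refine (sum_le_sum_of_subset_of_nonneg (t := Ioc (0 / 1) (D₂ / 1))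
      (fun c hc => by simp only [mem_Ioc, Nat.div_one] at hc ⊢; omega)
      fun c _ _ => by positivity).trans (sum_inv_window_le (Nat.zero_le _) one_pos)
  rw [mul_comm (Z ^ s) (_ * logWidth 0 D₂), mul_comm ((M : ℝ) / ((D₁ : ℝ) + 1) * (2 * R)),
    mul_assoc, mul_comm ((M : ℝ) / ((D₁ : ℝ) + 1) * (2 * R))]
  exact mul_le_mul_of_nonneg_right hsum
    (mul_nonneg (Real.rpow_nonneg (by linarith) s) (by positivity))

/-- The part `g > G`. -/
theorem abs_big_part_le {Z s : ℝ} (hZ : 2 ≤ Z) (hs : 10 ≤ s) (b : ℤ) (M : ℕ) {D₁ D₂ G : ℕ}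
    (hD : D₁ ≤ D₂) (hG : 0 < G) :
    |∑ g ∈ Ioc G D₂, ∑ a ∈ Ioc (D₁ / g) (D₂ / g), ∑ c ∈ Ioc (D₁ / g) (D₂ / g),
        if a.Coprime c then
          chi g * chi g * (chi a * chi c) * sieveCount Z s b M (g * a * c) else 0| ≤
      M * sifterProduct Z b * (2 * eulerBound ^ 4 * logWidth D₁ D₂ +
        sieveErr s * (eulerBound * logWidth 0 D₂) ^ 3) + 2 * Z ^ s * ((D₂ : ℝ) ^ 2 / G) := by
  obtain ⟨T, hT⟩ : ∃ T, T = sievingPrimes Z b.natAbs := ⟨_, rfl⟩
  have hTp : ∀ p ∈ T, p.Prime := fun p hp =>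
    CombinatorialSieve.prime_of_mem_sievingPrimes (hT ▸ hp)
  obtain ⟨V, hV⟩ : ∃ V, V = (M : ℝ) * sifterProduct Z b := ⟨_, rfl⟩
  have hV0 : 0 ≤ V := hV ▸ mul_nonneg (Nat.cast_nonneg _) (sifterProduct_nonneg Z b)
  have hZs : 0 ≤ Z ^ s := Real.rpow_nonneg (by linarith) s
  have hE : 0 ≤ sieveErr s := by rw [sieveErr]; positivity
  obtain ⟨I, hI⟩ : ∃ I : ℕ → Finset ℕ, I = fun g => Ioc (D₁ / g) (D₂ / g) := ⟨_, rfl⟩
  have hIe : ∀ g, Ioc (D₁ / g) (D₂ / g) = I g := fun g => by rw [hI]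
  simp only [hIe]
  obtain ⟨w, hw⟩ : ∃ w : ℕ → ℝ, w = fun l => twist T invPred l / l := ⟨_, rfl⟩
  have hw0 : ∀ l, 0 ≤ w l := fun l => hw ▸
    div_nonneg (twist_nonneg (invPred_nonneg hTp) l) (Nat.cast_nonneg l)
  have hsplit : ∑ g ∈ Ioc G D₂, ∑ a ∈ I g, ∑ c ∈ I g, (if a.Coprime c then
        chi g * chi g * (chi a * chi c) * sieveCount Z s b M (g * a * c) else 0) =
      V * mainSum T D₁ D₂ G + ∑ g ∈ Ioc G D₂, ∑ a ∈ I g, ∑ c ∈ I g, (if a.Coprime c then
        chi g * chi g * (chi a * chi c) *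
          (sieveCount Z s b M (g * a * c) - V * w (g * a * c)) else 0) := by
    rw [mainSum, mul_sum, ← sum_add_distrib]
    simp only [hIe, mul_sum, ← sum_add_distrib]
    refine sum_congr rfl fun g _ => sum_congr rfl fun a _ => sum_congr rfl fun c _ => ?_
    split_ifs
    · rw [hw]
      ring
    · ring
  rw [hsplit]
  refine (abs_add_le _ _).trans ?_
  rw [abs_mul, abs_of_nonneg hV0, mul_add, add_assoc]
  refine add_le_add
    (hV ▸ mul_le_mul_of_nonneg_left (abs_mainSum_le hTp hD G) (hV ▸ hV0)) ?_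
  calc |∑ g ∈ Ioc G D₂, ∑ a ∈ I g, ∑ c ∈ I g, (if a.Coprime c then
        chi g * chi g * (chi a * chi c) *
          (sieveCount Z s b M (g * a * c) - V * w (g * a * c)) else 0)|
      ≤ ∑ g ∈ Ioc G D₂, ∑ a ∈ I g, ∑ c ∈ I g,
          (sieveErr s * (V * w (g * a * c)) + 2 * Z ^ s) := by
        refine (abs_sum_le_sum_abs _ _).trans (sum_le_sum fun g hg => ?_)
        refine (abs_sum_le_sum_abs _ _).trans (sum_le_sum fun a ha => ?_)
        refine (abs_sum_le_sum_abs _ _).trans (sum_le_sum fun c hc => ?_)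
        rw [← hIe, mem_Ioc] at ha hc
        rw [mem_Ioc] at hg
        split_ifs
        · rw [abs_mul]
          refine (mul_le_of_le_one_left (abs_nonneg _) ?_).trans ?_
          · rw [abs_mul, abs_mul, abs_mul]
            exact mul_le_one₀ (mul_le_one₀ (abs_chi_le g) (abs_nonneg _) (abs_chi_le g))
              (by positivity) (mul_le_one₀ (abs_chi_le a) (abs_nonneg _) (abs_chi_le c))
          · rw [hV, hw, hT]
            exact abs_sieveCount_sub_le hZ hs b M (Nat.mul_pos (Nat.mul_pos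
              (Nat.zero_lt_of_lt hg.1) (Nat.zero_lt_of_lt ha.1)) (Nat.zero_lt_of_lt hc.1))
        · rw [abs_zero]
          have := hw0 (g * a * c)
          positivity
    _ = sieveErr s * V * ∑ g ∈ Ioc G D₂, ∑ a ∈ I g, ∑ c ∈ I g, w (g * a * c) +
          2 * Z ^ s * ∑ g ∈ Ioc G D₂, (#(I g) : ℝ) * #(I g) := by
        simp only [sum_add_distrib, mul_sum, sum_const, nsmul_eq_mul]
        congr 1
        · exact sum_congr rfl fun g _ => sum_congr rfl fun a _ => sum_congr rfl fun c _ => by ring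
        · exact sum_congr rfl fun g _ => by ring
    _ ≤ _ := by
        rw [← hV]
        refine add_le_add ?_ ?_
        · rw [mul_comm (sieveErr s) V, mul_assoc]
          refine mul_le_mul_of_nonneg_left (mul_le_mul_of_nonneg_left ?_ hE) hV0
          obtain ⟨A, hA⟩ : ∃ A, A = ∑ a ∈ Ioc 0 D₂, twist T invPred a / a := ⟨_, rfl⟩
          have hA1 : A ≤ eulerBound * logWidth 0 D₂ := by
            rw [hA, mul_comm]
            exact (sum_twist_div_le hTp (invPred_nonneg hTp) (Nat.zero_le _)).trans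
              (mul_le_mul_of_nonneg_left (prod_invPred_div_le hTp)
                (by linarith [two_le_logWidth (Nat.zero_le D₂)]))
          have hA0 : 0 ≤ A := hA ▸ sum_nonneg fun a _ =>
            div_nonneg (twist_nonneg (invPred_nonneg hTp) a) (Nat.cast_nonneg a)
          refine le_trans ?_ (pow_le_pow_left₀ hA0 hA1 3)
          have hsub : ∀ g, I g ⊆ Ioc 0 D₂ := fun g => by
            rw [← hIe]
            exact Ioc_subset_Ioc (Nat.zero_le _) (Nat.div_le_self _ _)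
          calc ∑ g ∈ Ioc G D₂, ∑ a ∈ I g, ∑ c ∈ I g, w (g * a * c)
              ≤ ∑ g ∈ Ioc 0 D₂, ∑ a ∈ Ioc 0 D₂, ∑ c ∈ Ioc 0 D₂,
                  (twist T invPred g / g) * (twist T invPred a / a) *
                    (twist T invPred c / c) := by
                refine (sum_le_sum fun g _ => ?_).trans (sum_le_sum_of_subset_of_nonneg
                  (Ioc_subset_Ioc_left (Nat.zero_le G)) fun g _ _ => ?_)
                · refine (sum_le_sum fun a _ => ?_).trans (sum_le_sum_of_subset_of_nonneg (hsub g)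
                    fun a _ _ => sum_nonneg fun c _ => ?_)
                  · refine (sum_le_sum fun c _ => ?_).trans (sum_le_sum_of_subset_of_nonneg (hsub g)
                      fun c _ _ => ?_)
                    · rw [hw, div_mul_div_comm, div_mul_div_comm, ← Nat.cast_mul, ← Nat.cast_mul]
                      refine div_le_div_of_nonneg_right ?_ (Nat.cast_nonneg _)
                      rw [twist_mul hTp, twist_mul hTp]
                      refine mul_le_mul (mul_le_mul_of_nonneg_left ?_ ?_) ?_ ?_ ?_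
                      · exact twist_mono (filter_subset _ _) (invPred_nonneg hTp) a
                      · exact twist_nonneg (invPred_nonneg hTp) g
                      · exact twist_mono (filter_subset _ _) (invPred_nonneg hTp) c
                      · exact twist_nonneg (fun p hp =>
                          invPred_nonneg hTp p (mem_filter.1 hp).1) c
                      · exact mul_nonneg (twist_nonneg (invPred_nonneg hTp) g)
                          (twist_nonneg (invPred_nonneg hTp) a)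
                    · have := twist_nonneg (invPred_nonneg hTp)
                      exact mul_nonneg (mul_nonneg (div_nonneg (this g) (Nat.cast_nonneg _))
                        (div_nonneg (this a) (Nat.cast_nonneg _)))
                        (div_nonneg (this c) (Nat.cast_nonneg _))
                  · have := twist_nonneg (invPred_nonneg hTp)
                    exact mul_nonneg (mul_nonneg (div_nonneg (this g) (Nat.cast_nonneg _))
                      (div_nonneg (this a) (Nat.cast_nonneg _)))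
                      (div_nonneg (this c) (Nat.cast_nonneg _))
                · have := twist_nonneg (invPred_nonneg hTp)
                  exact sum_nonneg fun a _ => sum_nonneg fun c _ =>
                    mul_nonneg (mul_nonneg (div_nonneg (this g) (Nat.cast_nonneg _))
                      (div_nonneg (this a) (Nat.cast_nonneg _)))
                      (div_nonneg (this c) (Nat.cast_nonneg _))
            _ = A ^ 3 := by
                rw [hA, pow_three', sum_mul_sum, sum_mul]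
                exact sum_congr rfl fun g _ => by
                  rw [sum_mul]
                  exact sum_congr rfl fun a _ => (mul_sum _ _ _).symm
        · refine mul_le_mul_of_nonneg_left ?_ (mul_nonneg zero_le_two hZs)
          rcases lt_or_ge D₂ G with hlt | hge
          · rw [Ioc_eq_empty (by omega), sum_empty]
            positivity
          refine (sum_le_sum (g := fun g : ℕ => (D₂ : ℝ) ^ 2 * ((g : ℝ) ^ 2)⁻¹)
            fun g hg => ?_).trans ?_
          · have hI' : (#(I g) : ℝ) ≤ (D₂ : ℝ) / g := by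
              refine le_trans (Nat.cast_le.2 ?_) Nat.cast_div_le
              rw [← hIe, Nat.card_Ioc]
              exact Nat.sub_le _ _
            rw [← div_eq_mul_inv, ← div_pow, sq]
            exact mul_le_mul hI' hI' (Nat.cast_nonneg _) (by positivity)
          · rw [← mul_sum, div_eq_mul_inv]
            refine mul_le_mul_of_nonneg_left ((sum_Ioc_inv_sq_le_sub hG.ne' hge).trans ?_)
              (sq_nonneg _)
            linarith [inv_nonneg.2 (Nat.cast_nonneg (α := ℝ) D₂)]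

/-- **The mean square over the shifted primes.** -/
theorem sum_windowSum_sq_le {Z s : ℝ} (hZ : 2 ≤ Z) (hs : 10 ≤ s) (b : ℤ) {M D₁ D₂ G : ℕ}
    (hD : D₁ ≤ D₂) (hG : 0 < G) (hGD : G ≤ D₂) {R : ℝ}
    (hR : ∀ n ∈ Icc 1 (max M D₂), (n.divisors.card : ℝ) ≤ R) :
    ∑ m ∈ (Icc 1 M).filter (fun m : ℕ => (b - m).natAbs.Prime), windowSum D₁ D₂ m ^ 2 ≤
      (2 * Z + 3) * R ^ 2 + M * sifterProduct Z b * (2 * eulerBound ^ 4 * logWidth D₁ D₂ +
        sieveErr s * (eulerBound * logWidth 0 D₂) ^ 3) +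
      Z ^ s * (G * (M / ((D₁ : ℝ) + 1) * (2 * R) * logWidth 0 D₂) + 2 * ((D₂ : ℝ) ^ 2 / G)) := by
  have hpw : ∀ m, 0 ≤ upperWeight Z s b m ∧ ((b - m).natAbs.Prime →
      ¬ (((b - m).natAbs : ℕ) : ℝ) < Z → 1 ≤ upperWeight Z s b m) := by
    intro m
    have hsq := CombinatorialSieve.squarefree_sievingProd Z b.natAbs
    have h := CombinatorialSieve.le_sum_betaWeight_upper hsq (Z ^ s) 10 (b - m).natAbs
    have e : upperWeight Z s b m = ∑ k ∈ (sievingProd Z b.natAbs).divisors,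
        betaWeight (Z ^ s) 10 1 k * if k ∣ (b - m).natAbs then (1 : ℝ) else 0 := by
      rw [upperWeight]
      exact sum_congr rfl fun k _ => by simp only [Int.natCast_dvd]
    rw [← e] at h
    refine ⟨(by split_ifs <;> norm_num : (0 : ℝ) ≤ _).trans h, fun hp hlt => ?_⟩
    rw [if_pos ?_] at h
    · exact h
    rw [Nat.coprime_comm, hp.coprime_iff_not_dvd]
    exact fun hd => hlt ((CombinatorialSieve.prime_dvd_sievingProd_iff hp).1 hd).1
  have hM0 : ∀ m ∈ Icc 1 M, windowSum D₁ D₂ m ^ 2 ≤ R ^ 2 := by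
    intro m hm
    rw [mem_Icc] at hm
    rw [← sq_abs]
    refine pow_le_pow_left₀ (abs_nonneg _) ((abs_sum_le_sum_abs _ _).trans ?_) 2
    refine (sum_le_card_nsmul _ _ (1 : ℝ) fun d _ => abs_chi_le d).trans ?_
    rw [nsmul_one]
    refine le_trans (Nat.cast_le.2 (card_le_card fun d hd => ?_))
      (hR m (mem_Icc.2 ⟨hm.1, hm.2.trans (le_max_left _ _)⟩))
    exact Nat.mem_divisors.2 ⟨(mem_filter.1 hd).2, by omega⟩
  calc ∑ m ∈ (Icc 1 M).filter (fun m : ℕ => (b - m).natAbs.Prime), windowSum D₁ D₂ m ^ 2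
      ≤ ∑ m ∈ Icc 1 M, ((if (((b - m).natAbs : ℕ) : ℝ) < Z then R ^ 2 else 0) +
          upperWeight Z s b m * windowSum D₁ D₂ m ^ 2) := by
        rw [sum_filter]
        refine sum_le_sum fun m hm => ?_
        have h0 : 0 ≤ upperWeight Z s b m * windowSum D₁ D₂ m ^ 2 :=
          mul_nonneg (hpw m).1 (sq_nonneg _)
        split_ifs with hp hlt hlt
        · linarith [hM0 m hm]
        · rw [zero_add]
          exact le_mul_of_one_le_left (sq_nonneg _) ((hpw m).2 hp hlt)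
        · exact add_nonneg (sq_nonneg R) h0
        · rwa [zero_add]
    _ ≤ _ := by
        rw [sum_add_distrib, ← sum_filter, sum_const, nsmul_eq_mul, add_assoc]
        refine add_le_add (mul_le_mul_of_nonneg_right ?_ (sq_nonneg _)) ?_
        · refine (Nat.cast_le.2 (card_le_card_of_injOn (fun m : ℕ => b - (m : ℤ))
            (t := Icc (-((⌈Z⌉₊ : ℕ) : ℤ)) (⌈Z⌉₊ : ℕ)) (fun m hm => ?_) ?_)).trans ?_
          · simp only [coe_filter, Set.mem_ofPred_eq] at hm
            have h1 : ((b - m).natAbs : ℕ) < ⌈Z⌉₊ := Nat.lt_ceil.2 hm.2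
            simp only [coe_Icc, Set.mem_Icc]
            omega
          · intro x _ y _ h
            simpa using h
          · rw [Int.card_Icc, show ((⌈Z⌉₊ : ℕ) : ℤ) + 1 - -((⌈Z⌉₊ : ℕ) : ℤ) =
              ((2 * ⌈Z⌉₊ + 1 : ℕ) : ℤ) by push_cast; ring, Int.toNat_natCast]
            push_cast
            linarith [Nat.ceil_lt_add_one (show (0 : ℝ) ≤ Z by linarith)]
        · rw [sum_upperWeight_sq, ← sum_Ioc_consecutive _ (Nat.zero_le G) hGD]
          refine (le_abs_self _).trans ((abs_add_le _ _).trans ((add_le_add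
            (abs_small_part_le (by linarith) hs b M
              ((Nat.cast_nonneg _).trans (hR 1 (mem_Icc.2 ⟨le_rfl, by omega⟩)))
              fun n hn => hR n (mem_Icc.2
              ⟨(mem_Icc.1 hn).1, (mem_Icc.1 hn).2.trans (le_max_right _ _)⟩))
            (abs_big_part_le hZ hs b M hD hG)).trans (le_of_eq ?_)))
          ring

end FA.PrimeTwoSquares
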