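import Fermat.Agent.PrimeTwoSquares.Growth

/-!
# The shifted primes with a divisor in the window

At most `N / (log N) ^ (1 + 1/400)` of the `m ≤ N` with `|b - m|` prime have a divisor between
`√N / (log N) ^ B` and `√N (log N) ^ B`.
-/

set_option autoImplicit false

noncomputable section

namespace FA.PrimeTwoSquares

open Finset Filter
open ErdosKac (primesUpTo mem_primesUpTo)

theorem smallPrimes_prime {N : ℕ} : ∀ p ∈ smallPrimes N, p.Prime :=
  fun _ hp => (mem_primesUpTo.1 hp).1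

theorem smallPrimes_le {N : ℕ} : ∀ p ∈ smallPrimes N,
    (p : ℝ) ≤ Real.exp (Real.log N / (1000 * Real.log (Real.log N))) := fun _ hp =>
  (Nat.cast_le.2 (mem_primesUpTo.1 hp).2).trans (Nat.floor_le (Real.exp_pos _).le)

/-- The size facts used for the large `N`. -/
theorem eventually_window_facts (B : ℕ) : ∀ᶠ N : ℕ in atTop,
    2 ≤ N ∧ 1 ≤ Real.log N ∧ 60 ≤ Real.log (Real.log N) ∧
      54 ≤ Real.log (0.07 * Real.log (Real.log N)) ∧
      200 * (B + 20 : ℝ) * Real.log (Real.log N) ≤ Real.log N := by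
  filter_upwards [eventually_ge_atTop 2, eventually_ge_log 1, eventually_ge_loglog 60,
    eventually_ge_loglog (Real.exp 54 / 0.07),
    eventually_loglog_le (200 * (B + 20 : ℝ))] with N h1 h2 h3 h4 h5
  refine ⟨h1, h2, h3, ?_, h5⟩
  rw [Real.le_log_iff_exp_le (by positivity)]
  rw [div_le_iff₀ (by norm_num)] at h4
  linarith

/-- The many case. -/
theorem eventually_many_le (B : ℕ) : ∀ᶠ N : ℕ in atTop, ∀ b : ℤ, b.natAbs ≤ N →
    (#((primeShifts b N).filter fun m =>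
        9 / 8 * Real.log (Real.log N) ≤ (omegaIn (smallPrimes N) m : ℝ)) : ℝ) ≤
      384 * N / Real.log N * Real.exp (-(1 / 272) * Real.log (Real.log N)) := by
  filter_upwards [eventually_window_facts B, eventually_smallPrimes] with N hN hs b hb
  obtain ⟨hN2, hL1, hl, -, -⟩ := hN
  obtain ⟨L, hL⟩ : ∃ L, L = Real.log N := ⟨_, rfl⟩
  obtain ⟨l, hl'⟩ : ∃ l, l = Real.log L := ⟨_, rfl⟩
  rw [← hL, ← hl'] at hl hs ⊢
  rw [← hL] at hL1
  obtain ⟨r, hr⟩ : ∃ r : ℕ, r = ⌊17 / 16 * l⌋₊ := ⟨_, rfl⟩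
  obtain ⟨k, hk⟩ : ∃ k : ℕ, k = ⌊l / 16⌋₊ := ⟨_, rfl⟩
  have hrl : (r : ℝ) ≤ 17 / 16 * l := hr ▸ Nat.floor_le (by linarith)
  have hkl : (k : ℝ) ≤ l / 16 := hk ▸ Nat.floor_le (by linarith)
  have hrl' : 17 / 16 * l < (r : ℝ) + 1 := hr ▸ Nat.lt_floor_add_one _
  have hkl' : l / 16 < (k : ℝ) + 1 := hk ▸ Nat.lt_floor_add_one _
  have hsize : ∀ U ∈ (smallPrimes N).powersetCard k,
      ((∏ p ∈ U, p : ℕ) : ℝ) ≤ Real.sqrt N := by
    intro U hU
    rw [mem_powersetCard] at hU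
    rw [Nat.cast_prod]
    refine (prod_le_prod (g := fun _ : ℕ => Real.exp (L / (1000 * l)))
      (fun p _ => Nat.cast_nonneg p) fun p hp => ?_).trans ?_
    · have h := smallPrimes_le p (hU.1 hp)
      rwa [← hL, ← hl'] at h
    · rw [prod_const, hU.2, ← Real.exp_nat_mul,
        Real.sqrt_eq_rpow, Real.rpow_def_of_pos (Nat.cast_pos.2 (by omega)), ← hL,
        Real.exp_le_exp]
      refine (mul_le_mul_of_nonneg_right hkl (by positivity)).trans (le_of_eq_of_le ?_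
        (show L / 16000 ≤ L * (1 / 2) by linarith))
      field_simp
      ring
  have h := card_many_le hb hN2 smallPrimes_prime r k hsize
  have hsub : (#((primeShifts b N).filter fun m =>
      9 / 8 * l ≤ (omegaIn (smallPrimes N) m : ℝ)) : ℝ) ≤
      #((primeShifts b N).filter fun m => r + k ≤ omegaIn (smallPrimes N) m) := by
    refine Nat.cast_le.2 (card_le_card fun m hm => ?_)
    rw [mem_filter] at hm ⊢
    refine ⟨hm.1, ?_⟩
    have h2 : ((r + k : ℕ) : ℝ) ≤ (omegaIn (smallPrimes N) m : ℝ) := by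
      push_cast
      linarith [hm.2]
    exact Nat.cast_le.1 h2
  refine hsub.trans ?_
  have hs0 : 0 ≤ ∑ p ∈ smallPrimes N, ((p : ℝ) - 1)⁻¹ := sum_nonneg fun p hp =>
    inv_nonneg.2 (sub_nonneg.2 (Nat.one_le_cast.2 (smallPrimes_prime p hp).one_le))
  rw [← hL, ← le_div_iff₀ (by positivity), mul_div_assoc, ← div_pow] at h
  refine h.trans ?_
  rw [show (384 : ℝ) * N / L * Real.exp (-(1 / 272) * l) =
    192 * N / L * (2 * Real.exp (-(1 / 272) * l)) by ring]
  refine mul_le_mul_of_nonneg_left ?_ (by positivity)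
  have hq : (∑ p ∈ smallPrimes N, ((p : ℝ) - 1)⁻¹) / ((r : ℝ) + 1) ≤ 16 / 17 := by
    rw [div_le_div_iff₀ (by positivity) (by norm_num)]
    linarith [hs.2]
  refine (pow_le_pow_left₀ (by positivity) hq k).trans ?_
  rw [← Real.exp_log (show (0 : ℝ) < 16 / 17 by norm_num), ← Real.exp_nat_mul,
    ← Real.exp_log (show (0 : ℝ) < 2 by norm_num), ← Real.exp_add, Real.exp_le_exp]
  have h1 : Real.log (16 / 17) ≤ -(1 / 17) := by
    linarith [Real.log_le_sub_one_of_pos (show (0 : ℝ) < 16 / 17 by norm_num)]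
  nlinarith [Real.log_two_gt_d9, mul_le_mul_of_nonneg_left h1 (Nat.cast_nonneg (α := ℝ) k)]

/-- The counts of the few case. -/
theorem eventually_few_le : ∀ᶠ N : ℕ in atTop, ∀ y : ℕ, Real.exp (Real.log N / 4) ≤ (y : ℝ) →
    (#((Icc 1 y).filter fun d =>
        (omegaIn (smallPrimes N) d : ℝ) ≤ 0.6 * Real.log (Real.log N)) : ℝ) ≤
      5 * Real.exp (-0.03 * Real.log (Real.log N)) * y := by
  filter_upwards [eventually_window_facts 0, eventually_smallPrimes,
    eventually_loglog_le 200] with N hN hs hlL y hy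
  obtain ⟨hN2, hL1, hl, -, -⟩ := hN
  obtain ⟨L, hL⟩ : ∃ L, L = Real.log N := ⟨_, rfl⟩
  obtain ⟨l, hl'⟩ : ∃ l, l = Real.log L := ⟨_, rfl⟩
  rw [← hL, ← hl'] at hl hs hlL ⊢
  rw [← hL] at hy hL1
  obtain ⟨K, hK⟩ : ∃ K : ℕ, K = ⌈3 * l⌉₊ := ⟨_, rfl⟩
  have hKlo : 3 * l ≤ (K : ℝ) := hK ▸ Nat.le_ceil _
  have hKhi : (K : ℝ) ≤ 3 * l + 1 := hK ▸ (Nat.ceil_lt_add_one (by linarith)).le
  have hy0 : (0 : ℝ) < y := (Real.exp_pos _).trans_le hy
  have hs1 : ∑ p ∈ smallPrimes N, (p : ℝ)⁻¹ ≤ l := by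
    refine le_trans (sum_le_sum fun p hp => ?_) hs.2
    have h2 : (2 : ℝ) ≤ p := Nat.ofNat_le_cast.2 (smallPrimes_prime p hp).two_le
    exact inv_anti₀ (by linarith) (by linarith)
  refine (card_few_le smallPrimes_prime (K := K) (Nat.cast_pos.1 hy0) (by linarith)).trans ?_
  rw [show 5 * Real.exp (-0.03 * l) * (y : ℝ) =
    y * (Real.exp (-0.03 * l) + (3 * Real.exp (-0.03 * l) + Real.exp (-0.03 * l))) by ring,
    mul_comm ((2 : ℝ) ^ (0.6 * l)) (y : ℝ), mul_assoc]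
  refine mul_le_mul_of_nonneg_left ?_ hy0.le
  rw [mul_add, mul_add, Real.rpow_def_of_pos two_pos]
  have h2lo := Real.log_two_gt_d9
  have h2hi := Real.log_two_lt_d9
  refine add_le_add ?_ (add_le_add ?_ ?_)
  · rw [← Real.exp_add, Real.exp_le_exp]
    nlinarith [hs.1]
  · rw [mul_left_comm, one_div, inv_pow, ← Real.rpow_natCast 2 K, Real.rpow_def_of_pos two_pos,
      ← Real.exp_neg, ← Real.exp_add]
    refine mul_le_mul_of_nonneg_left (Real.exp_le_exp.2 ?_) (by norm_num)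
    nlinarith
  · obtain ⟨t, ht⟩ : ∃ t, t = L / (1000 * l) := ⟨_, rfl⟩
    have ht0 : 0 ≤ t := ht ▸ by positivity
    have hcard : 2 * ((#(smallPrimes N) : ℝ) + 1) ≤ Real.exp (2 + t) := by
      have h : (#(smallPrimes N) : ℝ) ≤ Real.exp t := by
        refine le_trans (Nat.cast_le.2 ((card_filter_le _ _).trans (Nat.card_Icc 1 _).le)) ?_
        rw [Nat.add_sub_cancel, ht, hl', hL]
        exact Nat.floor_le (Real.exp_pos _).le
      rw [Real.exp_add]
      have h4 : 4 ≤ Real.exp 2 := by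
        rw [show (2 : ℝ) = 1 + 1 by norm_num, Real.exp_add]
        nlinarith [Real.exp_one_gt_d9]
      nlinarith [Real.one_le_exp ht0, Real.exp_pos t]
    have hK1 : ((K : ℝ) + 1) ≤ Real.exp (K : ℝ) := Real.add_one_le_exp _
    refine (mul_le_mul_of_nonneg_left (div_le_div₀ (by positivity)
      (mul_le_mul hK1 (pow_le_pow_left₀ (by positivity) hcard K) (by positivity)
        (Real.exp_pos _).le) (Real.exp_pos _) hy) (Real.exp_pos _).le).trans ?_
    rw [← Real.exp_nat_mul, ← Real.exp_add, ← Real.exp_sub, ← Real.exp_add, Real.exp_le_exp]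
    have hKt : (K : ℝ) * t ≤ L / 250 := by
      refine (mul_le_mul_of_nonneg_right (show (K : ℝ) ≤ 4 * l by linarith) ht0).trans (le_of_eq ?_)
      rw [ht]
      field_simp
      ring
    nlinarith

/-- The numbers of the wide window with few small prime factors. -/
def fewWindow (B N : ℕ) : Finset ℕ :=
  (Ioc (cutLow (B + 5) N) (cutHigh (B + 5) N)).filter
    fun d => (omegaIn (smallPrimes N) d : ℝ) ≤ 0.6 * Real.log (Real.log N)

theorem mem_fewWindow {B N d : ℕ} : d ∈ fewWindow B N ↔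
    (cutLow (B + 5) N < d ∧ d ≤ cutHigh (B + 5) N) ∧
      (omegaIn (smallPrimes N) d : ℝ) ≤ 0.6 * Real.log (Real.log N) := by
  rw [fewWindow, mem_filter, mem_Ioc]

/-- The few case over the wide window. -/
theorem eventually_few_window_le (B : ℕ) : ∃ C : ℝ, 0 < C ∧ ∀ᶠ N : ℕ in atTop,
    ∀ b : ℤ, b.natAbs ≤ N →
      (#((primeShifts b N).filter fun m => ∃ d ∈ fewWindow B N, d ∣ m) : ℝ) ≤
        C * N / Real.log N * (Real.log (Real.log N) *
          Real.exp (-0.015 * Real.log (Real.log N))) := by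
  obtain ⟨cJ, hcJ⟩ : ∃ cJ : ℝ, cJ = 4 * B + 45 := ⟨_, rfl⟩
  refine ⟨288 * (Real.sqrt (10 * cJ) * Real.sqrt (eulerBound ^ 2 * (2 * B + 13))), ?_, ?_⟩
  · have := eulerBound_pos
    rw [hcJ]
    positivity
  filter_upwards [eventually_window_facts B, eventually_few_le] with N hN hfew b hb
  obtain ⟨hN2, hL1, hl, -, hlL⟩ := hN
  obtain ⟨L, hL⟩ : ∃ L, L = Real.log N := ⟨_, rfl⟩
  obtain ⟨l, hl'⟩ : ∃ l, l = Real.log L := ⟨_, rfl⟩
  rw [← hL, ← hl'] at hl hlL hfew ⊢
  rw [← hL] at hL1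
  obtain ⟨u, hu⟩ : ∃ u, u = cutLow (B + 5) N := ⟨_, rfl⟩
  obtain ⟨v, hv⟩ : ∃ v, v = cutHigh (B + 5) N := ⟨_, rfl⟩
  have hN0 : (0 : ℝ) < N := Nat.cast_pos.2 (by omega)
  have hL0 : 0 < L := by linarith
  have hsqrt : Real.sqrt N = Real.exp (L / 2) := by
    rw [Real.sqrt_eq_rpow, Real.rpow_def_of_pos hN0, ← hL]
    ring_nf
  have hpow : L ^ (B + 5) = Real.exp ((B + 5 : ℕ) * l) := by
    rw [Real.exp_nat_mul, hl', Real.exp_log hL0]
  obtain ⟨β, hβ⟩ : ∃ β : ℝ, β = ((B + 5 : ℕ) : ℝ) * l := ⟨_, rfl⟩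
  have hβe : β = ((B : ℝ) + 5) * l := by rw [hβ]; push_cast; ring
  have hβL : β + 2 ≤ L / 8 := by rw [hβe]; nlinarith [Nat.cast_nonneg (α := ℝ) B]
  have hul : (u : ℝ) ≤ Real.exp (L / 2 - β) := by
    refine le_trans ?_ (le_of_eq (show Real.sqrt N / Real.log N ^ (B + 5) = _ by
      rw [hsqrt, ← hL, hpow, hβ, Real.exp_sub]))
    exact hu ▸ Nat.floor_le (by positivity)
  have hug : Real.exp (L / 2 - β) < (u : ℝ) + 1 := by
    refine lt_of_eq_of_lt (show _ = Real.sqrt N / Real.log N ^ (B + 5) by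
      rw [hsqrt, ← hL, hpow, hβ, Real.exp_sub]) ?_
    exact hu ▸ Nat.lt_floor_add_one _
  have hvl : (v : ℝ) ≤ Real.exp (L / 2 + β) := by
    refine le_trans ?_ (le_of_eq (show Real.sqrt N * Real.log N ^ (B + 5) = _ by
      rw [hsqrt, ← hL, hpow, hβ, Real.exp_add]))
    exact hv ▸ Nat.floor_le (by positivity)
  have hbig : 2 * Real.exp (L / 4) + 2 ≤ Real.exp (L / 2 - β) := by
    have h1 : Real.exp (L / 4) * 4 ≤ Real.exp (L / 2 - β) := by
      have h4 : 4 ≤ Real.exp 2 := by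
        rw [show (2 : ℝ) = 1 + 1 by norm_num, Real.exp_add]
        nlinarith [Real.exp_one_gt_d9]
      refine (mul_le_mul_of_nonneg_left h4 (Real.exp_pos _).le).trans ?_
      rw [← Real.exp_add, Real.exp_le_exp]
      linarith
    linarith [Real.one_le_exp (show 0 ≤ L / 4 by linarith)]
  have hu0 : 0 < u := Nat.cast_pos.1 (show (0 : ℝ) < u by
    linarith [Real.exp_pos (L / 4)])
  have huv : u ≤ v := by
    rw [hu, hv]
    refine Nat.floor_mono ?_
    rw [hsqrt, ← hL, hpow, ← hβ, ← Real.exp_sub, ← Real.exp_add, Real.exp_le_exp]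
    rw [hβe]
    nlinarith [Nat.cast_nonneg (α := ℝ) B]
  obtain ⟨J, hJ⟩ : ∃ J : ℕ, J = ⌈(4 * (B : ℝ) + 44) * l⌉₊ := ⟨_, rfl⟩
  have hJlo : (4 * (B : ℝ) + 44) * l ≤ J := hJ ▸ Nat.le_ceil _
  have hJhi : (J : ℝ) ≤ cJ * l := by
    have h := hJ ▸ (Nat.ceil_lt_add_one (show 0 ≤ (4 * (B : ℝ) + 44) * l by positivity)).le
    rw [hcJ]
    nlinarith
  have hvJ : v ≤ 2 ^ J * u := by
    have h : (v : ℝ) ≤ ((2 ^ J * u : ℕ) : ℝ) := by
      push_cast
      refine hvl.trans ?_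
      have h1 : Real.exp (L / 2 - β) ≤ 2 * (u : ℝ) := by
        have : (1 : ℝ) ≤ u := Nat.one_le_cast.2 hu0
        linarith
      have h2 : Real.exp (2 * β + 1) ≤ (2 : ℝ) ^ J := by
        rw [← Real.rpow_natCast, Real.rpow_def_of_pos two_pos, Real.exp_le_exp, hβe]
        nlinarith [Real.log_two_gt_d9, Nat.cast_nonneg (α := ℝ) B]
      have h3 := mul_le_mul h2 h1 (Real.exp_pos _).le (by positivity)
      rw [← Real.exp_add, show 2 * β + 1 + (L / 2 - β) = (L / 2 + β) + 1 by ring,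
        Real.exp_add] at h3
      nlinarith [Real.exp_one_gt_d9, Real.exp_pos (L / 2 + β)]
    exact Nat.cast_le.1 h
  obtain ⟨F, hF⟩ : ∃ F, F = (Ioc u v).filter
      fun d => (omegaIn (smallPrimes N) d : ℝ) ≤ 0.6 * l := ⟨_, rfl⟩
  have hFd : ∀ d ∈ F, 0 < d ∧ u < d ∧ d ≤ v := fun d hd => by
    rw [hF, mem_filter, mem_Ioc] at hd
    exact ⟨by omega, hd.1⟩
  have hinv : ∑ d ∈ F, (d : ℝ)⁻¹ ≤ 10 * cJ * (l * Real.exp (-0.03 * l)) := by
    refine le_trans (sum_le_sum_of_subset_of_nonneg (t := (Ioc u (2 ^ J * u)).filter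
      fun d => (omegaIn (smallPrimes N) d : ℝ) ≤ 0.6 * l)
      (hF ▸ filter_subset_filter _ (Ioc_subset_Ioc_right hvJ)) fun _ _ _ => by positivity)
      ((sum_inv_dyadic_le _ hu0 J fun i _ => hfew _ ?_).trans ?_)
    · push_cast
      have h1 : (1 : ℝ) ≤ 2 ^ (i + 1) := one_le_pow₀ one_le_two
      have h2 : (u : ℝ) ≤ 2 ^ (i + 1) * u := le_mul_of_one_le_left (Nat.cast_nonneg u) h1
      linarith [Real.exp_pos (L / 4)]
    · refine (mul_le_mul_of_nonneg_left hJhi (by positivity)).trans (le_of_eq ?_)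
      ring
  have hsq : ∑ d ∈ F, ((d : ℝ) / (d.totient : ℕ)) ^ 2 / d ≤
      eulerBound ^ 2 * ((2 * B + 13) * l) := by
    refine (sum_le_sum_of_subset_of_nonneg (hF ▸ filter_subset _ _)
      fun d _ _ => by positivity).trans ((sum_totient_sq_le huv).trans ?_)
    rw [mul_comm]
    refine mul_le_mul_of_nonneg_left ?_ (sq_nonneg _)
    have h1 : ((v : ℝ) + 1) / ((u : ℝ) + 1) ≤ Real.exp (2 * β + 1) := by
      rw [div_le_iff₀ (by positivity)]
      have h3 := mul_le_mul_of_nonneg_left hug.le (Real.exp_pos (2 * β + 1)).le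
      rw [← Real.exp_add, show 2 * β + 1 + (L / 2 - β) = (L / 2 + β) + 1 by ring,
        Real.exp_add] at h3
      have h4 : 1 ≤ Real.exp (L / 2 + β) :=
        Real.one_le_exp (by rw [hβe]; positivity)
      nlinarith [Real.exp_one_gt_d9]
    have h2 := Real.log_le_log (by positivity) h1
    rw [Real.log_exp, hβe] at h2
    rw [logWidth]
    linarith
  have hphi : ∑ d ∈ F, ((d.totient : ℕ) : ℝ)⁻¹ ≤
      Real.sqrt (10 * cJ) * Real.sqrt (eulerBound ^ 2 * (2 * B + 13)) *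
        (l * Real.exp (-0.015 * l)) := by
    refine (sum_inv_totient_le_sqrt F fun d hd => (hFd d hd).1).trans ?_
    refine (mul_le_mul (Real.sqrt_le_sqrt hinv) (Real.sqrt_le_sqrt hsq) (Real.sqrt_nonneg _)
      (Real.sqrt_nonneg _)).trans (le_of_eq ?_)
    rw [Real.sqrt_mul (by rw [hcJ]; positivity), ← mul_assoc (eulerBound ^ 2),
      Real.sqrt_mul (by positivity : 0 ≤ eulerBound ^ 2 * (2 * (B : ℝ) + 13)),
      Real.sqrt_mul (by linarith : 0 ≤ l)]
    have h1 : Real.sqrt (Real.exp (-0.03 * l)) = Real.exp (-0.015 * l) := by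
      rw [show (-0.03 : ℝ) * l = -0.015 * l + -0.015 * l by ring, Real.exp_add,
        Real.sqrt_mul_self (Real.exp_pos _).le]
    rw [h1]
    linear_combination (Real.sqrt (10 * cJ) * Real.sqrt (eulerBound ^ 2 * (2 * B + 13)) *
      Real.exp (-0.015 * l)) * Real.mul_self_sqrt (show 0 ≤ l by linarith)
  refine le_trans (b := ∑ d ∈ F, (#((primeShifts b N).filter (d ∣ ·)) : ℝ)) ?_
    ((sum_le_sum (g := fun d : ℕ => 288 * N / L * ((d.totient : ℕ) : ℝ)⁻¹) fun d hd => ?_).trans ?_)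
  · rw [← Nat.cast_sum]
    refine Nat.cast_le.2 ((card_le_card fun m hm => ?_).trans card_biUnion_le)
    rw [mem_filter] at hm
    obtain ⟨hm1, d, hd, hdm⟩ := hm
    rw [mem_fewWindow, ← hu, ← hv, ← hL, ← hl'] at hd
    exact mem_biUnion.2 ⟨d, hF ▸ mem_filter.2 ⟨mem_Ioc.2 hd.1, hd.2⟩, mem_filter.2 ⟨hm1, hdm⟩⟩
  · obtain ⟨hd0, -, hdv⟩ := hFd d hd
    have hd' : (d : ℝ) ≤ Real.exp (L / 2 + β) := (Nat.cast_le.2 hdv).trans hvl
    have hNe : (N : ℝ) = Real.exp L := by rw [hL, Real.exp_log hN0]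
    have hlow : Real.exp (L / 3) ≤ (N : ℝ) / d := by
      rw [le_div_iff₀ (Nat.cast_pos.2 hd0)]
      refine (mul_le_mul_of_nonneg_left hd' (Real.exp_pos _).le).trans ?_
      rw [hNe, ← Real.exp_add, Real.exp_le_exp]
      linarith
    have hdN : d < N := by
      have h1 : (1 : ℝ) < (N : ℝ) / d :=
        (Real.one_lt_exp_iff.2 (by linarith)).trans_le hlow
      rw [one_lt_div (Nat.cast_pos.2 hd0)] at h1
      exact Nat.cast_lt.1 h1
    refine (card_primeShifts_dvd_le hb hd0 hdN).trans ?_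
    have hφ : (0 : ℝ) < (d.totient : ℕ) := Nat.cast_pos.2 (Nat.totient_pos.2 hd0)
    have hlog : L / 3 ≤ Real.log ((N : ℝ) / d) := by
      rw [← Real.log_exp (L / 3)]
      exact Real.log_le_log (Real.exp_pos _) hlow
    rw [← div_eq_mul_inv, div_div, div_le_div_iff₀ (mul_pos hφ (by linarith))
      (mul_pos hL0 hφ)]
    nlinarith [mul_le_mul_of_nonneg_left hlog (mul_nonneg hN0.le hφ.le)]
  · rw [← mul_sum]
    refine (mul_le_mul_of_nonneg_left hphi (by positivity)).trans (le_of_eq ?_)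
    ring

/-- **The exceptional set.** -/
theorem eventually_window_le (B : ℕ) : ∀ᶠ N : ℕ in atTop, ∀ b : ℤ, b.natAbs ≤ N →
    (#((primeShifts b N).filter fun m => ∃ d ∈ Ioc (cutLow B N) (cutHigh B N), d ∣ m) : ℝ) ≤
      N / Real.log N * Real.exp (-(1 / 400) * Real.log (Real.log N)) := by
  classical
  obtain ⟨C, hC, hfw⟩ := eventually_few_window_le B
  filter_upwards [eventually_window_facts B, eventually_many_le B, hfw,
    eventually_loglog_pow_le (384 + 2 * C + 4) (show (0 : ℝ) < 1 / 272 - 1 / 400 by norm_num) 1]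
    with N hN hmany hfw hexp b hb
  obtain ⟨hN2, hL1, hl, hll, hlL⟩ := hN
  have hm := hmany b hb
  have hf := hfw b hb
  clear hmany hfw
  obtain ⟨L, hL⟩ : ∃ L, L = Real.log N := ⟨_, rfl⟩
  obtain ⟨l, hl'⟩ : ∃ l, l = Real.log L := ⟨_, rfl⟩
  rw [← hL, ← hl'] at hl hll hlL hm hf hexp ⊢
  rw [← hL] at hL1
  rw [pow_one] at hexp
  obtain ⟨P, hP⟩ : ∃ P, P = smallPrimes N := ⟨_, rfl⟩
  rw [← hP] at hm
  obtain ⟨k, hk⟩ : ∃ k : ℕ, k = ⌊0.075 * l⌋₊ := ⟨_, rfl⟩
  have hkl : (k : ℝ) ≤ 0.075 * l := hk ▸ Nat.floor_le (by linarith)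
  have hkl' : 0.075 * l < (k : ℝ) + 1 := hk ▸ Nat.lt_floor_add_one _
  have hN0 : (0 : ℝ) < N := Nat.cast_pos.2 (by omega)
  have hL0 : 0 < L := by linarith
  have hfac : Real.exp (3 * l) ≤ (k.factorial : ℝ) := by
    have hlk : 54 ≤ Real.log k := by
      rcases le_or_gt (0.07 * l) k with h | h
      · exact hll.trans (Real.log_le_log (by linarith) h)
      · exfalso
        have : l ≤ 200 := by linarith
        have h54 := Real.exp_le_exp.2 hll
        rw [Real.exp_log (by linarith)] at h54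
        linarith [Real.add_one_le_exp (54 : ℝ)]
    have hk0 : (0 : ℝ) < k := by
      by_contra hk
      rw [not_lt] at hk
      have : (k : ℝ) = 0 := le_antisymm hk (Nat.cast_nonneg k)
      rw [this, Real.log_zero] at hlk
      linarith
    have h := Real.pow_div_factorial_le_exp (k : ℝ) (Nat.cast_nonneg k) k
    rw [div_le_iff₀ (Nat.cast_pos.2 k.factorial_pos), ← Real.rpow_natCast,
      Real.rpow_def_of_pos hk0, mul_comm (Real.exp _), ← div_le_iff₀ (Real.exp_pos _),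
      ← Real.exp_sub] at h
    refine le_trans (Real.exp_le_exp.2 ?_) h
    have h53 := mul_le_mul_of_nonneg_right hlk hk0.le
    linarith
  have h16 : (4 : ℝ) ≤ Real.exp (3 * l) := by linarith [Real.add_one_le_exp (3 * l)]
  have hk2 : 2 ≤ k.factorial := by
    have h : ((2 : ℕ) : ℝ) ≤ (k.factorial : ℝ) := by rw [Nat.cast_ofNat]; linarith
    exact Nat.cast_le.1 h
  have hsq := card_square_dvd_le N (M₀ := k.factorial - 1) (by omega)
  obtain ⟨E₀, hE₀⟩ : ∃ E₀ : Finset ℕ, E₀ = (Icc 1 N).filter fun m : ℕ => (m : ℝ) ≤ N / L ^ 3 :=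
    ⟨_, rfl⟩
  have hcover : ∀ m ∈ (primeShifts b N).filter
      (fun m => ∃ d ∈ Ioc (cutLow B N) (cutHigh B N), d ∣ m),
      m ∈ E₀ ∨ m ∈ (primeShifts b N).filter (fun m => 9 / 8 * l ≤ (omegaIn P m : ℝ)) ∨
        m ∈ (primeShifts b N).filter (fun m => ∃ d ∈ fewWindow B N, d ∣ m) ∨
        (1 ≤ m ∧ m ≤ N ∧ ∃ q, k.factorial - 1 < q ∧ q * q ∣ m) := by
    intro m hm
    rw [mem_filter] at hm
    obtain ⟨hmS, d, hd, e, rfl⟩ := hm
    have hmI := (mem_filter.1 hmS).1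
    rw [mem_Icc] at hmI
    rw [mem_Ioc, cutLow, cutHigh, ← hL, Nat.floor_lt (by positivity),
      Nat.le_floor_iff (by positivity)] at hd
    rcases le_or_gt ((d * e : ℕ) : ℝ) ((N : ℝ) / L ^ 3) with hsmall | hlarge
    · exact Or.inl (hE₀ ▸ mem_filter.2 ⟨mem_Icc.2 hmI, hsmall⟩)
    have hs0 : 0 < Real.sqrt N := Real.sqrt_pos.2 hN0
    have hd0 : (0 : ℝ) < d := lt_of_le_of_lt (by positivity) hd.1
    have hLp : ∀ i : ℕ, L ^ i ≤ L ^ (i + 1) := fun i => pow_le_pow_right₀ hL1 (by omega)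
    have hB5 : L ^ B ≤ L ^ (B + 5) := pow_le_pow_right₀ hL1 (by omega)
    have hde : (d : ℝ) * e ≤ N := by exact_mod_cast hmI.2
    rw [Nat.cast_mul, div_lt_iff₀ (by positivity)] at hlarge
    have hd1 : cutLow (B + 5) N < d ∧ d ≤ cutHigh (B + 5) N := by
      rw [cutLow, cutHigh, ← hL, Nat.floor_lt (by positivity), Nat.le_floor_iff (by positivity)]
      exact ⟨lt_of_le_of_lt (div_le_div_of_nonneg_left hs0.le (by positivity) hB5) hd.1,
        hd.2.trans (mul_le_mul_of_nonneg_left hB5 hs0.le)⟩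
    have he1 : cutLow (B + 5) N < e ∧ e ≤ cutHigh (B + 5) N := by
      rw [cutLow, cutHigh, ← hL, Nat.floor_lt (by positivity), Nat.le_floor_iff (by positivity)]
      have hee : (0 : ℝ) ≤ e := Nat.cast_nonneg e
      constructor
      · rw [div_lt_iff₀ (by positivity), pow_add]
        have h1 : (N : ℝ) < Real.sqrt N * L ^ B * e * L ^ 3 := by
          refine hlarge.trans_le ?_
          exact mul_le_mul_of_nonneg_right (mul_le_mul_of_nonneg_right hd.2 hee) (by positivity)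
        have h3 : L ^ 3 ≤ L ^ 5 := pow_le_pow_right₀ hL1 (by norm_num)
        have h4 : Real.sqrt N * (Real.sqrt N) < Real.sqrt N * (e * (L ^ B * L ^ 3)) := by
          rw [Real.mul_self_sqrt hN0.le]
          linarith
        refine (lt_of_mul_lt_mul_left h4 hs0.le).trans_le ?_
        exact mul_le_mul_of_nonneg_left (mul_le_mul_of_nonneg_left h3 (by positivity)) hee
      · have h1 : Real.sqrt N / L ^ B * e ≤ Real.sqrt N * Real.sqrt N := by
          rw [Real.mul_self_sqrt hN0.le]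
          exact (mul_le_mul_of_nonneg_right hd.1.le hee).trans hde
        rw [div_mul_eq_mul_div, div_le_iff₀ (by positivity), mul_assoc] at h1
        exact (le_of_mul_le_mul_left h1 hs0).trans (mul_le_mul_of_nonneg_left hB5 hs0.le)
    refine Or.inr ?_
    rcases window_cases (P := P) (d := d) (e := e) (x := 0.6 * l) (y := 9 / 8 * l) (k := k)
      (hP ▸ smallPrimes_prime) (by linarith) with h | h | h | ⟨q, hq, hqd⟩
    · exact Or.inl (mem_filter.2 ⟨hmS, h⟩)
    · exact Or.inr (Or.inl (mem_filter.2 ⟨hmS, d, mem_fewWindow.2 ⟨hd1, hL ▸ hl' ▸ hP ▸ h⟩,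
        dvd_mul_right d e⟩))
    · exact Or.inr (Or.inl (mem_filter.2 ⟨hmS, e, mem_fewWindow.2 ⟨he1, hL ▸ hl' ▸ hP ▸ h⟩,
        dvd_mul_left e d⟩))
    · exact Or.inr (Or.inr ⟨hmI.1, hmI.2, q, by omega, hqd⟩)
  refine le_trans (Nat.cast_le.2 ((card_le_card (t := E₀ ∪
    ((primeShifts b N).filter (fun m => 9 / 8 * l ≤ (omegaIn P m : ℝ)) ∪
      ((primeShifts b N).filter (fun m => ∃ d ∈ fewWindow B N, d ∣ m) ∪
        (Icc 1 N).filter fun m => ∃ q, k.factorial - 1 < q ∧ q * q ∣ m))) fun m hm => ?_).trans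
    ((card_union_le _ _).trans (Nat.add_le_add_left ((card_union_le _ _).trans
      (Nat.add_le_add_left (card_union_le _ _) _)) _)))) ?_
  · simp only [mem_union]
    rcases hcover m hm with h | h | h | h
    · exact Or.inl h
    · exact Or.inr (Or.inl h)
    · exact Or.inr (Or.inr (Or.inl h))
    · exact Or.inr (Or.inr (Or.inr (mem_filter.2 ⟨mem_Icc.2 ⟨h.1, h.2.1⟩, h.2.2⟩)))
  have hE0le : (#E₀ : ℝ) ≤ N / L ^ 3 := by
    refine le_trans (Nat.cast_le.2 ((card_le_card (t := Icc 1 ⌊(N : ℝ) / L ^ 3⌋₊) fun m hm => ?_)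
      |>.trans (Nat.card_Icc 1 _).le)) ?_
    · rw [hE₀, mem_filter, mem_Icc] at hm
      exact mem_Icc.2 ⟨hm.1.1, Nat.le_floor hm.2⟩
    · rw [Nat.add_sub_cancel]
      exact Nat.floor_le (by positivity)
  have hsmall : (N : ℝ) / L ^ 3 ≤ N / L * Real.exp (-(1 / 272) * l) := by
    rw [neg_mul, Real.exp_neg, ← div_eq_mul_inv, div_div]
    refine div_le_div_of_nonneg_left hN0.le (by positivity) ?_
    rw [show L ^ 3 = L * L ^ 2 by ring]
    refine mul_le_mul_of_nonneg_left ?_ hL0.le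
    have e2 : L ^ 2 = Real.exp (2 * l) := by
      rw [show (2 : ℝ) * l = l + l by ring, Real.exp_add, hl', Real.exp_log hL0, sq]
    rw [e2, Real.exp_le_exp]
    linarith
  have hsq' : (N : ℝ) / ((k.factorial - 1 : ℕ) : ℝ) ≤ 2 * (N / L * Real.exp (-(1 / 272) * l)) := by
    refine le_trans ?_ (mul_le_mul_of_nonneg_left hsmall zero_le_two)
    have h2 : ((2 : ℕ) : ℝ) ≤ (k.factorial : ℝ) := Nat.cast_le.2 hk2
    push_cast at h2
    rw [Nat.cast_sub (by omega), Nat.cast_one, ← mul_div_assoc,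
      div_le_div_iff₀ (by linarith) (by positivity)]
    have e3 : L ^ 3 = Real.exp (3 * l) := by
      rw [show (3 : ℝ) * l = l + l + l by ring, Real.exp_add, Real.exp_add, hl',
        Real.exp_log hL0]
      ring
    rw [e3]
    nlinarith
  have h015 : Real.exp (-0.015 * l) ≤ Real.exp (-(1 / 272) * l) :=
    Real.exp_le_exp.2 (by linarith)
  push_cast at hsq ⊢
  calc _ ≤ (N : ℝ) / L ^ 3 + (384 * N / L * Real.exp (-(1 / 272) * l) +
        (C * N / L * (l * Real.exp (-0.015 * l)) + (N : ℝ) / ((k.factorial - 1 : ℕ) : ℝ))) :=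
        add_le_add hE0le (add_le_add hm (add_le_add hf hsq))
    _ ≤ N / L * ((384 + 2 * C + 4) * l * Real.exp (-(1 / 272) * l)) := by
        obtain ⟨T, hT⟩ : ∃ T, T = (N : ℝ) / L * Real.exp (-(1 / 272) * l) := ⟨_, rfl⟩
        have hT0 : 0 ≤ T := hT ▸ by positivity
        have h1 : C * N / L * (l * Real.exp (-0.015 * l)) ≤ C * (T * l) := by
          rw [hT]
          refine (mul_le_mul_of_nonneg_left (mul_le_mul_of_nonneg_left h015 (by linarith))
            (by positivity)).trans (le_of_eq ?_)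
          ring
        have h3 : T ≤ T * l := le_mul_of_one_le_right hT0 (by linarith)
        have h4 : 0 ≤ C * (T * l) := mul_nonneg hC.le (hT0.trans h3)
        rw [← hT] at hsmall hsq'
        rw [show (384 : ℝ) * N / L * Real.exp (-(1 / 272) * l) = 384 * T by rw [hT]; ring,
          show (N : ℝ) / L * ((384 + 2 * C + 4) * l * Real.exp (-(1 / 272) * l)) =
            388 * (T * l) + 2 * (C * (T * l)) by rw [hT]; ring]
        linarith
    _ ≤ _ := by
        refine mul_le_mul_of_nonneg_left ?_ (by positivity)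
        refine (mul_le_mul_of_nonneg_right hexp (Real.exp_pos _).le).trans (le_of_eq ?_)
        rw [← Real.exp_add]
        congr 1
        ring

end FA.PrimeTwoSquares
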