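import Fermat.Agent.Forms3.RepresentationBound
import Fermat.Agent.PrimeTwoSquares.MeanSquare
import Fermat.Agent.PrimeTwoSquares.Window

/-!
# The middle range

Over the `m ≤ N` with `|b - m|` prime, the sum of `log |b - m| ∑ χ₄ d`, over the divisors of `m`
between `√N / (log N) ^ B` and `√N (log N) ^ B`, is `O (N / (log N) ^ (1/1000))`: the inequality of
Cauchy with the exceptional set and the mean square.
-/

set_option autoImplicit false

noncomputable section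

namespace FA.PrimeTwoSquares

open Finset Filter

theorem sifterProduct_le {Z : ℝ} {b : ℤ} (hb : b ≠ 0) :
    sifterProduct Z b ≤ (∏ p ∈ (range ⌈Z⌉₊).filter Nat.Prime, (1 - (p : ℝ)⁻¹)) *
      ((b.natAbs : ℝ) / (b.natAbs.totient : ℕ)) := by
  obtain ⟨n, hn⟩ : ∃ n, n = b.natAbs := ⟨_, rfl⟩
  rw [← hn]
  have hn0 : 0 < n := hn ▸ Int.natAbs_pos.2 hb
  obtain ⟨A, hA⟩ : ∃ A, A = (range ⌈Z⌉₊).filter Nat.Prime := ⟨_, rfl⟩
  rw [← hA]
  have hpos : ∀ p : ℕ, p.Prime → 0 < 1 - (p : ℝ)⁻¹ ∧ 1 - (p : ℝ)⁻¹ ≤ 1 := fun p hp =>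
    ⟨sub_pos.2 (inv_lt_one_of_one_lt₀ (Nat.one_lt_cast.2 hp.one_lt)),
      sub_le_self _ (by positivity)⟩
  have hAp : ∀ p ∈ A, p.Prime := fun p hp => (mem_filter.1 (hA ▸ hp)).2
  have hT : CombinatorialSieve.sievingPrimes Z b.natAbs = A.filter fun p => ¬ p ∣ n := by
    rw [CombinatorialSieve.sievingPrimes, hA, filter_filter, ← hn]
  have hφ : (0 : ℝ) < (n.totient : ℕ) := Nat.cast_pos.2 (Nat.totient_pos.2 hn0)
  rw [sifterProduct, hT, ← mul_div_assoc, le_div_iff₀ hφ, MertensThird.totient_eq_prod,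
    mul_left_comm, mul_comm _ (n : ℝ)]
  refine mul_le_mul_of_nonneg_left ?_ (Nat.cast_nonneg n)
  rw [← prod_filter_mul_prod_filter_not A (fun p => p ∣ n) fun p => (1 - (p : ℝ)⁻¹), mul_comm]
  refine mul_le_mul_of_nonneg_right (prod_le_prod_of_subset_of_le_one ?_ ?_ ?_)
    (prod_nonneg fun p hp => (hpos p (hAp p (mem_filter.1 hp).1)).1.le)
  · intro p hp
    rw [mem_filter] at hp
    exact Nat.mem_primeFactors.2 ⟨hAp p hp.1, hp.2, hn0.ne'⟩
  · exact fun p hp => (hpos p (Nat.prime_of_mem_primeFactors hp)).1.le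
  · exact fun p hp _ => (hpos p (Nat.prime_of_mem_primeFactors hp)).2

theorem exists_card_divisors_le {ε : ℝ} (hε : 0 < ε) : ∃ C : ℝ, 1 ≤ C ∧ ∀ N : ℕ, 2 ≤ N →
    ∀ n ∈ Icc 1 N, (n.divisors.card : ℝ) ≤ C * Real.exp (ε * Real.log N) := by
  obtain ⟨C, hC, h⟩ := FA.RepresentationBound.card_divisors_isBigO ε hε
  refine ⟨C, hC, fun N hN n hn => (h n ?_).trans (mul_le_mul_of_nonneg_left ?_ (by linarith))⟩
  · exact (Nat.pos_iff_ne_zero.1 (mem_Icc.1 hn).1)
  rw [mul_comm, ← Real.rpow_def_of_pos (Nat.cast_pos.2 (by omega))]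
  exact Real.rpow_le_rpow (Nat.cast_nonneg n) (Nat.cast_le.2 (mem_Icc.1 hn).2) hε.le

/-- The size facts for the cuts. -/
theorem eventually_cut_facts (B : ℕ) : ∀ᶠ N : ℕ in atTop,
    2 ≤ N ∧ 1 ≤ Real.log N ∧ 10 ≤ Real.log (Real.log N) ∧
      200 * ((B : ℝ) + 3) * Real.log (Real.log N) ≤ Real.log N ∧
      Real.exp (Real.log N / 2 - B * Real.log (Real.log N)) ≤ (cutLow B N : ℝ) + 1 ∧
      (cutHigh B N : ℝ) ≤ Real.exp (Real.log N / 2 + B * Real.log (Real.log N)) ∧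
      cutLow B N ≤ cutHigh B N ∧ cutHigh B N ≤ N ∧
      logWidth (cutLow B N) (cutHigh B N) ≤ (2 * (B : ℝ) + 4) * Real.log (Real.log N) ∧
      logWidth 0 (cutHigh B N) ≤ 4 * Real.log N := by
  filter_upwards [eventually_ge_atTop 2, eventually_ge_log 8, eventually_ge_loglog 10,
    eventually_loglog_le (200 * ((B : ℝ) + 3))] with N hN hL hl hlL
  obtain ⟨L, hLd⟩ : ∃ L, L = Real.log N := ⟨_, rfl⟩
  obtain ⟨l, hld⟩ : ∃ l, l = Real.log L := ⟨_, rfl⟩
  rw [← hLd] at hL hl hlL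
  rw [← hld] at hl hlL
  rw [← hLd, ← hld]
  have hN0 : (0 : ℝ) < N := Nat.cast_pos.2 (by omega)
  have hL0 : 0 < L := by linarith
  have hsqrt : Real.sqrt N = Real.exp (L / 2) := by
    rw [Real.sqrt_eq_rpow, Real.rpow_def_of_pos hN0, ← hLd]
    ring_nf
  have hpow : L ^ B = Real.exp ((B : ℝ) * l) := by
    rw [Real.exp_nat_mul, hld, Real.exp_log hL0]
  have hlow : Real.exp (L / 2 - B * l) ≤ (cutLow B N : ℝ) + 1 := by
    rw [cutLow, hsqrt, ← hLd, hpow, ← Real.exp_sub]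
    exact (Nat.lt_floor_add_one _).le
  have hhigh : (cutHigh B N : ℝ) ≤ Real.exp (L / 2 + B * l) := by
    rw [cutHigh, hsqrt, ← hLd, hpow, ← Real.exp_add]
    exact Nat.floor_le (Real.exp_pos _).le
  have hBl : (B : ℝ) * l + 2 ≤ L / 4 := by nlinarith [Nat.cast_nonneg (α := ℝ) B]
  have hle : cutLow B N ≤ cutHigh B N := by
    rw [cutLow, cutHigh, hsqrt, ← hLd, hpow, ← Real.exp_sub, ← Real.exp_add]
    exact Nat.floor_mono (Real.exp_le_exp.2 (by nlinarith [Nat.cast_nonneg (α := ℝ) B]))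
  have hhighN : cutHigh B N ≤ N := by
    refine Nat.cast_le.1 (hhigh.trans ((Real.exp_le_exp.2 (show _ ≤ L by linarith)).trans ?_))
    rw [hLd, Real.exp_log hN0]
  refine ⟨hN, by linarith, hl, hlL, hlow, hhigh, hle, hhighN, ?_, ?_⟩
  · have h : ((cutHigh B N : ℝ) + 1) / ((cutLow B N : ℝ) + 1) ≤ Real.exp (2 * (B * l) + 1) := by
      rw [div_le_iff₀ (by positivity)]
      have h3 := mul_le_mul_of_nonneg_left hlow (Real.exp_pos (2 * (B * l) + 1)).le
      rw [← Real.exp_add, show 2 * ((B : ℝ) * l) + 1 + (L / 2 - B * l) =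
          (L / 2 + B * l) + 1 by ring,
        Real.exp_add] at h3
      have h4 : 1 ≤ Real.exp (L / 2 + B * l) := Real.one_le_exp (by positivity)
      nlinarith [Real.exp_one_gt_d9]
    have h2 := Real.log_le_log (by positivity) h
    rw [Real.log_exp] at h2
    rw [logWidth]
    nlinarith
  · have h : ((cutHigh B N : ℝ) + 1) / (((0 : ℕ) : ℝ) + 1) ≤ Real.exp (L + 1) := by
      rw [Nat.cast_zero, zero_add, div_one, Real.exp_add, hLd, Real.exp_log hN0]
      have h1 : (cutHigh B N : ℝ) ≤ N := Nat.cast_le.2 hhighN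
      have h2 : (2 : ℝ) ≤ N := Nat.ofNat_le_cast.2 hN
      nlinarith [Real.exp_one_gt_d9]
    have h2 := Real.log_le_log (by positivity) h
    rw [Real.log_exp] at h2
    rw [logWidth]
    linarith

theorem log_power_facts {L l : ℝ} {B : ℕ} (_ : 1 ≤ L) (hld : l = Real.log L) (hl : 10 ≤ l)
    (hlL : 200 * ((B : ℝ) + 3) * l ≤ L) :
    L = Real.exp l ∧ (B : ℝ) * l ≤ L / 100 ∧ 200 ≤ L ∧ L ≤ Real.exp (L / 100) ∧
      L / 100 * L ≤ Real.exp (L / 100) := by
  have hB : (0 : ℝ) ≤ B := Nat.cast_nonneg B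
  have hBl : 0 ≤ (B : ℝ) * l := mul_nonneg hB (by linarith)
  have hLl : L = Real.exp l := by rw [hld, Real.exp_log (by linarith)]
  have h3 : 600 * l ≤ L := by linarith
  refine ⟨hLl, by linarith, by linarith, ?_, ?_⟩
  · calc L = Real.exp l := hLl
      _ ≤ _ := Real.exp_le_exp.2 (by linarith)
  · refine (mul_le_mul_of_nonneg_right (show L / 100 ≤ L by linarith) (by linarith)).trans ?_
    calc L * L = Real.exp (l + l) := by rw [Real.exp_add, ← hLl]
      _ ≤ _ := Real.exp_le_exp.2 (by linarith)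

theorem small_prime_part_le {L Z R Cd : ℝ} (hL : 200 ≤ L) (hZ : Z ≤ Real.exp (L / 20))
    (hR : R = Cd * Real.exp (1 / 400 * L)) :
    (2 * Z + 3) * R ^ 2 ≤ 5 * Cd ^ 2 * Real.exp (99 / 100 * L) := by
  rw [hR, mul_pow, ← Real.exp_nat_mul, Nat.cast_ofNat, mul_left_comm, mul_comm 5 (Cd ^ 2),
    mul_assoc]
  refine mul_le_mul_of_nonneg_left ?_ (sq_nonneg _)
  refine (mul_le_mul_of_nonneg_right (show 2 * Z + 3 ≤ 5 * Real.exp (L / 20) by
    linarith [Real.one_le_exp (show 0 ≤ L / 20 by linarith)]) (Real.exp_pos _).le).trans ?_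
  rw [mul_assoc, ← Real.exp_add]
  exact mul_le_mul_of_nonneg_left (Real.exp_le_exp.2 (by linarith)) (by norm_num)

theorem short_cofactor_part_le {L β R Cd n g d₁ w : ℝ} (hβ : β ≤ L / 100) (hL : 0 ≤ L)
    (hn : n = Real.exp L) (hCd : 0 ≤ Cd) (hR : R = Cd * Real.exp (1 / 400 * L)) (_ : 0 ≤ g)
    (hg : g ≤ Real.exp (3 / 8 * L)) (hd1 : 0 < d₁) (hd : Real.exp (L / 2 - β) ≤ d₁) (hw0 : 0 ≤ w)
    (hw : w ≤ 4 * Real.exp (L / 100)) :
    g * (n / d₁ * (2 * R) * w) * Real.exp (L / 20) ≤ 8 * Cd * Real.exp (99 / 100 * L) := by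
  have h1 : n / d₁ ≤ Real.exp (L / 2 + β) := by
    rw [div_le_iff₀ hd1]
    refine le_trans (le_of_eq ?_) (mul_le_mul_of_nonneg_left hd (Real.exp_pos _).le)
    rw [← Real.exp_add, hn]
    ring_nf
  have hn0 : 0 ≤ n := hn ▸ (Real.exp_pos _).le
  refine (mul_le_mul_of_nonneg_right (mul_le_mul hg (mul_le_mul (mul_le_mul_of_nonneg_right h1
    (hR ▸ by positivity : 0 ≤ 2 * R)) hw hw0 (hR ▸ by positivity)) (hR ▸ by positivity)
    (Real.exp_pos _).le) (Real.exp_pos _).le).trans ?_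
  rw [hR, show Real.exp (3 / 8 * L) * (Real.exp (L / 2 + β) *
    (2 * (Cd * Real.exp (1 / 400 * L))) * (4 * Real.exp (L / 100))) * Real.exp (L / 20) =
    8 * Cd * (Real.exp (3 / 8 * L) * Real.exp (L / 2 + β) * Real.exp (1 / 400 * L) *
      Real.exp (L / 100) * Real.exp (L / 20)) by ring]
  refine mul_le_mul_of_nonneg_left ?_ (by positivity)
  rw [← Real.exp_add, ← Real.exp_add, ← Real.exp_add, ← Real.exp_add, Real.exp_le_exp]
  linarith

theorem long_cofactor_part_le {L β g d₂ : ℝ} (hβ : β ≤ L / 100) (hL : 0 ≤ L) (hg : 0 < g)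
    (hg2 : Real.exp (3 / 8 * L) ≤ 2 * g) (hd0 : 0 ≤ d₂) (hd : d₂ ≤ Real.exp (L / 2 + β)) :
    2 * (d₂ ^ 2 / g) * Real.exp (L / 20) ≤ 4 * Real.exp (99 / 100 * L) := by
  have h1 : d₂ ^ 2 / g ≤ 2 * Real.exp (L + 2 * β - 3 / 8 * L) := by
    rw [div_le_iff₀ hg]
    refine (pow_le_pow_left₀ hd0 hd 2).trans ?_
    rw [← Real.exp_nat_mul, Nat.cast_ofNat]
    refine le_trans (le_of_eq ?_) (le_of_le_of_eq
      (mul_le_mul_of_nonneg_left hg2 (Real.exp_pos (L + 2 * β - 3 / 8 * L)).le) (by ring))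
    rw [← Real.exp_add]
    ring_nf
  refine (mul_le_mul_of_nonneg_right (mul_le_mul_of_nonneg_left h1 zero_le_two)
    (Real.exp_pos _).le).trans ?_
  rw [show (2 : ℝ) * (2 * Real.exp (L + 2 * β - 3 / 8 * L)) * Real.exp (L / 20) =
    4 * (Real.exp (L + 2 * β - 3 / 8 * L) * Real.exp (L / 20)) by ring, ← Real.exp_add]
  exact mul_le_mul_of_nonneg_left (Real.exp_le_exp.2 (by linarith)) (by norm_num)

theorem main_factor_le {L l E w w₀ c β : ℝ} (hL : L = Real.exp l) (hl : 1 ≤ l) (hE : 0 ≤ E)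
    (hc : 0 ≤ c) (hw : w ≤ β * l) (hw00 : 0 ≤ w₀) (hw0 : w₀ ≤ 4 * L) :
    2 * E ^ 4 * w + c * Real.exp (-(5 * l)) * (E * w₀) ^ 3 ≤
      (2 * E ^ 4 * β + c * (E * 4) ^ 3) * l := by
  have h2 : (E * w₀) ^ 3 ≤ (E * 4) ^ 3 * Real.exp (3 * l) := by
    rw [show (3 : ℝ) * l = ((3 : ℕ) : ℝ) * l by norm_num, Real.exp_nat_mul, ← hL, ← mul_pow,
      mul_assoc]
    exact pow_le_pow_left₀ (mul_nonneg hE hw00) (mul_le_mul_of_nonneg_left hw0 hE) 3
  rw [add_mul]
  refine add_le_add ?_ ?_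
  · rw [mul_assoc (2 * E ^ 4)]
    exact mul_le_mul_of_nonneg_left hw (by positivity)
  · refine (mul_le_mul_of_nonneg_left h2 (by positivity)).trans ?_
    rw [mul_assoc, mul_assoc c, mul_left_comm (Real.exp _)]
    refine mul_le_mul_of_nonneg_left (mul_le_mul_of_nonneg_left ?_ (by positivity)) hc
    rw [← Real.exp_add]
    exact (Real.exp_le_one_iff.2 (by linarith)).trans hl

/-- The sieve product for `Z = N ^ (1 / (100 log log N))`. -/
theorem exists_sifterProduct_le : ∃ C : ℝ, 0 < C ∧ ∀ᶠ N : ℕ in atTop, ∀ b : ℤ, b ≠ 0 →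
    b.natAbs ≤ N →
      sifterProduct (Real.exp (Real.log N / (100 * Real.log (Real.log N)))) b ≤
        C * Real.log (Real.log N) ^ 2 / Real.log N := by
  obtain ⟨Cp, hCp, hratio⟩ := exists_ratio_le
  obtain ⟨cm, Cm, hcm, hmert⟩ := CombinatorialSieve.exists_mertens_product
  refine ⟨100 * |Cm| * Cp + 1, by positivity, ?_⟩
  filter_upwards [hratio, eventually_loglog_le 100, eventually_ge_loglog 1, eventually_ge_log 1]
    with N hrN hlL hl hL b hb0 hb
  have hrb := hrN b.natAbs hb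
  clear hrN
  obtain ⟨L, hLd⟩ : ∃ L, L = Real.log N := ⟨_, rfl⟩
  obtain ⟨l, hld⟩ : ∃ l, l = Real.log L := ⟨_, rfl⟩
  rw [← hLd] at hlL hL hl hrb ⊢
  rw [← hld] at hlL hl hrb ⊢
  have hZ : 2 ≤ Real.exp (L / (100 * l)) := by
    refine le_trans ?_ (Real.add_one_le_exp _)
    have h1 : 1 ≤ L / (100 * l) := by
      rw [le_div_iff₀ (by positivity), one_mul]
      exact hlL
    linarith
  refine (sifterProduct_le hb0).trans ((mul_le_mul ((hmert _ hZ).2) hrb
    (div_nonneg (Nat.cast_nonneg _) (Nat.cast_nonneg _)) ?_).trans ?_)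
  · exact le_trans (prod_nonneg fun p hp => sub_nonneg.2
      (inv_le_one_of_one_le₀ (Nat.one_le_cast.2 (mem_filter.1 hp).2.one_le))) (hmert _ hZ).2
  · rw [Real.log_exp, div_div_eq_mul_div, div_mul_eq_mul_div]
    refine div_le_div_of_nonneg_right ?_ (by linarith)
    have h1 : Cm * (100 * Cp * l ^ 2) ≤ |Cm| * (100 * Cp * l ^ 2) :=
      mul_le_mul_of_nonneg_right (le_abs_self _) (by positivity)
    rw [show Cm * (100 * l) * (Cp * l) = Cm * (100 * Cp * l ^ 2) by ring, add_mul]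
    linarith [sq_nonneg l]

/-- **The mean square is `O (N (log log N) ^ 3 / log N)`.** -/
theorem eventually_meanSquare_le (B : ℕ) : ∃ C : ℝ, 0 < C ∧ ∀ᶠ N : ℕ in atTop,
    ∀ b : ℤ, b ≠ 0 → b.natAbs ≤ N →
      ∑ m ∈ primeShifts b N, windowSum (cutLow B N) (cutHigh B N) m ^ 2 ≤
        C * N / Real.log N * Real.log (Real.log N) ^ 3 := by
  obtain ⟨Cv, hCv, hprod⟩ := exists_sifterProduct_le
  obtain ⟨Cd, hCd, hdiv⟩ := exists_card_divisors_le (show (0 : ℝ) < 1 / 400 by norm_num)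
  obtain ⟨cE, hcE⟩ : ∃ cE : ℝ, cE = 20 * Real.exp (10 : ℕ) * Real.exp 13 ^ 10 := ⟨_, rfl⟩
  have hcE0 : 0 < cE := hcE ▸ by positivity
  obtain ⟨K, hK⟩ : ∃ K : ℝ,
      K = 2 * eulerBound ^ 4 * (2 * (B : ℝ) + 4) + cE * (eulerBound * 4) ^ 3 := ⟨_, rfl⟩
  have hK0 : 0 < K := by
    have := eulerBound_pos
    rw [hK]
    positivity
  refine ⟨Cv * K + 1, by positivity, ?_⟩
  filter_upwards [eventually_cut_facts B, hprod,
    eventually_ge_log (100 * (12 * Cd ^ 2 + 32 * Cd + 16))] with N hN hprN hbig b hb0 hb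
  obtain ⟨hN2, hL1, hl, hlL, hlow, hhigh, hle, hhighN, hw, hw0⟩ := hN
  have hdN := hdiv N hN2
  have hpb := hprN b hb0 hb
  clear hprN
  obtain ⟨L, hLd⟩ : ∃ L, L = Real.log N := ⟨_, rfl⟩
  obtain ⟨l, hld⟩ : ∃ l, l = Real.log L := ⟨_, rfl⟩
  rw [← hLd] at hL1 hlL hbig hw0 hdN hlow hhigh hl hw hpb ⊢
  rw [← hld] at hlL hl hw hlow hhigh hpb ⊢
  obtain ⟨hLl, hBl, hL200, hLexp, hLL⟩ := log_power_facts hL1 hld hl hlL
  obtain ⟨Z, hZ⟩ : ∃ Z, Z = Real.exp (L / (100 * l)) := ⟨_, rfl⟩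
  obtain ⟨G, hG⟩ : ∃ G : ℕ, G = ⌊Real.exp (3 / 8 * L)⌋₊ := ⟨_, rfl⟩
  obtain ⟨R, hR⟩ : ∃ R, R = Cd * Real.exp (1 / 400 * L) := ⟨_, rfl⟩
  have hN0 : (0 : ℝ) < N := Nat.cast_pos.2 (by omega)
  have hNe : (N : ℝ) = Real.exp L := by rw [hLd, Real.exp_log hN0]
  rw [← hZ] at hpb
  have hl0 : 0 < l := by linarith
  have h600 : 600 * l ≤ L := by
    linarith [mul_nonneg (Nat.cast_nonneg (α := ℝ) B) hl0.le]
  have hZ2 : 2 ≤ Z := by
    rw [hZ]
    refine le_trans ?_ (Real.add_one_le_exp _)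
    have h1 : 1 ≤ L / (100 * l) := by
      rw [le_div_iff₀ (by positivity)]
      linarith
    linarith
  have hZs : Z ^ (5 * l) = Real.exp (L / 20) := by
    rw [hZ, ← Real.exp_mul]
    congr 1
    field_simp
    ring
  have hZle : Z ≤ Real.exp (L / 20) := by
    rw [hZ, Real.exp_le_exp]
    exact div_le_div_of_nonneg_left (by linarith) (by norm_num) (by linarith)
  have hG0 : 0 < G := hG ▸ Nat.floor_pos.2 (Real.one_le_exp (by linarith))
  have hGle : (G : ℝ) ≤ Real.exp (3 / 8 * L) := hG ▸ Nat.floor_le (Real.exp_pos _).le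
  have hGge : Real.exp (3 / 8 * L) ≤ 2 * (G : ℝ) := by
    have h := Nat.lt_floor_add_one (Real.exp (3 / 8 * L))
    rw [← hG] at h
    have : (1 : ℝ) ≤ G := Nat.one_le_cast.2 hG0
    linarith
  have hGD : G ≤ cutHigh B N := by
    rw [hG, cutHigh]
    refine Nat.floor_mono ?_
    rw [show Real.sqrt N = Real.exp (L / 2) by
      rw [Real.sqrt_eq_rpow, Real.rpow_def_of_pos hN0, ← hLd]; ring_nf, ← hLd]
    exact (Real.exp_le_exp.2 (show 3 / 8 * L ≤ L / 2 by linarith)).trans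
      (le_mul_of_one_le_right (Real.exp_pos _).le (one_le_pow₀ hL1))
  have hRb : ∀ n ∈ Icc 1 (max N (cutHigh B N)), (n.divisors.card : ℝ) ≤ R := by
    rw [max_eq_left hhighN, hR]
    exact hdN
  have hw00 : 0 ≤ logWidth 0 (cutHigh B N) := by
    linarith [two_le_logWidth (Nat.zero_le (cutHigh B N))]
  have hA := small_prime_part_le hL200 hZle hR
  have hB' := short_cofactor_part_le (d₁ := (cutLow B N : ℝ) + 1) hBl (by linarith) hNe
    (by linarith) hR (Nat.cast_nonneg G) hGle (by positivity) hlow hw00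
    (hw0.trans (mul_le_mul_of_nonneg_left hLexp (by norm_num)))
  have hC' := long_cofactor_part_le hBl (by linarith) (Nat.cast_pos.2 hG0) hGge
    (Nat.cast_nonneg _) hhigh
  have hmid := main_factor_le hLl (by linarith) eulerBound_pos.le hcE0.le hw hw00 hw0
  rw [← hK] at hmid
  have h := sum_windowSum_sq_le hZ2 (show (10 : ℝ) ≤ 5 * l by linarith) b (M := N) hle hG0 hGD hRb
  rw [hZs, sieveErr, ← hcE] at h
  rw [primeShifts]
  refine h.trans ?_
  have hmain : (N : ℝ) * sifterProduct Z b *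
      (2 * eulerBound ^ 4 * logWidth (cutLow B N) (cutHigh B N) +
        cE * Real.exp (-(5 * l)) * (eulerBound * logWidth 0 (cutHigh B N)) ^ 3) ≤
      Cv * K * (N / L * l ^ 3) := by
    refine (mul_le_mul_of_nonneg_left hmid
      (mul_nonneg hN0.le (sifterProduct_nonneg Z b))).trans ?_
    refine (mul_le_mul_of_nonneg_right (mul_le_mul_of_nonneg_left hpb hN0.le)
      (by positivity)).trans (le_of_eq ?_)
    ring
  obtain ⟨X, hX⟩ : ∃ X, X = Real.exp (99 / 100 * L) := ⟨_, rfl⟩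
  rw [← hX] at hA hB' hC'
  have hX0 : 0 < X := hX ▸ Real.exp_pos _
  have hXN : (12 * Cd ^ 2 + 32 * Cd + 16) * X ≤ (N : ℝ) / L * l ^ 3 := by
    refine le_trans ?_ (le_mul_of_one_le_right (by positivity) (one_le_pow₀ (by linarith)))
    rw [le_div_iff₀ (by linarith), hNe]
    refine (mul_le_mul_of_nonneg_right (mul_le_mul_of_nonneg_right
      (show 12 * Cd ^ 2 + 32 * Cd + 16 ≤ L / 100 by linarith) hX0.le) (by linarith)).trans ?_
    rw [mul_right_comm]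
    refine (mul_le_mul_of_nonneg_right hLL hX0.le).trans (le_of_eq ?_)
    rw [hX, ← Real.exp_add]
    ring_nf
  have hpos : 0 ≤ (7 * Cd ^ 2 + 24 * Cd + 12) * X := by
    have : 0 ≤ Cd := by linarith
    positivity
  rw [show (Cv * K + 1) * (N : ℝ) / L * l ^ 3 = Cv * K * (N / L * l ^ 3) + N / L * l ^ 3 by ring,
    mul_add (Real.exp (L / 20)), mul_comm (Real.exp (L / 20)), mul_comm (Real.exp (L / 20))]
  linarith

/-- **The middle range.** -/
theorem eventually_middle_le (B : ℕ) : ∀ᶠ N : ℕ in atTop, ∀ b : ℤ, b ≠ 0 → b.natAbs ≤ N →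
    ∀ S ⊆ primeShifts b N,
      |∑ m ∈ S, Real.log ((b - m).natAbs : ℕ) * windowSum (cutLow B N) (cutHigh B N) m| ≤
        N * Real.exp (-(1 / 1000) * Real.log (Real.log N)) := by
  obtain ⟨C, hC, hms⟩ := eventually_meanSquare_le B
  filter_upwards [hms, eventually_window_le B, eventually_ge_atTop 2, eventually_ge_log 1,
    eventually_loglog_pow_le (4 * C) (show (0 : ℝ) < 1 / 400 - 1 / 500 by norm_num) 3]
    with N hms hwin hN2 hL1 hexp b hb0 hb S hS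
  have hm := hms b hb0 hb
  have hw := hwin b hb
  clear hms hwin
  obtain ⟨L, hLd⟩ : ∃ L, L = Real.log N := ⟨_, rfl⟩
  obtain ⟨l, hld⟩ : ∃ l, l = Real.log L := ⟨_, rfl⟩
  rw [← hLd] at hm hw hexp hL1 ⊢
  rw [← hld] at hm hw hexp ⊢
  obtain ⟨W, hW⟩ : ∃ W, W = windowSum (cutLow B N) (cutHigh B N) := ⟨_, rfl⟩
  rw [← hW] at hm ⊢
  have hN0 : (0 : ℝ) < N := Nat.cast_pos.2 (by omega)
  obtain ⟨A, hA⟩ : ∃ A, A = (primeShifts b N).filter
      fun m => ∃ d ∈ Ioc (cutLow B N) (cutHigh B N), d ∣ m := ⟨_, rfl⟩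
  rw [← hA] at hw
  have hlog : ∀ m ∈ primeShifts b N, |Real.log (((b - m).natAbs : ℕ) : ℝ)| ≤ 2 * L := by
    intro m hm
    rw [primeShifts, mem_filter, mem_Icc] at hm
    rw [abs_of_nonneg (Real.log_natCast_nonneg _)]
    have h1 : (((b - (m : ℤ)).natAbs : ℕ) : ℝ) ≤ 2 * (N : ℝ) := by
      exact_mod_cast (show (b - (m : ℤ)).natAbs ≤ 2 * N by omega)
    refine (Real.log_le_log (Nat.cast_pos.2 hm.2.pos) h1).trans ?_
    rw [Real.log_mul two_ne_zero hN0.ne', ← hLd]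
    linarith [Real.log_two_lt_d9]
  refine (abs_sum_le_sum_abs _ _).trans ((sum_le_sum (g := fun m => 2 * L * |W m|)
    fun m hm => ?_).trans ((sum_le_sum_of_subset_of_nonneg hS fun m _ _ => by
      exact mul_nonneg (by linarith) (abs_nonneg _)).trans ?_))
  · rw [abs_mul]
    exact mul_le_mul_of_nonneg_right (hlog m (hS hm)) (abs_nonneg _)
  rw [← mul_sum, ← sum_filter_add_sum_filter_not (primeShifts b N)
    (fun m => ∃ d ∈ Ioc (cutLow B N) (cutHigh B N), d ∣ m) fun m => |W m|, ← hA,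
    sum_eq_zero (s := (primeShifts b N).filter fun m => ¬ _) fun m hm => ?_, add_zero]
  swap
  · rw [abs_eq_zero, hW, windowSum]
    rw [filter_eq_empty_iff.2 fun d hd hdm => (mem_filter.1 hm).2 ⟨d, hd, hdm⟩, sum_empty]
  have hcs := Real.sum_mul_le_sqrt_mul_sqrt A (fun _ => (1 : ℝ)) fun m => |W m|
  simp only [one_mul, one_pow, sum_const, nsmul_one, sq_abs] at hcs
  have hsq : ∑ m ∈ A, W m ^ 2 ≤ ∑ m ∈ primeShifts b N, W m ^ 2 :=
    sum_le_sum_of_subset_of_nonneg (hA ▸ filter_subset _ _) fun m _ _ => sq_nonneg _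
  refine (mul_le_mul_of_nonneg_left hcs (by linarith)).trans ?_
  rw [← Real.sqrt_mul (Nat.cast_nonneg _)]
  have h1 : (#A : ℝ) * ∑ m ∈ A, W m ^ 2 ≤
      (N / L * Real.exp (-(1 / 400) * l)) * (C * N / L * l ^ 3) :=
    mul_le_mul hw (hsq.trans hm) (sum_nonneg fun m _ => sq_nonneg _) (by positivity)
  have h2 : Real.sqrt ((#A : ℝ) * ∑ m ∈ A, W m ^ 2) ≤
      N / (2 * L) * Real.exp (-(1 / 1000) * l) := by
    rw [Real.sqrt_le_left (by positivity)]
    refine h1.trans ?_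
    rw [mul_pow, ← Real.exp_nat_mul, Nat.cast_ofNat]
    have h3 : 4 * C * l ^ 3 * Real.exp (-(1 / 400) * l) ≤ Real.exp (2 * (-(1 / 1000) * l)) := by
      refine (mul_le_mul_of_nonneg_right hexp (Real.exp_pos _).le).trans (le_of_eq ?_)
      rw [← Real.exp_add]
      ring_nf
    refine le_trans (le_of_eq ?_)
      (mul_le_mul_of_nonneg_left h3 (sq_nonneg ((N : ℝ) / (2 * L))))
    ring
  refine (mul_le_mul_of_nonneg_left h2 (by linarith)).trans (le_of_eq ?_)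
  field_simp

end FA.PrimeTwoSquares
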