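import Fermat.Agent.Root.SummaryBombieriVinogradov
import Fermat.Agent.PrimeTwoSquares.DivisorWindow

/-!
# The small and the large divisors

For the `m ≤ N` with `|b - m|` prime in a class modulo `q`, the sum of `log |b - m|` is made of at
most three values of `θ (y; q, ·)`. By the theorem of Bombieri and A. I. Vinogradov the divisors
`d ≤ √N / (log N) ^ B` give the main term and those above `√N (log N) ^ B` cancel, as the two
classes of the cofactor modulo `4` occur equally often.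
-/

set_option autoImplicit false

noncomputable section

namespace FA.PrimeTwoSquares

open Finset Filter

/-- `θ (y; q, c)` for an integer class. -/
def thetaClass (y q : ℕ) (c : ℤ) : ℝ :=
  ∑ p ∈ (Icc 1 y).filter (fun p : ℕ => p.Prime ∧ (q : ℤ) ∣ c - p), Real.log p

theorem coprime_toNat_emod {q : ℕ} {c : ℤ} (hq : 0 < q) (h : Int.gcd c q = 1) :
    Nat.Coprime (c % (q : ℤ)).toNat q := by
  have e : (((c % (q : ℤ)).toNat : ℕ) : ℤ) = c % q :=
    Int.toNat_of_nonneg (Int.emod_nonneg _ (by omega))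
  rw [← Nat.isCoprime_iff_coprime, e, Int.emod_def, sub_eq_add_neg, ← mul_neg]
  exact (Int.isCoprime_iff_gcd_eq_one.2 h).add_mul_left_left _

/-- A class not prime to `q` holds at most the prime divisors of `q`. -/
theorem thetaClass_le_log {q : ℕ} (hq : 0 < q) {c : ℤ} (h : Int.gcd c q ≠ 1) (y : ℕ) :
    thetaClass y q c ≤ Real.log q := by
  obtain ⟨r, hr, hrd⟩ := Nat.exists_prime_and_dvd h
  have hrc : (r : ℤ) ∣ c := (Int.natCast_dvd_natCast.2 hrd).trans (Int.gcd_dvd_left c q)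
  have hrq : r ∣ q := Int.natCast_dvd_natCast.1
    ((Int.natCast_dvd_natCast.2 hrd).trans (Int.gcd_dvd_right c q))
  rw [thetaClass]
  refine (sum_le_sum_of_subset_of_nonneg (t := {r}) (fun p hp => ?_)
    fun p _ _ => Real.log_natCast_nonneg p).trans ?_
  · rw [mem_filter] at hp
    have h1 : (r : ℤ) ∣ c - p := (Int.natCast_dvd_natCast.2 hrq).trans hp.2.2
    have h2 : r ∣ p := Int.natCast_dvd_natCast.1 ((dvd_sub_right hrc).1 h1)
    exact mem_singleton.2 ((Nat.prime_dvd_prime_iff_eq hr hp.2.1).1 h2).symm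
  · rw [sum_singleton]
    exact Real.log_le_log (Nat.cast_pos.2 hr.pos) (Nat.cast_le.2 (Nat.le_of_dvd hq hrq))

theorem thetaClass_nonneg (y q : ℕ) (c : ℤ) : 0 ≤ thetaClass y q c :=
  sum_nonneg fun _ _ => Real.log_natCast_nonneg _

/-- The theorem of Bombieri and Vinogradov for integer classes. -/
theorem exists_bv_class (A : ℕ) : ∃ (B : ℕ) (C : ℝ), 0 < C ∧ ∀ x : ℕ, 3 ≤ x →
    ∀ Q : ℕ, (Q : ℝ) ≤ Real.sqrt x / Real.log x ^ B → ∀ (y : ℕ → ℕ) (c : ℕ → ℤ),
      (∀ q, y q ≤ x) →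
      ∑ q ∈ (Icc 1 Q).filter (fun q => Int.gcd (c q) q = 1),
        |thetaClass (y q) q (c q) - (y q : ℝ) / q.totient| ≤ C * ((x : ℝ) / Real.log x ^ A) := by
  obtain ⟨B, C, hC, h⟩ := BombieriVinogradov.Summary.bombieri_vinogradov_theta A
  refine ⟨B, C, hC, fun x hx Q hQ y c hy => ?_⟩
  obtain ⟨a, ha⟩ : ∃ a : ℕ → ℕ,
      a = fun q => if Int.gcd (c q) q = 1 then (c q % (q : ℤ)).toNat else 1 := ⟨_, rfl⟩
  refine le_trans ?_ (h x hx Q hQ y a fun q hq => ⟨hy q, ?_⟩)
  · refine le_trans (le_of_eq (sum_congr rfl fun q hq => ?_))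
      (sum_le_sum_of_subset_of_nonneg (filter_subset _ _) fun q _ _ => abs_nonneg _)
    rw [mem_filter, mem_Icc] at hq
    rw [thetaClass]
    congr 3
    refine filter_congr fun p _ => and_congr_right fun _ => ?_
    simp only [ha, if_pos hq.2]
    rw [Nat.modEq_iff_dvd, Int.toNat_of_nonneg (Int.emod_nonneg _ (by omega))]
    have h2 : (q : ℤ) ∣ c q - c q % (q : ℤ) := Int.dvd_self_sub_emod
    rw [show c q % (q : ℤ) - (p : ℤ) = (c q - p) - (c q - c q % (q : ℤ)) by ring]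
    exact (dvd_sub_left h2).symm
  · simp only [ha]
    split_ifs with hg
    · exact coprime_toNat_emod (mem_Icc.1 hq).1 hg
    · exact Nat.coprime_one_left q

theorem sum_shift_class {b : ℤ} {N K q : ℕ} {r : ℤ} (hb : b.natAbs ≤ N) (hK : K ≤ N) :
    ∑ m ∈ (primeShifts b N).filter (fun m : ℕ => K < m ∧ (q : ℤ) ∣ (m : ℤ) - r),
        Real.log ((b - m).natAbs : ℕ) =
      thetaClass (b - K - 1).toNat q (b - r) +
        (thetaClass ((N : ℤ) - b).toNat q (r - b) - thetaClass ((K : ℤ) - b).toNat q (r - b)) := by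
  rw [← sum_filter_add_sum_filter_not _ (fun m : ℕ => (m : ℤ) < b)]
  congr 1
  · rw [thetaClass]
    refine sum_nbij' (fun m : ℕ => (b - m).natAbs) (fun p : ℕ => (b - p).toNat) ?_ ?_ ?_ ?_ ?_
    · intro m hm
      simp only [primeShifts, mem_filter, mem_Icc] at hm ⊢
      obtain ⟨⟨⟨⟨h1, h2⟩, hp⟩, h3, hd⟩, h4⟩ := hm
      refine ⟨⟨hp.one_le, by omega⟩, hp, ?_⟩
      rw [Int.natAbs_of_nonneg (by omega), show b - r - (b - (m : ℤ)) = (m : ℤ) - r by ring]
      exact hd
    · intro p hp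
      simp only [primeShifts, mem_filter, mem_Icc] at hp ⊢
      obtain ⟨⟨h1, h2⟩, hpp, hd⟩ := hp
      have e : ((b - (p : ℤ)).toNat : ℤ) = b - p := Int.toNat_of_nonneg (by omega)
      refine ⟨⟨⟨⟨by omega, by omega⟩, ?_⟩, by omega, ?_⟩, by omega⟩
      · rw [e, sub_sub_cancel, Int.natAbs_natCast]
        exact hpp
      · rw [e, show b - (p : ℤ) - r = b - r - p by ring]
        exact hd
    · intro m hm
      simp only [mem_filter] at hm
      omega
    · intro p hp
      simp only [mem_filter, mem_Icc] at hp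
      omega
    · intro m hm
      rfl
  · rw [thetaClass, thetaClass, eq_sub_iff_add_eq]
    have hsplit : (Icc 1 ((N : ℤ) - b).toNat).filter
        (fun p : ℕ => p.Prime ∧ (q : ℤ) ∣ r - b - p) =
        (Ioc ((K : ℤ) - b).toNat ((N : ℤ) - b).toNat).filter
          (fun p : ℕ => p.Prime ∧ (q : ℤ) ∣ r - b - p) ∪
        (Icc 1 ((K : ℤ) - b).toNat).filter (fun p : ℕ => p.Prime ∧ (q : ℤ) ∣ r - b - p) := by
      rw [← filter_union]
      congr 1
      ext p
      simp only [mem_union, mem_Icc, mem_Ioc]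
      omega
    rw [hsplit, sum_union]
    swap
    · rw [disjoint_left]
      intro p hp hp'
      simp only [mem_filter, mem_Icc, mem_Ioc] at hp hp'
      omega
    congr 1
    refine sum_nbij' (fun m : ℕ => (b - m).natAbs) (fun p : ℕ => (b + p).toNat) ?_ ?_ ?_ ?_ ?_
    · intro m hm
      simp only [primeShifts, mem_filter, mem_Icc] at hm
      obtain ⟨⟨⟨⟨h1, h2⟩, hp⟩, h3, hd⟩, h4⟩ := hm
      simp only [mem_filter, mem_Ioc]
      have h5 := hp.one_le
      refine ⟨⟨by omega, by omega⟩, hp, ?_⟩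
      rw [Int.ofNat_natAbs_of_nonpos (by omega), show r - b - -(b - (m : ℤ)) =
          -((m : ℤ) - r) by ring,
        dvd_neg]
      exact hd
    · intro p hp
      simp only [mem_filter, mem_Ioc] at hp
      simp only [primeShifts, mem_filter, mem_Icc]
      obtain ⟨⟨h1, h2⟩, hpp, hd⟩ := hp
      have e : ((b + (p : ℤ)).toNat : ℤ) = b + p := Int.toNat_of_nonneg (by omega)
      refine ⟨⟨⟨⟨by omega, by omega⟩, ?_⟩, by omega, ?_⟩, by omega⟩
      · rw [e, show b - (b + (p : ℤ)) = -(p : ℤ) by ring, Int.natAbs_neg, Int.natAbs_natCast]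
        exact hpp
      · rw [e, show b + (p : ℤ) - r = -(r - b - p) by ring, dvd_neg]
        exact hd
    · intro m hm
      simp only [primeShifts, mem_filter, mem_Icc] at hm
      omega
    · intro p hp
      simp only [mem_filter, mem_Ioc] at hp
      omega
    · intro m hm
      rfl

theorem gcd_shift_iff (c : ℤ) (e : ℕ) :
    Int.gcd (c + e) ((4 * e : ℕ) : ℤ) = 1 ↔ Int.gcd (c + 3 * e) ((4 * e : ℕ) : ℤ) = 1 := by
  have key : ∀ u v : ℤ, (u - v) % 2 = 0 → (e : ℤ) ∣ u - v →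
      Int.gcd u ((4 * e : ℕ) : ℤ) = 1 → Int.gcd v ((4 * e : ℕ) : ℤ) = 1 := by
    intro u v h2 he hu
    by_contra hv
    obtain ⟨r, hr, hrd⟩ := Nat.exists_prime_and_dvd hv
    have hrv : (r : ℤ) ∣ v := (Int.natCast_dvd_natCast.2 hrd).trans (Int.gcd_dvd_left _ _)
    have hr4 : (r : ℤ) ∣ ((4 * e : ℕ) : ℤ) :=
      (Int.natCast_dvd_natCast.2 hrd).trans (Int.gcd_dvd_right _ _)
    have hru : (r : ℤ) ∣ u := by
      rcases (Nat.Prime.dvd_mul hr).1 (Int.natCast_dvd_natCast.1 hr4) with h | h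
      · have hr2 : r = 2 := (Nat.prime_dvd_prime_iff_eq hr Nat.prime_two).1
          (hr.dvd_of_dvd_pow (n := 2) (by norm_num [h]))
        subst hr2
        push_cast at hrv ⊢
        omega
      · have h' : (r : ℤ) ∣ u - v := (Int.natCast_dvd_natCast.2 h).trans he
        simpa using h'.add hrv
    have h1 := Int.dvd_coe_gcd hru hr4
    rw [hu] at h1
    exact hr.not_dvd_one (Int.natCast_dvd_natCast.1 h1)
  refine ⟨key _ _ (by omega) ⟨-2, by ring⟩, key _ _ (by omega) ⟨2, by ring⟩⟩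

/-- The two classes of the cofactor. -/
theorem exists_pair_bound (A : ℕ) : ∃ (B : ℕ) (C : ℝ), 0 < C ∧ ∀ x : ℕ, 3 ≤ x →
    ∀ E : ℕ, ((4 * E : ℕ) : ℝ) ≤ Real.sqrt x / Real.log x ^ B → ∀ (y : ℕ → ℕ) (c : ℤ),
      (∀ e, y e ≤ x) →
      ∑ e ∈ Icc 1 E, |thetaClass (y e) (4 * e) (c + e) - thetaClass (y e) (4 * e) (c + 3 * e)| ≤
        C * ((x : ℝ) / Real.log x ^ A) + 2 * E * Real.log (4 * E) := by
  obtain ⟨B, C, hC, h⟩ := exists_bv_class A
  refine ⟨B, 2 * C, by positivity, fun x hx E hE y c hy => ?_⟩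
  obtain ⟨good, hgood⟩ : ∃ good, good = (Icc 1 E).filter
      fun e : ℕ => Int.gcd (c + e) ((4 * e : ℕ) : ℤ) = 1 := ⟨_, rfl⟩
  have hone : ∀ j : ℤ, (∀ e : ℕ, e ∈ good → Int.gcd (c + j * e) ((4 * e : ℕ) : ℤ) = 1) →
      ∑ e ∈ good, |thetaClass (y e) (4 * e) (c + j * e) - (y e : ℝ) / (4 * e).totient| ≤
        C * ((x : ℝ) / Real.log x ^ A) := by
    intro j hj
    refine le_trans ?_ (h x hx (4 * E) hE (fun q => y (q / 4))
      (fun q => c + j * ((q / 4 : ℕ) : ℤ)) fun q => hy _)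
    refine le_trans (le_of_eq ?_) (sum_le_sum_of_subset_of_nonneg
      (s := good.image fun e => 4 * e) (fun q hq => ?_) fun q _ _ => abs_nonneg _)
    · rw [sum_image fun u _ v _ huv => by omega]
      refine sum_congr rfl fun e _ => ?_
      rw [Nat.mul_div_cancel_left e (by norm_num : 0 < 4)]
    · obtain ⟨e, he, rfl⟩ := mem_image.1 hq
      have he' := mem_filter.1 (hgood ▸ he)
      rw [mem_filter, mem_Icc, Nat.mul_div_cancel_left e (by norm_num : 0 < 4)]
      exact ⟨by have := mem_Icc.1 he'.1; omega, hj e he⟩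
  have h1 := hone 1 fun e he => by
    rw [hgood, mem_filter] at he
    rw [one_mul]
    exact he.2
  have h3 := hone 3 fun e he => by
    rw [hgood, mem_filter] at he
    exact (gcd_shift_iff c e).1 he.2
  simp only [one_mul] at h1
  rw [← sum_filter_add_sum_filter_not (Icc 1 E)
    (fun e : ℕ => Int.gcd (c + e) ((4 * e : ℕ) : ℤ) = 1), ← hgood]
  refine add_le_add ?_ ?_
  · refine (sum_le_sum (g := fun e =>
      |thetaClass (y e) (4 * e) (c + e) - (y e : ℝ) / (4 * e).totient| +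
        |thetaClass (y e) (4 * e) (c + 3 * e) - (y e : ℝ) / (4 * e).totient|)
      fun e _ => ?_).trans ?_
    · refine le_trans (le_of_eq (congrArg _ ?_)) (abs_sub _ _)
      ring
    · rw [sum_add_distrib, two_mul C, add_mul]
      exact add_le_add h1 h3
  · refine (sum_le_card_nsmul _ _ (2 * Real.log (4 * E)) fun e he => ?_).trans ?_
    · rw [mem_filter, mem_Icc] at he
      have hq : 0 < 4 * e := by omega
      have hl1 : Real.log ((4 * e : ℕ) : ℝ) ≤ Real.log (4 * E) := by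
        refine Real.log_le_log (Nat.cast_pos.2 hq) ?_
        push_cast
        linarith [(Nat.cast_le (α := ℝ)).2 he.1.2]
      have ha := (thetaClass_le_log hq he.2 (y e)).trans hl1
      have hb := (thetaClass_le_log hq (fun hg => he.2 ((gcd_shift_iff c e).2 hg)) (y e)).trans hl1
      have := thetaClass_nonneg (y e) (4 * e) (c + e)
      have := thetaClass_nonneg (y e) (4 * e) (c + 3 * e)
      rw [abs_le]
      constructor <;> linarith
    · rw [nsmul_eq_mul, mul_comm 2 (E : ℝ), mul_assoc]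
      refine mul_le_mul_of_nonneg_right (Nat.cast_le.2 ((card_filter_le _ _).trans
        (by rw [Nat.card_Icc]; omega))) ?_
      rcases Nat.eq_zero_or_pos E with rfl | hE0
      · simp
      · exact mul_nonneg zero_le_two (Real.log_nonneg (by
          linarith [(Nat.one_le_cast (α := ℝ)).2 hE0]))

/-- The classes `c` for the small divisors. -/
theorem exists_single_bound (A : ℕ) : ∃ (B : ℕ) (C : ℝ), 0 < C ∧ ∀ x : ℕ, 3 ≤ x →
    ∀ D : ℕ, (D : ℝ) ≤ Real.sqrt x / Real.log x ^ B → ∀ (y : ℕ) (c : ℤ), y ≤ x →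
      ∑ d ∈ Icc 1 D, |thetaClass y d c -
          (if d.Coprime c.natAbs then (y : ℝ) / d.totient else 0)| ≤
        C * ((x : ℝ) / Real.log x ^ A) + D * Real.log D := by
  obtain ⟨B, C, hC, h⟩ := exists_bv_class A
  refine ⟨B, C, hC, fun x hx D hD y c hy => ?_⟩
  have hiff : ∀ d : ℕ, Int.gcd c d = 1 ↔ d.Coprime c.natAbs := fun d => by
    rw [Int.gcd, Int.natAbs_natCast, Nat.coprime_iff_gcd_eq_one, Nat.gcd_comm]
  rw [← sum_filter_add_sum_filter_not (Icc 1 D) (fun d : ℕ => Int.gcd c d = 1)]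
  refine add_le_add ?_ ?_
  · refine le_of_eq_of_le (sum_congr rfl fun d hd => ?_)
      (h x hx D hD (fun _ => y) (fun _ => c) fun _ => hy)
    rw [if_pos ((hiff d).1 (mem_filter.1 hd).2)]
  · refine (sum_le_card_nsmul _ _ (Real.log D) fun d hd => ?_).trans ?_
    · rw [mem_filter, mem_Icc] at hd
      rw [if_neg fun hc => hd.2 ((hiff d).2 hc), sub_zero, abs_of_nonneg (thetaClass_nonneg _ _ _)]
      exact (thetaClass_le_log hd.1.1 hd.2 y).trans
        (Real.log_le_log (Nat.cast_pos.2 hd.1.1) (Nat.cast_le.2 hd.1.2))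
    · rw [nsmul_eq_mul]
      exact mul_le_mul_of_nonneg_right (Nat.cast_le.2 ((card_filter_le _ _).trans
        (by rw [Nat.card_Icc]; omega))) (Real.log_natCast_nonneg D)

/-- The sum over the divisors `≤ D`. -/
theorem small_range_eq (b : ℤ) {N : ℕ} (D : ℕ) (hb : b.natAbs ≤ N) :
    ∑ m ∈ primeShifts b N, Real.log ((b - m).natAbs : ℕ) *
        ∑ d ∈ m.divisors.filter (· ≤ D), chi d =
      ∑ d ∈ Icc 1 D, chi d * (thetaClass (b - 1).toNat d b +
        (thetaClass ((N : ℤ) - b).toNat d (-b) - thetaClass (-b).toNat d (-b))) := by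
  have e : ∀ m ∈ primeShifts b N, Real.log ((b - m).natAbs : ℕ) *
      ∑ d ∈ m.divisors.filter (· ≤ D), chi d =
      ∑ d ∈ Icc 1 D, if d ∣ m then chi d * Real.log ((b - m).natAbs : ℕ) else 0 := by
    intro m hm
    rw [primeShifts, mem_filter, mem_Icc] at hm
    rw [mul_sum, ← sum_filter]
    refine sum_congr ?_ fun d _ => mul_comm _ _
    ext d
    simp only [mem_filter, Nat.mem_divisors, mem_Icc]
    exact ⟨fun h => ⟨⟨Nat.pos_of_dvd_of_pos h.1.1 (by omega), h.2⟩, h.1.1⟩,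
      fun h => ⟨⟨h.2, by omega⟩, h.1.2⟩⟩
  rw [sum_congr rfl e, sum_comm]
  refine sum_congr rfl fun d _ => ?_
  rw [← sum_filter, ← mul_sum]
  congr 1
  have h := sum_shift_class (K := 0) (q := d) (r := 0) hb (Nat.zero_le N)
  simp only [Nat.cast_zero, sub_zero, zero_sub] at h
  rw [← h]
  refine sum_congr (filter_congr fun m hm => ?_) fun _ _ => rfl
  rw [primeShifts, mem_filter, mem_Icc] at hm
  rw [Int.natCast_dvd_natCast]
  exact ⟨fun hd => ⟨hm.1.1, hd⟩, fun hd => hd.2⟩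

theorem chi_cofactor {e m : ℕ} (he : 0 < e) :
    (if e ∣ m then chi (m / e) else 0) =
      (if ((4 * e : ℕ) : ℤ) ∣ (m : ℤ) - e then (1 : ℝ) else 0) -
        (if ((4 * e : ℕ) : ℤ) ∣ (m : ℤ) - 3 * e then (1 : ℝ) else 0) := by
  by_cases hd : e ∣ m
  · obtain ⟨t, rfl⟩ := hd
    rw [if_pos (dvd_mul_right e t), Nat.mul_div_cancel_left t he, chi_eq_ite]
    have hiff : ∀ j : ℤ, ((4 * e : ℕ) : ℤ) ∣ ((e * t : ℕ) : ℤ) - j * e ↔ (4 : ℤ) ∣ (t : ℤ) - j := by
      intro j
      push_cast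
      rw [show (e : ℤ) * t - j * e = ((t : ℤ) - j) * e by ring,
        mul_dvd_mul_iff_right (by exact_mod_cast he.ne')]
    rw [if_congr (show ((4 * e : ℕ) : ℤ) ∣ ((e * t : ℕ) : ℤ) - e ↔ (4 : ℤ) ∣ (t : ℤ) - 1 by
      rw [← hiff 1, one_mul]) rfl rfl, if_congr (hiff 3) rfl rfl]
    split_ifs <;> first | (exfalso; omega) | norm_num
  · rw [if_neg hd, if_neg, if_neg, sub_zero]
    · intro h
      refine hd (Int.natCast_dvd_natCast.1 ?_)
      have h' : (e : ℤ) ∣ (m : ℤ) - 3 * e :=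
        (Int.natCast_dvd_natCast.2 (dvd_mul_left e 4)).trans h
      exact (dvd_sub_left (dvd_mul_left (e : ℤ) 3)).1 h'
    · intro h
      refine hd (Int.natCast_dvd_natCast.1 ?_)
      have h' : (e : ℤ) ∣ (m : ℤ) - e := (Int.natCast_dvd_natCast.2 (dvd_mul_left e 4)).trans h
      exact (dvd_sub_left (dvd_refl (e : ℤ))).1 h'

/-- The sum over the divisors `> D`. -/
theorem large_range_eq (b : ℤ) {N : ℕ} (D : ℕ) (hb : b.natAbs ≤ N) :
    ∑ m ∈ primeShifts b N, Real.log ((b - m).natAbs : ℕ) *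
        ∑ d ∈ m.divisors.filter (D < ·), chi d =
      ∑ e ∈ Icc 1 (N / (D + 1)),
        (-(thetaClass (b - ((e * D : ℕ) : ℤ) - 1).toNat (4 * e) (b + e) -
            thetaClass (b - ((e * D : ℕ) : ℤ) - 1).toNat (4 * e) (b + 3 * e)) +
          ((thetaClass ((N : ℤ) - b).toNat (4 * e) (-b + e) -
              thetaClass ((N : ℤ) - b).toNat (4 * e) (-b + 3 * e)) -
            (thetaClass (((e * D : ℕ) : ℤ) - b).toNat (4 * e) (-b + e) -
              thetaClass (((e * D : ℕ) : ℤ) - b).toNat (4 * e) (-b + 3 * e)))) := by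
  have hcongr : ∀ (y q : ℕ) (c c' : ℤ), (q : ℤ) ∣ c - c' →
      thetaClass y q c = thetaClass y q c' := by
    intro y q c c' hcc
    rw [thetaClass, thetaClass]
    refine sum_congr (filter_congr fun p _ => and_congr_right fun _ => ?_) fun _ _ => rfl
    rw [show c - (p : ℤ) = (c - c') + (c' - p) by ring]
    exact dvd_add_right hcc
  have e1 : ∀ m ∈ primeShifts b N, Real.log ((b - m).natAbs : ℕ) *
      ∑ d ∈ m.divisors.filter (D < ·), chi d = ∑ e ∈ Icc 1 (N / (D + 1)),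
        if e * D < m then Real.log ((b - m).natAbs : ℕ) *
          (if e ∣ m then chi (m / e) else 0) else 0 := by
    intro m hm
    rw [primeShifts, mem_filter, mem_Icc] at hm
    have hm0 : 0 < m := by omega
    simp only [mul_ite, mul_zero, ← ite_and, mul_sum]
    rw [← sum_filter]
    refine sum_nbij' (fun d => m / d) (fun e => m / e) ?_ ?_ ?_ ?_ ?_
    · intro d hd
      simp only [mem_filter, Nat.mem_divisors, mem_Icc] at hd ⊢
      obtain ⟨⟨⟨e, rfl⟩, -⟩, hDd⟩ := hd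
      have hd0 : 0 < d := by omega
      have he0 : 0 < e := Nat.pos_of_mul_pos_left hm0
      rw [Nat.mul_div_cancel_left e hd0, Nat.le_div_iff_mul_le (Nat.succ_pos D)]
      refine ⟨⟨he0, le_trans (Nat.mul_le_mul_left e hDd) (mul_comm d e ▸ hm.1.2)⟩, ?_,
        dvd_mul_left e d⟩
      rw [mul_comm d e]
      exact Nat.mul_lt_mul_of_pos_left hDd he0
    · intro e he
      simp only [mem_filter, Nat.mem_divisors, mem_Icc] at he ⊢
      obtain ⟨⟨he0, -⟩, hlt, ⟨d, rfl⟩⟩ := he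
      rw [Nat.mul_div_cancel_left d he0]
      exact ⟨⟨dvd_mul_left d e, hm0.ne'⟩, Nat.lt_of_mul_lt_mul_left hlt⟩
    · intro d hd
      simp only [mem_filter, Nat.mem_divisors] at hd
      exact Nat.div_div_self hd.1.1 hd.1.2
    · intro e he
      simp only [mem_filter, mem_Icc] at he
      exact Nat.div_div_self he.2.2 hm0.ne'
    · intro d hd
      simp only [mem_filter, Nat.mem_divisors] at hd
      rw [Nat.div_div_self hd.1.1 hd.1.2]
  rw [sum_congr rfl e1, sum_comm]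
  refine sum_congr rfl fun e he => ?_
  rw [mem_Icc] at he
  have hK : e * D ≤ N :=
    (Nat.mul_le_mul_left e (Nat.le_succ D)).trans ((Nat.le_div_iff_mul_le (Nat.succ_pos D)).1 he.2)
  have h1 := sum_shift_class (q := 4 * e) (r := (e : ℤ)) hb hK
  have h3 := sum_shift_class (q := 4 * e) (r := 3 * (e : ℤ)) hb hK
  rw [hcongr _ _ (b - e) (b + 3 * e) ⟨-1, by push_cast; ring⟩,
    hcongr _ _ ((e : ℤ) - b) (-b + e) ⟨0, by ring⟩,
    hcongr _ _ ((e : ℤ) - b) (-b + e) ⟨0, by ring⟩] at h1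
  rw [hcongr _ _ (b - 3 * e) (b + e) ⟨-1, by push_cast; ring⟩,
    hcongr _ _ (3 * (e : ℤ) - b) (-b + 3 * e) ⟨0, by ring⟩,
    hcongr _ _ (3 * (e : ℤ) - b) (-b + 3 * e) ⟨0, by ring⟩] at h3
  rw [sum_congr rfl fun m _ => show (if e * D < m then Real.log ((b - m).natAbs : ℕ) *
      (if e ∣ m then chi (m / e) else 0) else 0) =
      (if e * D < m ∧ ((4 * e : ℕ) : ℤ) ∣ (m : ℤ) - e then
        Real.log ((b - m).natAbs : ℕ) else 0) -
      (if e * D < m ∧ ((4 * e : ℕ) : ℤ) ∣ (m : ℤ) - 3 * e then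
        Real.log ((b - m).natAbs : ℕ) else 0) by
    rw [chi_cofactor he.1]
    by_cases hlt : e * D < m
    · simp only [hlt, true_and, if_true]
      split_ifs <;> ring
    · simp [hlt], sum_sub_distrib, ← sum_filter, ← sum_filter, h1, h3]
  ring

end FA.PrimeTwoSquares
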