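import Fermat.Agent.PrimeTwoSquares.Oscillation
import Fermat.Agent.MertensThird.Extreme
import Fermat.Agent.SquarefreeShift.Count
import Mathlib.Analysis.SpecialFunctions.Log.Summable

/-!
# The singular series for a prime and two squares

`S n = π ∏_{p ∣ n} (1 - χ₄ (p) / p) ∏_{p ∤ n} (1 + χ₄ (p) / (p (p - 1)))`. The sum of
`χ₄ (d) / φ d` over the `d ≤ M` prime to `n` is `S n / 4` up to `O (2 ^ ω n / √M)`, and
`S n ≥ π φ n / (4 n)`.
-/

set_option autoImplicit false

noncomputable section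

namespace FA.PrimeTwoSquares

open Finset Filter
open scoped Topology

/-- The weight of `p` in the series for `n`. -/
def seriesWeight (n p : ℕ) : ℝ := if p ∣ n then -1 else invPred p

/-- The truncated product. -/
def seriesProd (n K : ℕ) : ℝ := ∏ p ∈ K.primesBelow, (1 + chi p * seriesWeight n p / p)

/-- The deviation of the Euler factor at a prime not dividing `n`. -/
def baseTerm (p : ℕ) : ℝ := if p.Prime then chi p * invPred p / p else 0

/-- The correction at the primes dividing `n`. -/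
def badFactor (n : ℕ) : ℝ :=
  ∏ p ∈ n.primeFactors, (1 - chi p / p) / (1 + chi p * invPred p / p)

/-- **The singular series.** -/
def twoSquareSeries (n : ℕ) : ℝ := Real.pi * (∏' p : ℕ, (1 + baseTerm p)) * badFactor n

theorem summable_abs_baseTerm : Summable fun p => ‖baseTerm p‖ := by
  refine Summable.of_nonneg_of_le (fun _ => norm_nonneg _) (fun p => ?_)
    ((Real.summable_nat_pow_inv.2 one_lt_two).mul_left 2)
  rw [baseTerm]
  split_ifs with hp
  swap
  · rw [norm_zero]
    positivity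
  have h2 : (2 : ℝ) ≤ p := Nat.ofNat_le_cast.2 hp.two_le
  rw [Real.norm_eq_abs, abs_div, abs_mul, Nat.abs_cast,
    abs_of_nonneg (show 0 ≤ invPred p from inv_nonneg.2 (by linarith))]
  refine (div_le_div_of_nonneg_right (mul_le_mul (abs_chi_le p) (invPred_le hp).1
    (inv_nonneg.2 (by linarith)) zero_le_one) (Nat.cast_nonneg p)).trans (le_of_eq ?_)
  field_simp

theorem tendsto_baseProd :
    Tendsto (fun K : ℕ => ∏ p ∈ K.primesBelow, (1 + chi p * invPred p / p)) atTop
      (𝓝 (∏' p : ℕ, (1 + baseTerm p))) := by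
  refine (Real.multipliable_one_add_of_summable
    summable_abs_baseTerm.of_norm).hasProd.tendsto_prod_nat.congr fun K => ?_
  rw [Nat.primesBelow, prod_filter]
  refine prod_congr rfl fun p _ => ?_
  rw [baseTerm]
  split_ifs <;> simp

theorem base_pos {p : ℕ} (hp : p.Prime) : 1 / 2 ≤ 1 + chi p * invPred p / p := by
  have h2 : (2 : ℝ) ≤ p := Nat.ofNat_le_cast.2 hp.two_le
  have h1 : |chi p * invPred p| ≤ 1 := by
    rw [abs_mul, abs_of_nonneg (show 0 ≤ invPred p from inv_nonneg.2 (by linarith))]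
    exact mul_le_one₀ (abs_chi_le p) (inv_nonneg.2 (by linarith)) (invPred_le hp).2
  rw [abs_le] at h1
  have h3 : -(1 / 2) ≤ chi p * invPred p / (p : ℝ) := by
    rw [le_div_iff₀ (by linarith)]
    nlinarith
  linarith

theorem seriesProd_eq {n K : ℕ} (hn : 0 < n) (hK : n < K) :
    seriesProd n K = (∏ p ∈ K.primesBelow, (1 + chi p * invPred p / p)) * badFactor n := by
  have hsub : n.primeFactors = K.primesBelow.filter (· ∣ n) := by
    ext p
    simp only [mem_filter, Nat.mem_primesBelow, Nat.mem_primeFactors]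
    exact ⟨fun h => ⟨⟨(Nat.le_of_dvd hn h.2.1).trans_lt hK, h.1⟩, h.2.1⟩,
      fun h => ⟨h.1.2, h.2, hn.ne'⟩⟩
  rw [seriesProd, badFactor, hsub, prod_filter, ← prod_mul_distrib]
  refine prod_congr rfl fun p hp => ?_
  rw [seriesWeight]
  split_ifs
  · rw [mul_div_cancel₀ _ (by linarith [base_pos (Nat.mem_primesBelow.1 hp).2] :
      (1 : ℝ) + chi p * invPred p / p ≠ 0)]
    ring
  · rw [mul_one]

theorem tendsto_seriesProd {n : ℕ} (hn : 0 < n) :
    Tendsto (fun K => Real.pi * seriesProd n K) atTop (𝓝 (twoSquareSeries n)) := by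
  refine ((tendsto_baseProd.const_mul Real.pi).mul_const (badFactor n)).congr' ?_
  filter_upwards [eventually_gt_atTop n] with K hK
  rw [seriesProd_eq hn hK, mul_assoc]

theorem twist_seriesWeight {n d K : ℕ} (hd : 0 < d) (hdK : d < K) :
    (if d.Coprime n then chi d / (d.totient : ℕ) else 0) =
      chi d * twist K.primesBelow (seriesWeight n) d / d := by
  have hT : K.primesBelow.filter (· ∣ d) = d.primeFactors := by
    ext p
    simp only [mem_filter, Nat.mem_primesBelow, Nat.mem_primeFactors]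
    exact ⟨fun h => ⟨h.1.2, h.2, hd.ne'⟩,
      fun h => ⟨⟨(Nat.le_of_dvd hd h.2.1).trans_lt hdK, h.1⟩, h.2.1⟩⟩
  rw [twist, hT]
  split_ifs with hco
  · have hφ : (0 : ℝ) < (d.totient : ℕ) := Nat.cast_pos.2 (Nat.totient_pos.2 hd)
    have h := congrArg (fun m : ℕ => (m : ℝ)) (Nat.totient_mul_prod_primeFactors d)
    simp only [Nat.cast_mul, Nat.cast_prod] at h
    have hp1 : ∀ p ∈ d.primeFactors, ((p - 1 : ℕ) : ℝ) = (p : ℝ) - 1 := fun p hp => by
      rw [Nat.cast_sub (Nat.prime_of_mem_primeFactors hp).one_le, Nat.cast_one]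
    rw [prod_congr rfl hp1] at h
    have hpos : ∀ p ∈ d.primeFactors, (0 : ℝ) < (p : ℝ) - 1 := fun p hp => by
      linarith [(Nat.ofNat_le_cast (α := ℝ)).2 (Nat.prime_of_mem_primeFactors hp).two_le]
    rw [prod_congr rfl fun p hp => show 1 + seriesWeight n p = (p : ℝ) / ((p : ℝ) - 1) by
      rw [seriesWeight, if_neg fun hpn => Nat.not_coprime_of_dvd_of_dvd
        (Nat.prime_of_mem_primeFactors hp).one_lt (Nat.dvd_of_mem_primeFactors hp) hpn hco,
        invPred]
      field_simp [(hpos p hp).ne']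
      ring, prod_div_distrib]
    have hprod : 0 < ∏ p ∈ d.primeFactors, ((p : ℝ) - 1) := prod_pos hpos
    field_simp
    linear_combination (-chi d) * h
  · obtain ⟨p, hp, hpd, hpn⟩ := Nat.Prime.not_coprime_iff_dvd.1 hco
    rw [prod_eq_zero (Nat.mem_primeFactors.2 ⟨hp, hpd, hd.ne'⟩)
      (by rw [seriesWeight, if_pos hpn, add_neg_cancel]), mul_zero, zero_div]

theorem prod_abs_seriesWeight_le {n : ℕ} (hn : 0 < n) (K : ℕ) :
    ∏ p ∈ K.primesBelow, (1 + |seriesWeight n p| / Real.sqrt p) ≤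
      eulerBound * (n.divisors.card : ℝ) := by
  have hp' : ∀ p ∈ K.primesBelow, p.Prime := fun p hp => (Nat.mem_primesBelow.1 hp).2
  rw [← prod_filter_mul_prod_filter_not K.primesBelow (· ∣ n), mul_comm]
  refine mul_le_mul ?_ ?_ (prod_nonneg fun p _ => by positivity) eulerBound_pos.le
  · refine le_trans (le_of_eq (prod_congr rfl fun p hp => ?_))
      (prod_invPred_sqrt_le fun p hp => hp' p (mem_filter.1 hp).1)
    rw [seriesWeight, if_neg (mem_filter.1 hp).2,
      abs_of_nonneg (invPred_nonneg hp' p (mem_filter.1 hp).1)]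
  · refine (prod_le_prod (g := fun _ => (2 : ℝ)) (fun p _ => by positivity) fun p hp => ?_).trans ?_
    · rw [seriesWeight, if_pos (mem_filter.1 hp).2, abs_neg, abs_one]
      have h1 : 1 / Real.sqrt p ≤ 1 := by
        rw [div_le_one (Real.sqrt_pos.2 (Nat.cast_pos.2 (hp' p (mem_filter.1 hp).1).pos))]
        exact Real.one_le_sqrt.2 (Nat.one_le_cast.2 (hp' p (mem_filter.1 hp).1).one_le)
      linarith
    · rw [prod_const]
      have h : (2 : ℕ) ^ #(K.primesBelow.filter (· ∣ n)) ≤ n.divisors.card := by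
        refine (Nat.pow_le_pow_right two_pos (card_le_card (t := n.primeFactors) fun p hp =>
          Nat.mem_primeFactors.2 ⟨hp' p (mem_filter.1 hp).1, (mem_filter.1 hp).2, hn.ne'⟩)).trans ?_
        rw [Nat.card_divisors hn.ne', ← prod_const]
        exact prod_le_prod' fun p hp => by
          have := Nat.Prime.factorization_pos_of_dvd (Nat.prime_of_mem_primeFactors hp) hn.ne'
            (Nat.dvd_of_mem_primeFactors hp)
          omega
      exact_mod_cast h

/-- **The partial sums of the series.** -/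
theorem abs_sum_sub_series_le {n : ℕ} (hn : 0 < n) (M : ℕ) :
    |∑ d ∈ Ioc 0 M, (if d.Coprime n then chi d / (d.totient : ℕ) else 0) -
        twoSquareSeries n / 4| ≤
      eulerBound * (n.divisors.card : ℝ) / Real.sqrt ((M : ℝ) + 1) := by
  refine le_of_tendsto ((tendsto_const_nhds.sub ((tendsto_seriesProd hn).div_const 4)).abs) ?_
  filter_upwards [eventually_gt_atTop M] with K hK
  have hp' : ∀ p ∈ K.primesBelow, p.Prime := fun p hp => (Nat.mem_primesBelow.1 hp).2
  rw [sum_congr rfl fun d hd => twist_seriesWeight (mem_Ioc.1 hd).1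
    ((mem_Ioc.1 hd).2.trans_lt hK)]
  simp_rw [twist_eq_sum hp', mul_sum, sum_div]
  rw [sum_comm, seriesProd, prod_one_add, mul_sum, sum_div, ← sum_sub_distrib]
  refine (abs_sum_le_sum_abs _ _).trans ((sum_le_sum (g := fun U : Finset ℕ =>
    (∏ p ∈ U, |seriesWeight n p| / Real.sqrt p) / Real.sqrt ((M : ℝ) + 1))
    fun U hU => ?_).trans ?_)
  · have hUT := mem_powerset.1 hU
    obtain ⟨m, hm⟩ : ∃ m, m = ∏ p ∈ U, p := ⟨_, rfl⟩
    have hm0 : 0 < m := hm ▸ prod_pos fun p hp => (hp' p (hUT hp)).pos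
    have hm0' : (0 : ℝ) < m := Nat.cast_pos.2 hm0
    obtain ⟨c, hc⟩ : ∃ c, c = ∏ p ∈ U, seriesWeight n p := ⟨_, rfl⟩
    have hchi : ∀ V : Finset ℕ, ∏ p ∈ V, chi p = chi (∏ p ∈ V, p) := fun V => by
      induction V using Finset.induction_on with
      | empty => simp [chi_one]
      | insert a V ha ih => rw [prod_insert ha, prod_insert ha, chi_mul, ih]
    simp_rw [mul_ite, mul_zero, ite_div, zero_div]
    rw [← sum_filter, ← hm, ← hc, sum_multiples hm0, Nat.zero_div, prod_div_distrib,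
      prod_div_distrib, prod_mul_distrib, hchi, ← hm, ← hc, ← Nat.cast_prod, ← hm, ← abs_prod,
      ← hc, ← Real.sqrt_prod _ fun p _ => Nat.cast_nonneg p, ← Nat.cast_prod, ← hm]
    have he : ∑ a ∈ Ioc 0 (M / m), chi (m * a) * c / ((m * a : ℕ) : ℝ) -
        Real.pi * (chi m * c / m) / 4 =
        c * (chi m / m) * (∑ a ∈ Ioc 0 (M / m), chi a / a - Real.pi / 4) := by
      rw [mul_sub, mul_sum]
      congr 1
      · refine sum_congr rfl fun a _ => ?_
        rw [chi_mul, Nat.cast_mul]
        ring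
      · ring
    rw [he, abs_mul, abs_mul, abs_div, Nat.abs_cast, mul_assoc]
    rw [div_div, div_eq_mul_one_div |c| (_ * _)]
    refine mul_le_mul_of_nonneg_left ((mul_le_mul (div_le_div_of_nonneg_right (abs_chi_le m)
      hm0'.le) (abs_sum_chi_div_sub_pi_le _) (abs_nonneg _) (by positivity)).trans ?_)
      (abs_nonneg c)
    rw [← Real.sqrt_mul hm0'.le, one_div_mul_one_div]
    refine one_div_le_one_div_of_le (Real.sqrt_pos.2 (by positivity)) ?_
    rw [Real.sqrt_le_left (by positivity)]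
    have h1 : (M : ℝ) + 1 ≤ (m : ℝ) * (((M / m : ℕ) : ℝ) + 1) := by
      rw [mul_comm (m : ℝ)]
      exact_mod_cast Nat.lt_mul_of_div_lt (Nat.lt_succ_self (M / m)) hm0
    have h2 : (m : ℝ) ≤ (m : ℝ) * (((M / m : ℕ) : ℝ) + 1) :=
      le_mul_of_one_le_right hm0'.le (le_add_of_nonneg_left (Nat.cast_nonneg _))
    rw [sq]
    exact mul_le_mul h1 h2 hm0'.le (by positivity) |>.trans_eq' (mul_comm _ _)
  · rw [← sum_div, ← prod_one_add]
    exact div_le_div_of_nonneg_right (prod_abs_seriesWeight_le hn K) (Real.sqrt_nonneg _)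

/-- **The series is not too small.** -/
theorem series_ge {n : ℕ} (hn : 0 < n) :
    Real.pi / 4 * ((n.totient : ℕ) / n) ≤ twoSquareSeries n := by
  have h1 := SquarefreeShift.tendsto_shiftProd (r := 2) le_rfl 1
  have h4 := SquarefreeShift.quarter_le_shiftDensity (r := 2) le_rfl 1
  refine le_trans ?_ (le_of_tendsto_of_tendsto
    ((h1.mul_const ((n.totient : ℝ) / n)).const_mul Real.pi) (tendsto_seriesProd hn) ?_)
  · rw [show Real.pi / 4 * ((n.totient : ℝ) / n) =
      Real.pi * (1 / 4 * ((n.totient : ℝ) / n)) by ring]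
    exact mul_le_mul_of_nonneg_left (mul_le_mul_of_nonneg_right h4 (by positivity)) Real.pi_pos.le
  filter_upwards [eventually_gt_atTop n] with K hK
  refine mul_le_mul_of_nonneg_left ?_ Real.pi_pos.le
  have hp' : ∀ p ∈ K.primesBelow, p.Prime := fun p hp => (Nat.mem_primesBelow.1 hp).2
  have hf : K.primesBelow.filter (fun p => ¬ p ∣ 1) = K.primesBelow :=
    filter_true_of_mem fun p hp h => (hp' p hp).not_dvd_one h
  have hsub : n.primeFactors = K.primesBelow.filter (· ∣ n) := by
    ext p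
    simp only [mem_filter, Nat.mem_primesBelow, Nat.mem_primeFactors]
    exact ⟨fun h => ⟨⟨(Nat.le_of_dvd hn h.2.1).trans_lt hK, h.1⟩, h.2.1⟩,
      fun h => ⟨h.1.2, h.2, hn.ne'⟩⟩
  rw [hf, MertensThird.totient_eq_prod, mul_div_cancel_left₀ _ (Nat.cast_ne_zero.2 hn.ne'), hsub,
    prod_filter, ← prod_mul_distrib, seriesProd]
  refine prod_le_prod (fun p hp => ?_) fun p hp => ?_
  · have h2 : (2 : ℝ) ≤ p := Nat.ofNat_le_cast.2 (hp' p hp).two_le
    have hA : 0 ≤ 1 - 1 / ((p : ℝ) ^ (2 - 1) * ((p : ℝ) - 1)) := by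
      rw [sub_nonneg, div_le_one (by norm_num; nlinarith)]
      norm_num
      nlinarith
    refine mul_nonneg hA ?_
    split_ifs
    · exact MertensThird.one_sub_inv_prime_nonneg (S := {p}) (by simp [hp' p hp]) p (by simp)
    · exact zero_le_one
  · have h2 : (2 : ℝ) ≤ p := Nat.ofNat_le_cast.2 (hp' p hp).two_le
    have hc := abs_le.1 (abs_chi_le p)
    rw [seriesWeight, pow_one]
    have hA : 1 - 1 / ((p : ℝ) * ((p : ℝ) - 1)) ≤ 1 :=
      sub_le_self _ (div_nonneg zero_le_one (mul_nonneg (by linarith) (by linarith)))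
    split_ifs
    · have hB : (0 : ℝ) ≤ 1 - (p : ℝ)⁻¹ := by
        rw [sub_nonneg]
        exact inv_le_one_of_one_le₀ (by linarith)
      refine (mul_le_of_le_one_left hB hA).trans ?_
      rw [mul_neg, mul_one, neg_div, ← sub_eq_add_neg, inv_eq_one_div]
      exact sub_le_sub_left (div_le_div_of_nonneg_right hc.2 (by linarith)) _
    · rw [mul_one, invPred]
      have hpp : 0 ≤ ((p : ℝ) - 1)⁻¹ / p := div_nonneg (inv_nonneg.2 (by linarith)) (by linarith)
      rw [show (1 : ℝ) / ((p : ℝ) * ((p : ℝ) - 1)) = ((p : ℝ) - 1)⁻¹ / p by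
        rw [inv_eq_one_div, div_div, mul_comm], mul_div_assoc]
      nlinarith [mul_le_mul_of_nonneg_right hc.1 hpp]

end FA.PrimeTwoSquares
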