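import Fermat.Agent.PrimeTwoSquares.Middle
import Fermat.Agent.PrimeTwoSquares.Ranges
import Fermat.Agent.PrimeTwoSquares.Series

/-!
# The weighted asymptotic formula

The sum of `log |b - m| ∑_{d ∣ m} χ₄ d` over the `m ≤ N` with `|b - m|` prime is
`S |b| N / 4 + O (N / (log N) ^ (1/2000))`, uniformly in `b ≠ 0`, `|b| ≤ N`.
-/

set_option autoImplicit false

noncomputable section

namespace FA.PrimeTwoSquares

open Finset Filter

/-- `∑_{d ∣ m} χ₄ d`, a quarter of the number of representations as two squares. -/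
def chiDivisorSum (m : ℕ) : ℝ := ∑ d ∈ m.divisors, chi d

/-- The weighted sum. -/
def weightedSum (b : ℤ) (N : ℕ) : ℝ :=
  ∑ m ∈ primeShifts b N, Real.log ((b - m).natAbs : ℕ) * chiDivisorSum m

theorem chiDivisorSum_split {D₁ D₂ : ℕ} (h : D₁ ≤ D₂) {m : ℕ} (hm : 0 < m) :
    chiDivisorSum m = ∑ d ∈ m.divisors.filter (· ≤ D₁), chi d + windowSum D₁ D₂ m +
      ∑ d ∈ m.divisors.filter (D₂ < ·), chi d := by
  rw [chiDivisorSum, ← sum_filter_add_sum_filter_not m.divisors (· ≤ D₁), add_assoc]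
  congr 1
  rw [← sum_filter_add_sum_filter_not (m.divisors.filter fun d => ¬ d ≤ D₁) (· ≤ D₂)]
  congr 1 <;> rw [filter_filter]
  · rw [windowSum]
    refine sum_congr ?_ fun _ _ => rfl
    ext d
    simp only [mem_filter, Nat.mem_divisors, mem_Ioc, not_le]
    exact ⟨fun h => ⟨h.2, h.1.1⟩, fun h => ⟨⟨h.2, hm.ne'⟩, h.1⟩⟩
  · refine sum_congr (filter_congr fun d _ => ?_) fun _ _ => rfl
    omega

theorem small_main_le {b : ℤ} {N D : ℕ} (hb : b.natAbs ≤ N) (hb0 : b ≠ 0) {X : ℝ}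
    (hbv : ∀ (y : ℕ) (c : ℤ), y ≤ 2 * N → ∑ d ∈ Icc 1 D,
      |thetaClass y d c - (if d.Coprime c.natAbs then (y : ℝ) / d.totient else 0)| ≤ X) :
    |∑ m ∈ primeShifts b N, Real.log ((b - m).natAbs : ℕ) *
        (∑ d ∈ m.divisors.filter (· ≤ D), chi d) - N * (twoSquareSeries b.natAbs / 4)| ≤
      3 * X + D + N * (eulerBound * (b.natAbs.divisors.card : ℝ) / Real.sqrt ((D : ℝ) + 1)) := by
  obtain ⟨n, hn⟩ : ∃ n, n = b.natAbs := ⟨_, rfl⟩
  rw [← hn, small_range_eq b D hb]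
  obtain ⟨y₁, hy₁⟩ : ∃ y, y = (b - 1).toNat := ⟨_, rfl⟩
  obtain ⟨y₂, hy₂⟩ : ∃ y, y = ((N : ℤ) - b).toNat := ⟨_, rfl⟩
  obtain ⟨y₃, hy₃⟩ : ∃ y, y = (-b).toNat := ⟨_, rfl⟩
  rw [← hy₁, ← hy₂, ← hy₃]
  obtain ⟨main, hmain⟩ : ∃ main : ℕ → ℕ → ℝ,
      main = fun y d => if d.Coprime n then (y : ℝ) / d.totient else 0 := ⟨_, rfl⟩
  have e : ∀ y : ℕ, ∀ c : ℤ, c.natAbs = n → y ≤ 2 * N →
      ∑ d ∈ Icc 1 D, |thetaClass y d c - main y d| ≤ X := fun y c hc hy => by
    have h := hbv y c hy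
    rw [hc] at h
    rw [hmain]
    exact h
  have h1 := e y₁ b hn.symm (by omega)
  have h2 := e y₂ (-b) (by rw [Int.natAbs_neg, hn]) (by omega)
  have h3 := e y₃ (-b) (by rw [Int.natAbs_neg, hn]) (by omega)
  obtain ⟨δ, hδ⟩ : ∃ δ : ℝ, δ = (N : ℝ) - ((y₁ : ℝ) + y₂ - y₃) := ⟨_, rfl⟩
  have hδ01 : |δ| ≤ 1 := by
    have hnat : y₁ + y₂ = N + y₃ ∨ y₁ + y₂ + 1 = N + y₃ := by omega
    rcases hnat with h | h
    · have h' : (y₁ : ℝ) + y₂ = N + y₃ := by exact_mod_cast h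
      rw [hδ, abs_le]
      constructor <;> linarith
    · have h' : (y₁ : ℝ) + y₂ + 1 = N + y₃ := by exact_mod_cast h
      rw [hδ, abs_le]
      constructor <;> linarith
  obtain ⟨P, hP⟩ : ∃ P : ℕ → ℝ,
      P = fun d => if d.Coprime n then chi d / (d.totient : ℕ) else 0 := ⟨_, rfl⟩
  have hid : ∀ d, chi d * (thetaClass y₁ d b +
      (thetaClass y₂ d (-b) - thetaClass y₃ d (-b))) =
      chi d * ((thetaClass y₁ d b - main y₁ d) + ((thetaClass y₂ d (-b) - main y₂ d) -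
        (thetaClass y₃ d (-b) - main y₃ d))) + ((N : ℝ) - δ) * P d := by
    intro d
    simp only [hmain, hP, hδ]
    split_ifs <;> ring
  rw [sum_congr rfl fun d _ => hid d, sum_add_distrib, ← mul_sum, sub_mul]
  have hser := abs_sum_sub_series_le (hn ▸ Int.natAbs_pos.2 hb0 : 0 < n) D
  rw [show Ioc 0 D = Icc 1 D from rfl] at hser
  have hsum : |∑ d ∈ Icc 1 D, P d| ≤ D := by
    refine (abs_sum_le_sum_abs _ _).trans ((sum_le_card_nsmul _ _ (1 : ℝ) fun d hd => ?_).trans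
      (le_of_eq (by simp)))
    simp only [hP]
    split_ifs
    · rw [abs_div, Nat.abs_cast]
      exact div_le_one_of_le₀ ((abs_chi_le d).trans
        (Nat.one_le_cast.2 (Nat.totient_pos.2 (mem_Icc.1 hd).1))) (Nat.cast_nonneg _)
    · rw [abs_zero]
      exact zero_le_one
  have hA : |∑ d ∈ Icc 1 D, chi d * ((thetaClass y₁ d b - main y₁ d) +
      ((thetaClass y₂ d (-b) - main y₂ d) - (thetaClass y₃ d (-b) - main y₃ d)))| ≤ 3 * X := by
    refine (abs_sum_le_sum_abs _ _).trans ((sum_le_sum (g := fun d =>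
      |thetaClass y₁ d b - main y₁ d| + (|thetaClass y₂ d (-b) - main y₂ d| +
        |thetaClass y₃ d (-b) - main y₃ d|)) fun d _ => ?_).trans ?_)
    · rw [abs_mul]
      refine (mul_le_of_le_one_left (abs_nonneg _) (abs_chi_le d)).trans ?_
      exact (abs_add_le _ _).trans (add_le_add le_rfl (abs_sub _ _))
    · rw [sum_add_distrib, sum_add_distrib]
      linarith
  have hB : |δ * ∑ d ∈ Icc 1 D, P d| ≤ D := by
    rw [abs_mul]
    exact (mul_le_of_le_one_left (abs_nonneg _) hδ01).trans hsum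
  have hC : |(N : ℝ) * (∑ d ∈ Icc 1 D, P d - twoSquareSeries n / 4)| ≤
      N * (eulerBound * (n.divisors.card : ℝ) / Real.sqrt ((D : ℝ) + 1)) := by
    rw [abs_mul, Nat.abs_cast]
    refine mul_le_mul_of_nonneg_left ?_ (Nat.cast_nonneg N)
    rw [hP]
    exact hser
  rw [abs_le] at hA hB hC ⊢
  constructor <;> linarith [hA.1, hA.2, hB.1, hB.2, hC.1, hC.2]

theorem large_part_le {b : ℤ} {N D : ℕ} (hb : b.natAbs ≤ N) {X : ℝ}
    (hbv : ∀ (y : ℕ → ℕ) (c : ℤ), (∀ e, y e ≤ 2 * N) → ∑ e ∈ Icc 1 (N / (D + 1)),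
      |thetaClass (y e) (4 * e) (c + e) - thetaClass (y e) (4 * e) (c + 3 * e)| ≤ X) :
    |∑ m ∈ primeShifts b N, Real.log ((b - m).natAbs : ℕ) *
        (∑ d ∈ m.divisors.filter (D < ·), chi d)| ≤ 3 * X := by
  rw [large_range_eq b D hb]
  have hy : ∀ e ∈ Icc 1 (N / (D + 1)), e * D ≤ N := fun e he =>
    (Nat.mul_le_mul_left e (Nat.le_succ D)).trans
      ((Nat.le_div_iff_mul_le (Nat.succ_pos D)).1 (mem_Icc.1 he).2)
  obtain ⟨K, hK⟩ : ∃ K : ℕ → ℕ, K = fun e => min (e * D) N := ⟨_, rfl⟩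
  have hKN : ∀ e, K e ≤ N := fun e => hK ▸ min_le_right _ _
  have h1 := hbv (fun e => (b - (K e : ℤ) - 1).toNat) b fun e => by have := hKN e; omega
  have h2 := hbv (fun _ => ((N : ℤ) - b).toNat) (-b) fun _ => by omega
  have h3 := hbv (fun e => ((K e : ℤ) - b).toNat) (-b) fun e => by have := hKN e; omega
  refine (abs_sum_le_sum_abs _ _).trans ((sum_le_sum (g := fun e : ℕ =>
    |thetaClass (b - (K e : ℤ) - 1).toNat (4 * e) (b + e) -
        thetaClass (b - (K e : ℤ) - 1).toNat (4 * e) (b + 3 * e)| +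
      (|thetaClass ((N : ℤ) - b).toNat (4 * e) (-b + e) -
          thetaClass ((N : ℤ) - b).toNat (4 * e) (-b + 3 * e)| +
        |thetaClass ((K e : ℤ) - b).toNat (4 * e) (-b + e) -
          thetaClass ((K e : ℤ) - b).toNat (4 * e) (-b + 3 * e)|)) fun e he => ?_).trans ?_)
  · rw [show K e = e * D by rw [hK]; exact min_eq_left (hy e he)]
    refine (abs_add_le _ _).trans (add_le_add (le_of_eq (abs_neg _)) (abs_sub _ _))
  · rw [sum_add_distrib, sum_add_distrib]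
    linarith

/-- **The weighted asymptotic formula.** -/
theorem eventually_weighted : ∀ᶠ N : ℕ in atTop, ∀ b : ℤ, b ≠ 0 → b.natAbs ≤ N →
    |weightedSum b N - N * (twoSquareSeries b.natAbs / 4)| ≤
      N * Real.exp (-(1 / 2000) * Real.log (Real.log N)) := by
  obtain ⟨B₁, C₁, hC₁, hbv₁⟩ := exists_single_bound 2
  obtain ⟨B₂, C₂, hC₂, hbv₂⟩ := exists_pair_bound 2
  obtain ⟨B, hB⟩ : ∃ B : ℕ, B = B₁ + B₂ + 2 := ⟨_, rfl⟩
  obtain ⟨Cd, hCd, hdiv⟩ := exists_card_divisors_le (show (0 : ℝ) < 1 / 400 by norm_num)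
  obtain ⟨K, hK⟩ : ∃ K : ℝ,
      K = 6 * C₁ + 6 * C₂ + 40 + eulerBound * Cd + 1 := ⟨_, rfl⟩
  filter_upwards [eventually_cut_facts B, eventually_middle_le B, eventually_ge_atTop 3,
    eventually_ge_log ((4 : ℝ) * 2 ^ (B₁ + B₂)),
    eventually_ge_loglog ((|Real.log K| + 1) * 4),
    tendsto_loglog.eventually (eventually_ge_atTop 8000)]
    with N hN hmid hN3 hL2 hlK hl8 b hb0 hb
  obtain ⟨hN2, hL1, hl, hlL, hlow, hhigh, hle, hhighN, -, -⟩ := hN
  have hdN := hdiv N hN2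
  have hmb := hmid b hb0 hb (primeShifts b N) Subset.rfl
  clear hmid
  obtain ⟨L, hLd⟩ : ∃ L, L = Real.log N := ⟨_, rfl⟩
  obtain ⟨l, hld⟩ : ∃ l, l = Real.log L := ⟨_, rfl⟩
  rw [← hLd] at hL1 hlL hL2 hlK hl8 hdN hlow hhigh hl hmb ⊢
  rw [← hld] at hlL hl hlK hl8 hlow hhigh hmb ⊢
  obtain ⟨hLl, hBl, hL200, hLexp, hLL⟩ := log_power_facts hL1 hld hl hlL
  have hN0 : (0 : ℝ) < N := Nat.cast_pos.2 (by omega)
  have hNe : (N : ℝ) = Real.exp L := by rw [hLd, Real.exp_log hN0]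
  have hL0 : 0 < L := by linarith
  have hsqrt : Real.sqrt N = Real.exp (L / 2) := by
    rw [Real.sqrt_eq_rpow, Real.rpow_def_of_pos hN0, ← hLd]
    ring_nf
  have hlog2 : Real.log ((2 * N : ℕ) : ℝ) ≤ 2 * L ∧ L ≤ Real.log ((2 * N : ℕ) : ℝ) := by
    push_cast
    rw [Real.log_mul two_ne_zero hN0.ne', ← hLd]
    constructor <;> linarith [Real.log_two_lt_d9, Real.log_two_gt_d9]
  have hcut : ∀ Bi : ℕ, Bi ≤ B₁ + B₂ → 4 * Real.sqrt N / L ^ B ≤
      Real.sqrt ((2 * N : ℕ) : ℝ) / Real.log ((2 * N : ℕ) : ℝ) ^ Bi := by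
    intro Bi hBi
    have h1 : 4 * Real.log ((2 * N : ℕ) : ℝ) ^ Bi ≤ L ^ B := by
      refine (mul_le_mul_of_nonneg_left (pow_le_pow_left₀ (by linarith [hlog2.2]) hlog2.1 Bi)
        (by norm_num)).trans ?_
      rw [mul_pow, ← mul_assoc]
      refine (mul_le_mul_of_nonneg_right ((mul_le_mul_of_nonneg_left
        (pow_le_pow_right₀ one_le_two hBi) (by norm_num)).trans hL2) (by positivity)).trans ?_
      rw [← pow_succ']
      exact pow_le_pow_right₀ hL1 (by omega)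
    have h2 : Real.sqrt N ≤ Real.sqrt ((2 * N : ℕ) : ℝ) :=
      Real.sqrt_le_sqrt (Nat.cast_le.2 (by omega))
    rw [div_le_div_iff₀ (by positivity) (pow_pos (by linarith [hlog2.2]) _)]
    calc 4 * Real.sqrt N * Real.log ((2 * N : ℕ) : ℝ) ^ Bi
        = Real.sqrt N * (4 * Real.log ((2 * N : ℕ) : ℝ) ^ Bi) := by ring
      _ ≤ Real.sqrt ((2 * N : ℕ) : ℝ) * L ^ B :=
          mul_le_mul h2 h1 (mul_nonneg (by norm_num) (pow_nonneg (by linarith [hlog2.2]) _))
            (Real.sqrt_nonneg _)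
  obtain ⟨D₁, hD₁⟩ : ∃ D, D = cutLow B N := ⟨_, rfl⟩
  obtain ⟨D₂, hD₂⟩ : ∃ D, D = cutHigh B N := ⟨_, rfl⟩
  obtain ⟨E, hE⟩ : ∃ E, E = N / (D₂ + 1) := ⟨_, rfl⟩
  have hD₁le : (D₁ : ℝ) ≤ Real.sqrt N / L ^ B := by
    rw [hD₁, cutLow, ← hLd]
    exact Nat.floor_le (by positivity)
  have hEle : (E : ℝ) ≤ Real.sqrt N / L ^ B := by
    rw [hE]
    refine Nat.cast_div_le.trans ?_
    rw [div_le_div_iff₀ (by positivity) (by positivity)]
    have h := Nat.lt_floor_add_one (Real.sqrt N * L ^ B)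
    rw [hLd, ← cutHigh, ← hLd, ← hD₂] at h
    push_cast
    calc (N : ℝ) * L ^ B = Real.sqrt N * (Real.sqrt N * L ^ B) := by
          rw [← mul_assoc, Real.mul_self_sqrt hN0.le]
      _ ≤ Real.sqrt N * ((D₂ : ℝ) + 1) := mul_le_mul_of_nonneg_left h.le (Real.sqrt_nonneg _)
  have hquad : Real.sqrt N / L ^ B ≤ Real.sqrt N :=
    div_le_self (Real.sqrt_nonneg _) (one_le_pow₀ hL1)
  obtain ⟨Y, hY⟩ : ∃ Y, Y = ((2 * N : ℕ) : ℝ) / Real.log ((2 * N : ℕ) : ℝ) ^ 2 := ⟨_, rfl⟩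
  have hbig : (3 : ℕ) ≤ 2 * N := by omega
  have hs := hbv₁ (2 * N) hbig D₁ (le_trans
    (le_trans hD₁le (div_le_div_of_nonneg_right (by linarith [Real.sqrt_nonneg (N : ℝ)])
      (pow_nonneg hL0.le _))) (hcut B₁ (by omega)))
  have hl' := hbv₂ (2 * N) hbig E (le_trans (by
    push_cast
    rw [mul_div_assoc]
    exact mul_le_mul_of_nonneg_left hEle (by norm_num)) (hcut B₂ (by omega)))
  rw [← hY] at hs hl'
  have hsmall := small_main_le hb hb0 (fun y c hy => hs y c hy)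
  have hlarge := large_part_le (D := D₂) hb (by
    rw [← hE]
    exact fun y c hy => hl' y c hy)
  have hsplit : weightedSum b N = (∑ m ∈ primeShifts b N, Real.log ((b - m).natAbs : ℕ) *
      (∑ d ∈ m.divisors.filter (· ≤ D₁), chi d)) +
      (∑ m ∈ primeShifts b N, Real.log ((b - m).natAbs : ℕ) * windowSum D₁ D₂ m) +
      ∑ m ∈ primeShifts b N, Real.log ((b - m).natAbs : ℕ) *
        (∑ d ∈ m.divisors.filter (D₂ < ·), chi d) := by
    rw [weightedSum, ← sum_add_distrib, ← sum_add_distrib]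
    refine sum_congr rfl fun m hm => ?_
    rw [chiDivisorSum_split (hD₁ ▸ hD₂ ▸ hle)
      (show 0 < m from (mem_Icc.1 (mem_filter.1 hm).1).1)]
    ring
  rw [← hD₁, ← hD₂] at hmb
  have hY2 : Y ≤ 2 * (N / L ^ 2) := by
    rw [hY, Nat.cast_mul, Nat.cast_ofNat, ← mul_div_assoc]
    refine div_le_div_of_nonneg_left (by positivity) (by positivity) ?_
    exact pow_le_pow_left₀ hL0.le (by
      have := hlog2.2
      push_cast at this
      exact this) 2
  have hroot : Real.sqrt N * L ≤ N / L := by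
    rw [le_div_iff₀ hL0, hsqrt, hNe, mul_assoc]
    refine (mul_le_mul_of_nonneg_left (show L * L ≤ Real.exp (L / 2) from
      (show L * L = L / 100 * L * 100 by ring) ▸ (mul_le_mul_of_nonneg_right hLL
        (by norm_num)).trans ?_) (Real.exp_pos _).le).trans (le_of_eq ?_)
    · have h100 : (100 : ℝ) ≤ Real.exp (L / 4) := by
        nlinarith [Real.add_one_le_exp (L / 4), Real.quadratic_le_exp_of_nonneg
          (show 0 ≤ L / 4 by linarith)]
      calc Real.exp (L / 100) * 100 ≤ Real.exp (L / 100) * Real.exp (L / 4) :=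
            mul_le_mul_of_nonneg_left h100 (Real.exp_pos _).le
        _ ≤ _ := by
            rw [← Real.exp_add]
            exact Real.exp_le_exp.2 (by linarith)
    · rw [← Real.exp_add]
      ring_nf
  have hlogD : ∀ D : ℕ, (D : ℝ) ≤ Real.sqrt N → (D : ℝ) * Real.log D ≤ Real.sqrt N * L := by
    intro D hD
    refine mul_le_mul hD ?_ (Real.log_natCast_nonneg D) (Real.sqrt_nonneg _)
    rcases Nat.eq_zero_or_pos D with rfl | hD0
    · simp [hL0.le]
    refine (Real.log_le_log (Nat.cast_pos.2 hD0) hD).trans ?_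
    rw [hsqrt, Real.log_exp]
    linarith
  have hs1 := hlogD D₁ (hD₁le.trans hquad)
  have hl1 : (E : ℝ) * Real.log (4 * E) ≤ 2 * (Real.sqrt N * L) := by
    rcases Nat.eq_zero_or_pos E with h0 | hE0
    · rw [h0, Nat.cast_zero, zero_mul]
      positivity
    have hE0' : (0 : ℝ) < E := Nat.cast_pos.2 hE0
    rw [Real.log_mul (by norm_num) hE0'.ne', mul_add]
    have h4 : Real.log 4 ≤ L := by
      linarith [Real.log_le_sub_one_of_pos (show (0 : ℝ) < 4 by norm_num)]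
    have := hlogD E (hEle.trans hquad)
    nlinarith [mul_le_mul (hEle.trans hquad) h4
      (Real.log_nonneg (by norm_num)) (Real.sqrt_nonneg _)]
  have hD1' : (D₁ : ℝ) ≤ Real.sqrt N * L :=
    (hD₁le.trans hquad).trans (le_mul_of_one_le_right (Real.sqrt_nonneg _) hL1)
  have hdiv' : (b.natAbs.divisors.card : ℝ) ≤ Cd * Real.exp (1 / 400 * L) :=
    hdN _ (mem_Icc.2 ⟨Int.natAbs_pos.2 hb0, hb⟩)
  have hser : eulerBound * (b.natAbs.divisors.card : ℝ) / Real.sqrt ((D₁ : ℝ) + 1) ≤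
      eulerBound * Cd * (1 / L) := by
    have h1 : Real.exp (L / 5) ≤ Real.sqrt ((D₁ : ℝ) + 1) := by
      rw [Real.le_sqrt (Real.exp_pos _).le (by positivity), sq, ← Real.exp_add]
      exact (Real.exp_le_exp.2 (by linarith)).trans (hD₁ ▸ hlow)
    rw [mul_div_assoc, mul_assoc eulerBound]
    refine mul_le_mul_of_nonneg_left ?_ eulerBound_pos.le
    refine (div_le_div₀ (by positivity) hdiv' (Real.exp_pos _) h1).trans ?_
    rw [mul_div_assoc, ← Real.exp_sub]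
    refine mul_le_mul_of_nonneg_left ?_ (by linarith)
    rw [one_div L, hLl, ← Real.exp_neg, Real.exp_le_exp, ← hLl]
    linarith [Real.add_one_le_exp l, hLl, mul_nonneg (Nat.cast_nonneg (α := ℝ) B) (show 0 ≤ l by
      linarith)]
  obtain ⟨T, hT⟩ : ∃ T, T = (N : ℝ) / L := ⟨_, rfl⟩
  have hT0 : 0 ≤ T := hT ▸ by positivity
  have hN2T : (N : ℝ) / L ^ 2 ≤ T := by
    rw [hT, sq, ← div_div]
    exact div_le_self (by positivity) hL1
  have hE2 : (N : ℝ) * (eulerBound * (b.natAbs.divisors.card : ℝ) / Real.sqrt ((D₁ : ℝ) + 1)) ≤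
      eulerBound * Cd * T := by
    refine (mul_le_mul_of_nonneg_left hser hN0.le).trans (le_of_eq ?_)
    rw [hT]
    ring
  have herr : K * T + N * Real.exp (-(1 / 1000) * l) ≤ N * Real.exp (-(1 / 2000) * l) := by
    have hK0 : 0 < K := hK ▸ by
      have := eulerBound_pos
      positivity
    have h1 : K * T ≤ N * Real.exp (-(3 / 4) * l) := by
      rw [hT, ← mul_div_assoc, mul_comm K, mul_div_assoc]
      refine mul_le_mul_of_nonneg_left ?_ hN0.le
      rw [hLl, ← Real.exp_log hK0, ← Real.exp_sub, Real.exp_le_exp]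
      linarith [le_abs_self (Real.log K)]
    have h2 : Real.exp (-(3 / 4) * l) ≤ Real.exp (-(1 / 1000) * l) :=
      Real.exp_le_exp.2 (by linarith)
    have h3 : 2 * Real.exp (-(1 / 1000) * l) ≤ Real.exp (-(1 / 2000) * l) := by
      rw [show -(1 / 2000 : ℝ) * l = l / 2000 + -(1 / 1000) * l by ring, Real.exp_add]
      refine mul_le_mul_of_nonneg_right ?_ (Real.exp_pos _).le
      linarith [Real.add_one_le_exp (l / 2000)]
    linarith [mul_le_mul_of_nonneg_left h2 hN0.le, mul_le_mul_of_nonneg_left h3 hN0.le]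
  rw [← hT] at hroot
  have hC1Y : C₁ * Y ≤ 2 * C₁ * T := by
    linarith [mul_le_mul_of_nonneg_left hY2 hC₁.le, mul_le_mul_of_nonneg_left hN2T hC₁.le]
  have hC2Y : C₂ * Y ≤ 2 * C₂ * T := by
    linarith [mul_le_mul_of_nonneg_left hY2 hC₂.le, mul_le_mul_of_nonneg_left hN2T hC₂.le]
  rw [hK] at herr
  rw [hsplit, abs_le] at *
  constructor <;> linarith [hsmall.1, hsmall.2, hmb.1, hmb.2, hlarge.1, hlarge.2]

end FA.PrimeTwoSquares
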